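import Fermat.Agent.TwoComponent.Ordinary.Interface

/-!
# Eigenspaces of a tame inertia element against connected and toric parts

`s` is an element of inertia acting by `-1` on `Pa` and by `1` on `Pd`. Under the two geometric
properties the decomposition group keeps `Pa`, and inertia acts on `Pd` modulo `Pa` by maps whose
products of two vanish.
-/

noncomputable section

namespace Fermat.Agent.TwoComponent.Ordinary

local notation "Qbar" => AlgebraicClosure ℚ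
local notation "GQ" => (AlgebraicClosure ℚ ≃ₐ[ℚ] AlgebraicClosure ℚ)

variable {M J : Type*} [AddCommGroup M] [DistribMulAction GQ M] [AddCommGroup J]
  [DistribMulAction GQ J] {A : ValuationSubring Qbar} {p : ℕ} [Fact p.Prime]

theorem inertia_le_decomposition (A : ValuationSubring Qbar) :
    A.inertiaSubgroupIn ℚ ≤ A.decompositionSubgroup ℚ :=
  Subgroup.map_subtype_le _

omit [DistribMulAction Gal(Qbar/ℚ) M] in
/-- Multiplication by `2` is invertible on a group killed by a power of an odd prime. -/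
theorem mem_of_two_nsmul_mem (hp2 : p ≠ 2) {n : ℕ} {x : M} (hx : p ^ n • x = 0)
    {H : AddSubgroup M} (h : 2 • x ∈ H) : x ∈ H := by
  have hodd : Odd (p ^ n) := ((Fact.out : p.Prime).odd_of_ne_two hp2).pow
  obtain ⟨m, hm⟩ := hodd
  have e : (m + 1) • (2 • x) = x := by
    rw [smul_smul, show (m + 1) * 2 = p ^ n + 1 by omega, add_nsmul, hx, zero_add, one_nsmul]
  rw [← e]
  exact nsmul_mem h _

omit [DistribMulAction Gal(Qbar/ℚ) M] in
theorem eq_zero_of_two_nsmul (hp2 : p ≠ 2) {n : ℕ} {x : M} (hx : p ^ n • x = 0)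
    (h : 2 • x = 0) : x = 0 :=
  AddSubgroup.mem_bot.mp (mem_of_two_nsmul_mem hp2 hx (AddSubgroup.mem_bot.mpr h))

variable {s : GQ}

/-- Against a connected part: the decomposition group keeps `Qa 0`, and inertia fixes `Qd 0` modulo
`Qa 0`. -/
theorem connected_split (hp2 : p ≠ 2) (hM : HasConnectedPart A p M)
    (hs : s ∈ A.inertiaSubgroupIn ℚ) {n k : ℕ} (Qa Qd : ℕ → AddSubgroup M)
    (hka : ∀ x ∈ Qa 0, p ^ n • x = 0) (hkd : ∀ x ∈ Qd 0, p ^ n • x = 0)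
    (ha : ∀ x ∈ Qa 0, s • x = -x) (hsd : ∀ x ∈ Qd 0, s • x = x)
    (hanti : ∀ i, Qa i ≤ Qa 0 ∧ Qd i ≤ Qd 0) (hbot : ∀ i, k ≤ i → Qd i = ⊥)
    (hDa : ∀ σ ∈ A.decompositionSubgroup ℚ, ∀ u ∈ Qa 0, σ • u ∈ Qa 0 ⊔ Qd 0)
    (hId0 : ∀ σ ∈ A.inertiaSubgroupIn ℚ, ∀ v ∈ Qd 0, σ • v - v ∈ Qa 0 ⊔ Qd 0)
    (hIa : ∀ i, ∀ σ ∈ A.inertiaSubgroupIn ℚ, ∀ u ∈ Qa i, σ • u ∈ Qa i ⊔ Qd (i + 1))
    (hId : ∀ i, ∀ σ ∈ A.inertiaSubgroupIn ℚ, ∀ v ∈ Qd i, σ • v - v ∈ Qa i ⊔ Qd (i + 1))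
    (hpd : ∀ i, ∀ v ∈ Qd i, p • v ∈ Qd (i + 1)) :
    (∀ σ ∈ A.decompositionSubgroup ℚ, ∀ u ∈ Qa 0, σ • u ∈ Qa 0) ∧
      ∀ σ ∈ A.inertiaSubgroupIn ℚ, ∀ v ∈ Qd 0, σ • v - v ∈ Qa 0 := by
  obtain ⟨C, -, hD, hI, hmin⟩ := hM n
  have hQaC : ∀ u ∈ Qa 0, u ∈ C := fun u hu => by
    refine mem_of_two_nsmul_mem hp2 (hka u hu) ?_
    have h := C.neg_mem (hI s hs u (hka u hu))
    rwa [ha u hu, neg_sub, sub_neg_eq_add, ← two_nsmul] at h
  have hsplit : ∀ a ∈ Qa 0, ∀ d ∈ Qd 0, a + d ∈ C → d ∈ C := fun a ha' d _ h =>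
    (C.add_mem_cancel_left (hQaC a ha')).mp h
  -- downward induction on the filtration
  have hzero : ∀ j i, k ≤ i + j → ∀ v ∈ Qd i, v ∈ C → v = 0 := by
    intro j
    induction j with
    | zero =>
      intro i hi v hv _
      have hik : k ≤ i := by simpa using hi
      exact AddSubgroup.mem_bot.mp (hbot i hik ▸ hv)
    | succ j ih =>
      intro i hi v hv hvC
      have hnext : ∀ w ∈ Qd (i + 1), w ∈ C → w = 0 := ih (i + 1) (by omega)
      have hstab : ∀ σ ∈ A.inertiaSubgroupIn ℚ, ∀ x ∈ Qa i, σ • x ∈ Qa i := by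
        intro σ hσ x hx
        obtain ⟨a, ha', d, hd', e⟩ := AddSubgroup.mem_sup.mp (hIa i σ hσ x hx)
        have hdC : d ∈ C := hsplit a ((hanti i).1 ha') d ((hanti _).2 hd') (by
          rw [e]; exact hD σ (inertia_le_decomposition A hσ) x (hQaC x ((hanti i).1 hx)))
        rw [hnext d hd' hdC, add_zero] at e
        rwa [← e]
      have hmem : v ∈ Qa i := by
        refine hmin (Qa i) (fun x hx => hQaC x ((hanti i).1 hx)) hstab v hvC ?_ ?_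
        · rw [hnext _ (hpd i v hv) (nsmul_mem hvC p)]
          exact zero_mem _
        · intro σ hσ
          obtain ⟨a, ha', d, hd', e⟩ := AddSubgroup.mem_sup.mp (hId i σ hσ v hv)
          have hdC : d ∈ C := hsplit a ((hanti i).1 ha') d ((hanti _).2 hd') (by
            rw [e]; exact hI σ hσ v (hkd v ((hanti i).2 hv)))
          rw [hnext d hd' hdC, add_zero] at e
          rwa [← e]
      refine eq_zero_of_two_nsmul hp2 (hkd v ((hanti i).2 hv)) ?_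
      rw [two_nsmul, ← eq_neg_iff_add_eq_zero]
      exact (hsd v ((hanti i).2 hv)).symm.trans (ha v ((hanti i).1 hmem))
  have hfinish : ∀ z ∈ Qa 0 ⊔ Qd 0, z ∈ C → z ∈ Qa 0 := fun z hz hzC => by
    obtain ⟨a, ha', d, hd', e⟩ := AddSubgroup.mem_sup.mp hz
    rw [hzero k 0 (by omega) d hd' (hsplit a ha' d hd' (e ▸ hzC)), add_zero] at e
    exact e ▸ ha'
  exact ⟨fun σ hσ u hu => hfinish _ (hDa σ hσ u hu) (hD σ hσ u (hQaC u hu)),
    fun σ hσ v hv => hfinish _ (hId0 σ hσ v hv) (hI σ hσ v (hkd v hv))⟩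

/-- Against a toric part, given the result for the images under the two maps. -/
theorem toric_split (hp2 : p ≠ 2) {f g : M →+ J} (hM : HasToricPart A p f g)
    (hf : ∀ (σ : GQ) (x : M), f (σ • x) = σ • f x) (hg : ∀ (σ : GQ) (x : M), g (σ • x) = σ • g x)
    (hs : s ∈ A.inertiaSubgroupIn ℚ) (hsroot : ActsByOnRoots p s (p - 1)) {n : ℕ}
    (Pa Pd : AddSubgroup M)
    (hka : ∀ x ∈ Pa, p ^ n • x = 0) (hkd : ∀ x ∈ Pd, p ^ n • x = 0)
    (ha : ∀ x ∈ Pa, s • x = -x) (hsd : ∀ x ∈ Pd, s • x = x)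
    (hDa : ∀ σ ∈ A.decompositionSubgroup ℚ, ∀ u ∈ Pa, σ • u ∈ Pa ⊔ Pd)
    (hId : ∀ σ ∈ A.inertiaSubgroupIn ℚ, ∀ v ∈ Pd, σ • v - v ∈ Pa ⊔ Pd)
    (hfa : ∀ σ ∈ A.decompositionSubgroup ℚ, ∀ u ∈ Pa, f (σ • u) ∈ Pa.map f)
    (hga : ∀ σ ∈ A.decompositionSubgroup ℚ, ∀ u ∈ Pa, g (σ • u) ∈ Pa.map g)
    (hfd : ∀ σ ∈ A.inertiaSubgroupIn ℚ, ∀ v ∈ Pd, f (σ • v - v) ∈ Pa.map f)
    (hgd : ∀ σ ∈ A.inertiaSubgroupIn ℚ, ∀ v ∈ Pd, g (σ • v - v) ∈ Pa.map g) :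
    (∀ σ ∈ A.decompositionSubgroup ℚ, ∀ u ∈ Pa, σ • u ∈ Pa) ∧
      ∀ σ ∈ A.inertiaSubgroupIn ℚ, ∀ τ ∈ A.inertiaSubgroupIn ℚ, ∀ v ∈ Pd,
        σ • (τ • v - v) - (τ • v - v) ∈ Pa := by
  obtain ⟨C, hkC, hD, hI, hmult⟩ := hM n
  have hPaC : ∀ u ∈ Pa, u ∈ C := fun u hu => by
    have h := hI s hs s hs u (hka u hu)
    have hn : ∀ y : M, p ^ n • y = 0 → p ^ n • (2 • y) = 0 := fun y hy => by
      rw [smul_comm, hy, smul_zero]
    refine mem_of_two_nsmul_mem hp2 (hka u hu) (mem_of_two_nsmul_mem hp2 (hn u (hka u hu)) ?_)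
    convert h using 1
    rw [smul_sub, ha u hu, smul_neg, ha u hu]
    simp only [two_nsmul]
    abel
  have hflat : ∀ (φ : M →+ J), (∀ (σ : GQ) (x : M), φ (σ • x) = σ • φ x) →
      ∀ a ∈ Pa, ∀ d ∈ Pd, φ (a + d) ∈ Pa.map φ → φ d = 0 := by
    intro φ hφ a ha' d hd' h
    obtain ⟨b, hb, e⟩ := h
    have e' : φ d = φ (b - a) := by rw [map_sub, e, map_add, add_sub_cancel_left]
    have h2 : φ d = -φ d := by
      have h3 : s • φ d = s • φ (b - a) := congrArg (s • ·) e'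
      rw [← hφ, ← hφ, hsd d hd', ha _ (sub_mem hb ha'), map_neg, ← e'] at h3
      exact h3
    refine eq_zero_of_two_nsmul hp2 (n := n) ?_
        (by rw [two_nsmul, ← eq_neg_iff_add_eq_zero]; exact h2)
    rw [← map_nsmul, hkd d hd', map_zero]
  have hsmall : ∀ d ∈ Pd, d ∈ C → f d = 0 → g d = 0 → d = 0 := by
    suffices H : ∀ m : ℕ, ∀ d ∈ Pd, d ∈ C → f d = 0 → g d = 0 → p ^ m • d = 0 → d = 0 from
      fun d h1 h2 h3 h4 => H n d h1 h2 h3 h4 (hkd d h1)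
    intro m
    induction m with
    | zero => intro d _ _ _ _ h; rwa [pow_zero, one_nsmul] at h
    | succ m ih =>
      intro d h1 h2 h3 h4 h5
      refine ih d h1 h2 h3 h4 ?_
      set y := p ^ m • d
      have hy : p • y = 0 := by rw [smul_smul, ← pow_succ', h5]
      have hy2 : (p - 1) • y = y :=
        (hmult y (nsmul_mem h2 _) hy (by rw [map_nsmul, h3, smul_zero])
          (by rw [map_nsmul, h4, smul_zero]) s hs _ hsroot).symm.trans (hsd y (nsmul_mem h1 _))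
      refine eq_zero_of_two_nsmul hp2 (n := 1) (by rwa [pow_one]) ?_
      have h7 : (p - 1) • y + y = 0 := by
        rw [← succ_nsmul, Nat.sub_add_cancel (Fact.out : p.Prime).one_le]; exact hy
      rw [two_nsmul]
      rwa [hy2] at h7
  have part1 : ∀ σ ∈ A.decompositionSubgroup ℚ, ∀ u ∈ Pa, σ • u ∈ Pa := fun σ hσ u hu => by
    obtain ⟨a, ha', d, hd', e⟩ := AddSubgroup.mem_sup.mp (hDa σ hσ u hu)
    have hdC : d ∈ C := (C.add_mem_cancel_left (hPaC a ha')).mp (e ▸ hD σ hσ u (hPaC u hu))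
    rw [hsmall d hd' hdC (hflat f hf a ha' d hd' (e ▸ hfa σ hσ u hu))
      (hflat g hg a ha' d hd' (e ▸ hga σ hσ u hu)), add_zero] at e
    exact e ▸ ha'
  refine ⟨part1, fun σ hσ τ hτ v hv => ?_⟩
  obtain ⟨a, ha', d, hd', e⟩ := AddSubgroup.mem_sup.mp (hId τ hτ v hv)
  obtain ⟨a2, ha2, d2, hd2, e2⟩ := AddSubgroup.mem_sup.mp (hId σ hσ d hd')
  have etot : σ • (τ • v - v) - (τ • v - v) = (σ • a - a + a2) + d2 := by
    have e2' : d2 = σ • d - d - a2 := eq_sub_of_add_eq' e2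
    rw [← e, e2', smul_add]
    abel
  have hA : σ • a - a + a2 ∈ Pa :=
    add_mem (sub_mem (part1 σ (inertia_le_decomposition A hσ) a ha') ha') ha2
  have hdC : d2 ∈ C :=
    (C.add_mem_cancel_left (hPaC _ hA)).mp (etot ▸ hI σ hσ τ hτ v (hkd v hv))
  rw [etot, hsmall d2 hd2 hdC (hflat f hf a2 ha2 d2 hd2 (e2 ▸ hfd σ hσ d hd'))
    (hflat g hg a2 ha2 d2 hd2 (e2 ▸ hgd σ hσ d hd')), add_zero]
  exact hA

end Fermat.Agent.TwoComponent.Ordinary
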