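import Fermat.Prelude.Def_FLTPrelim_Ramification
import Fermat.Prelude.Def_ModularCurve_ArithmeticGalois

/-!
# What the ordinarity theorem at `p` needs from geometry

Two properties of torsion of Jacobians at a place over `p > 2`: the connected part of good
reduction (from finite flat models), and the part of trivial reduction of semistable reduction
together with the two maps to level prime to `p`.
-/

noncomputable section

namespace Fermat.Agent.TwoComponent.Ordinary

local notation "Qbar" => AlgebraicClosure ℚ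
local notation "GQ" => (AlgebraicClosure ℚ ≃ₐ[ℚ] AlgebraicClosure ℚ)

variable {M J : Type*} [AddCommGroup M] [DistribMulAction GQ M] [AddCommGroup J]
  [DistribMulAction GQ J]

/-- `σ` acts on the `p`-th roots of unity by `a`. -/
def ActsByOnRoots (p : ℕ) (σ : GQ) (a : ℕ) : Prop := ∀ z : Qbar, z ^ p = 1 → σ z = z ^ a

/-- Each level of `p`-power torsion of `M` has a connected part at `A`: stable, with unramified
cokernel, and without nonzero unramified quotient. -/
def HasConnectedPart (A : ValuationSubring Qbar) (p : ℕ) (M : Type*) [AddCommGroup M]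
    [DistribMulAction GQ M] : Prop :=
  ∀ n : ℕ, ∃ C : AddSubgroup M, (∀ x ∈ C, p ^ n • x = 0) ∧
    (∀ σ ∈ A.decompositionSubgroup ℚ, ∀ x ∈ C, σ • x ∈ C) ∧
    (∀ σ ∈ A.inertiaSubgroupIn ℚ, ∀ x : M, p ^ n • x = 0 → σ • x - x ∈ C) ∧
    ∀ H : AddSubgroup M, H ≤ C → (∀ σ ∈ A.inertiaSubgroupIn ℚ, ∀ x ∈ H, σ • x ∈ H) →
      ∀ y ∈ C, p • y ∈ H → (∀ σ ∈ A.inertiaSubgroupIn ℚ, σ • y - y ∈ H) → y ∈ H

/-- Each level of `p`-power torsion of `M` has a part at `A` which contains the image of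
`(σ - 1)(τ - 1)` and on which, once killed by `f` and `g`, the elements of order `p` are of
multiplicative type. -/
def HasToricPart (A : ValuationSubring Qbar) (p : ℕ) (f g : M →+ J) : Prop :=
  ∀ n : ℕ, ∃ C : AddSubgroup M, (∀ x ∈ C, p ^ n • x = 0) ∧
    (∀ σ ∈ A.decompositionSubgroup ℚ, ∀ x ∈ C, σ • x ∈ C) ∧
    (∀ σ ∈ A.inertiaSubgroupIn ℚ, ∀ τ ∈ A.inertiaSubgroupIn ℚ, ∀ x : M, p ^ n • x = 0 →
      σ • (τ • x - x) - (τ • x - x) ∈ C) ∧
    ∀ x ∈ C, p • x = 0 → f x = 0 → g x = 0 →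
      ∀ σ ∈ A.inertiaSubgroupIn ℚ, ∀ a : ℕ, ActsByOnRoots p σ a → σ • x = a • x

end Fermat.Agent.TwoComponent.Ordinary
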