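import Fermat.Agent.TW.Flat.Model
import Fermat.Agent.TwoComponent.Ordinary.Interface

/-!
# Integral functions on a finite inertia module (ordinarity at `p`)

A finitely generated module `Λ` of integral, equivariant functions on a finite group, closed under
products, separating points and with expansions `f (x + x') = ∑ u x * w x'`: a model over the
unramified ring `R`. The key facts: equivariant functions independent over `R` are independent
over `ℚ̄`, and invariant functions expand through invariant functions.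
-/

noncomputable section

open scoped Pointwise

namespace Fermat.Agent.TwoComponent.Ordinary

local notation "Qbar" => AlgebraicClosure ℚ
local notation "GQ" => (AlgebraicClosure ℚ ≃ₐ[ℚ] AlgebraicClosure ℚ)

/-- The elements of `A` fixed by inertia. -/
abbrev R0 (A : ValuationSubring Qbar) : Subring Qbar :=
  TW.Flat.oRing A (A.inertiaSubgroupIn ℚ)

variable {A : ValuationSubring Qbar}

theorem mem_R0 {x : Qbar} :
    x ∈ R0 A ↔ x ∈ A ∧ ∀ σ ∈ A.inertiaSubgroupIn ℚ, σ x = x :=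
  TW.Flat.mem_oRing

/-- Integral equivariant functions, with products and expansions of translates. -/
structure FunModel (A : ValuationSubring Qbar) (M : Type*) [AddCommGroup M]
    [DistribMulAction GQ M] where
  /-- the functions -/
  Λ : Submodule (R0 A) (M → Qbar)
  fg : Λ.FG
  one_mem : (1 : M → Qbar) ∈ Λ
  mul_mem : ∀ f ∈ Λ, ∀ g ∈ Λ, f * g ∈ Λ
  integral : ∀ f ∈ Λ, ∀ x, f x ∈ A
  equiv : ∀ f ∈ Λ, ∀ σ ∈ A.inertiaSubgroupIn ℚ, ∀ x, f (σ • x) = σ (f x)
  separates : ∀ x x' : M, (∀ f ∈ Λ, f x = f x') → x = x'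
  comul : ∀ f ∈ Λ, ∃ (r : ℕ) (u w : Fin r → M → Qbar), (∀ i, u i ∈ Λ) ∧ (∀ i, w i ∈ Λ) ∧
    ∀ x x', f (x + x') = ∑ i, u i x * w i x'

open TW.Flat (pull FnModel)

variable {M : Type*} [AddCommGroup M] [DistribMulAction GQ M]

/-- A model of integral functions over the inertia ring. -/
def FunModel.toFnModel (P : FunModel A M) :
    FnModel A (A.inertiaSubgroupIn ℚ) (fun σ (x : M) => σ • x) where
  Λ := P.Λ
  fg := P.fg
  one_mem := P.one_mem
  mul_le := Submodule.mul_le.mpr P.mul_mem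
  integral := P.integral
  equiv := P.equiv
  comul := by
    rintro _ ⟨f, hf, rfl⟩
    obtain ⟨r, u, w, hu, hw, he⟩ := P.comul f hf
    have e : (pull A (A.inertiaSubgroupIn ℚ) fun q : M × M => q.1 + q.2).toLinearMap f =
        ∑ i, (pull A (A.inertiaSubgroupIn ℚ) (Prod.fst : M × M → M)).toLinearMap (u i) *
          (pull A (A.inertiaSubgroupIn ℚ) (Prod.snd : M × M → M)).toLinearMap (w i) := by
      funext q
      simp only [AlgHom.toLinearMap_apply, TW.Flat.pull_apply, Finset.sum_apply, Pi.mul_apply]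
      exact he q.1 q.2
    rw [e]
    exact sum_mem fun i _ => Submodule.mul_mem_mul ⟨u i, hu i, rfl⟩ ⟨w i, hw i, rfl⟩

theorem FunModel.sep_toFnModel (P : FunModel A M) : P.toFnModel.Sep := P.separates

/-- A complement to the invariant functions: finitely many functions no nontrivial combination of
which, even over `ℚ̄`, is invariant. -/
theorem FunModel.exists_compl (P : FunModel A M) (H : AddSubgroup M)
    (hH : ∀ σ ∈ A.inertiaSubgroupIn ℚ, ∀ x ∈ H, σ • x ∈ H) :
    ∃ (r : ℕ) (c : Fin r → M → Qbar), (∀ l, c l ∈ P.Λ) ∧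
      (∀ f ∈ P.Λ, ∃ (s : Fin r → R0 A), ∀ x, ∀ h ∈ H,
        f (x + h) - ∑ l, (s l : Qbar) * c l (x + h) = f x - ∑ l, (s l : Qbar) * c l x) ∧
      ∀ α : Fin r → Qbar, (∀ x, ∀ h ∈ H, ∑ l, α l * c l (x + h) = ∑ l, α l * c l x) →
        ∀ l, α l = 0 := by
  obtain ⟨r, c, s, hc, hs, hind⟩ :=
    P.toFnModel.exists_proj H hH (fun σ _ x y => smul_add σ x y)
  exact ⟨r, c, hc, fun f hf => ⟨s ⟨f, hf⟩, fun x h hh => by
    simpa [Finset.sum_apply, Subring.smul_def] using hs ⟨f, hf⟩ x h hh⟩, hind⟩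

/-- A function is invariant under a subgroup. -/
def Inv (H : AddSubgroup M) (f : M → Qbar) : Prop := ∀ x, ∀ h ∈ H, f (x + h) = f x

/-- Invariant functions expand through invariant functions. -/
theorem FunModel.exists_inv_comul (P : FunModel A M) (H : AddSubgroup M)
    (hH : ∀ σ ∈ A.inertiaSubgroupIn ℚ, ∀ x ∈ H, σ • x ∈ H) {f : M → Qbar} (hf : f ∈ P.Λ)
    (hinv : Inv H f) :
    ∃ (r : ℕ) (u w : Fin r → M → Qbar), (∀ i, u i ∈ P.Λ ∧ Inv H (u i)) ∧
      (∀ i, w i ∈ P.Λ ∧ Inv H (w i)) ∧ ∀ x x', f (x + x') = ∑ i, u i x * w i x' := by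
  let Q := P.toFnModel.inv H hH (fun σ _ x y => smul_add σ x y)
  suffices h : ∀ F ∈ Q.Λ.map (pull A _ (Prod.fst : M × M → M)).toLinearMap *
        Q.Λ.map (pull A _ (Prod.snd : M × M → M)).toLinearMap,
      ∃ (r : ℕ) (u w : Fin r → M → Qbar), (∀ i, u i ∈ Q.Λ) ∧ (∀ i, w i ∈ Q.Λ) ∧
        ∀ x x', F (x, x') = ∑ i, u i x * w i x' by
    obtain ⟨r, u, w, hu, hw, he⟩ := h _ (Q.comul_mem (f := f) ⟨hf, hinv⟩)
    exact ⟨r, u, w, hu, hw, he⟩
  intro F hF
  refine Submodule.mul_induction_on hF ?_ ?_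
  · rintro _ ⟨u, hu, rfl⟩ _ ⟨w, hw, rfl⟩
    exact ⟨1, fun _ => u, fun _ => w, fun _ => hu, fun _ => hw, fun x x' => by simp⟩
  · rintro F G ⟨r, u, w, hu, hw, he⟩ ⟨r', u', w', hu', hw', he'⟩
    refine ⟨r + r', Fin.append u u', Fin.append w w', fun i => ?_, fun i => ?_, fun x x' => ?_⟩
    · refine Fin.addCases (fun j => ?_) (fun j => ?_) i <;> simp [hu, hu']
    · refine Fin.addCases (fun j => ?_) (fun j => ?_) i <;> simp [hw, hw']
    · simp [Fin.sum_univ_add, he, he']

end Fermat.Agent.TwoComponent.Ordinary
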