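import Mathlib.Data.Nat.Choose.Dvd
import Fermat.Agent.TwoComponent.Ordinary.Functions

/-!
# The connected part of an integral model has no unramified quotient

For `p > 2` an unramified base has `e < p - 1`: if `y` reduces to the identity and is fixed by
inertia modulo a stable subgroup containing `p y`, then `y` lies in that subgroup.
-/

noncomputable section

open scoped Pointwise

namespace Fermat.Agent.TwoComponent.Ordinary

local notation "Qbar" => AlgebraicClosure ℚ
local notation "GQ" => (AlgebraicClosure ℚ ≃ₐ[ℚ] AlgebraicClosure ℚ)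

variable {A : ValuationSubring Qbar} {p : ℕ}
variable {M : Type*} [AddCommGroup M] [DistribMulAction GQ M]

namespace FunModel

variable (P : FunModel A M)

/-- The points reducing to the identity. -/
def RedsToZero (x : M) : Prop := ∀ f ∈ P.Λ, f x - f 0 ∈ A.nonunits

theorem sub_mem_nonunits {a b : Qbar} (ha : a ∈ A.nonunits) (hb : b ∈ A.nonunits) :
    a - b ∈ A.nonunits := by
  rw [A.mem_nonunits_iff] at *
  exact (A.valuation.map_sub a b).trans_lt (max_lt ha hb)

theorem zero_mem_nonunits : (0 : Qbar) ∈ A.nonunits := by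
  rw [A.mem_nonunits_iff, map_zero]
  exact zero_lt_one

theorem add_mem_nonunits {a b : Qbar} (ha : a ∈ A.nonunits) (hb : b ∈ A.nonunits) :
    a + b ∈ A.nonunits := by
  rw [A.mem_nonunits_iff] at *
  exact (A.valuation.map_add a b).trans_lt (max_lt ha hb)

theorem sum_mem_nonunits {ι : Type*} (s : Finset ι) {g : ι → Qbar}
    (h : ∀ i ∈ s, g i ∈ A.nonunits) : ∑ i ∈ s, g i ∈ A.nonunits :=
  Finset.sum_induction _ (· ∈ A.nonunits) (fun _ _ => add_mem_nonunits) zero_mem_nonunits h

theorem redsToZero_zero : P.RedsToZero 0 := fun f _ => by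
  rw [sub_self]; exact zero_mem_nonunits

/-- Congruent points have congruent translates. -/
theorem translate_congr {x x' : M} (h : ∀ f ∈ P.Λ, f x - f x' ∈ A.nonunits) (z : M) :
    ∀ f ∈ P.Λ, f (x + z) - f (x' + z) ∈ A.nonunits := fun f hf => by
  obtain ⟨r, u, w, hu, hw, he⟩ := P.comul f hf
  rw [he, he, ← Finset.sum_sub_distrib]
  refine sum_mem_nonunits _ fun i _ => ?_
  rw [← sub_mul, mul_comm]
  exact Gal.mul_mem_nonunits (P.integral _ (hw i) z) (h _ (hu i))

theorem RedsToZero.add {x x' : M} (hx : P.RedsToZero x) (hx' : P.RedsToZero x') :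
    P.RedsToZero (x + x') := fun f hf => by
  have h1 := P.translate_congr hx x' f hf
  rw [zero_add] at h1
  have := add_mem_nonunits h1 (hx' f hf)
  rwa [sub_add_sub_cancel] at this

theorem RedsToZero.neg {x : M} (hx : P.RedsToZero x) : P.RedsToZero (-x) := fun f hf => by
  have h := P.translate_congr hx (-x) f hf
  rw [add_neg_cancel, zero_add] at h
  have := sub_mem_nonunits zero_mem_nonunits h
  rwa [zero_sub, neg_sub] at this

/-- The points reducing to the identity, as a subgroup. -/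
def kerRed : AddSubgroup M where
  carrier := {x | P.RedsToZero x}
  zero_mem' := P.redsToZero_zero
  add_mem' := RedsToZero.add P
  neg_mem' := RedsToZero.neg P

/-- Inertia moves points within their residue class. -/
theorem smul_sub_mem_kerRed {σ : GQ} (hσ : σ ∈ A.inertiaSubgroupIn ℚ) (x : M) :
    σ • x - x ∈ P.kerRed := fun f hf => by
  have h : ∀ g ∈ P.Λ, g (σ • x) - g x ∈ A.nonunits := fun g hg => by
    rw [P.equiv g hg σ hσ]
    exact (Gal.mem_inertia_iff.mp hσ).2 _ (P.integral g hg x)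
  have := P.translate_congr h (-x) f hf
  rwa [add_neg_cancel, ← sub_eq_add_neg] at this

theorem apply_smul_eq_of_inv {H : AddSubgroup M} {f : M → Qbar} (hf : f ∈ P.Λ) (hinv : Inv H f)
    {x : M} (hx : ∀ σ ∈ A.inertiaSubgroupIn ℚ, σ • x - x ∈ H) :
    ∀ σ ∈ A.inertiaSubgroupIn ℚ, σ (f x) = f x := fun σ hσ => by
  rw [← P.equiv f hf σ hσ, ← hinv x _ (hx σ hσ)]
  congr 1
  abel

theorem _root_.Fermat.Agent.TW.DivPow.mono {m n : ℕ} (h : n ≤ m) {z : Qbar}
    (hz : TW.DivPow A p m z) :
    TW.DivPow A p n z := by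
  obtain ⟨a, ha, rfl⟩ := hz
  exact ⟨(p : Qbar) ^ (m - n) * a, A.mul_mem _ _ (pow_mem (natCast_mem A p) _) ha,
    by rw [← mul_assoc, ← pow_add, Nat.add_sub_cancel' h]⟩

theorem _root_.Fermat.Agent.TW.DivPow.mul {m n : ℕ} {y z : Qbar}
    (hy : TW.DivPow A p m y)
    (hz : TW.DivPow A p n z) :
    TW.DivPow A p (m + n) (y * z) := by
  obtain ⟨a, ha, rfl⟩ := hy
  obtain ⟨b, hb, rfl⟩ := hz
  exact ⟨a * b, A.mul_mem _ _ ha hb, by ring⟩

/-- Elements of the maximal ideal fixed by inertia are divisible by `p`. -/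
theorem dvdPow_one_of_fixed (hp : p.Prime) (hA : A.LiesOverPrime p) {z : Qbar}
    (hz : z ∈ A.nonunits) (hfix : ∀ σ ∈ A.inertiaSubgroupIn ℚ, σ z = z) : TW.DivPow A p 1 z := by
  rcases eq_or_ne z 0 with rfl | hz0
  · exact TW.divPow_zero_right 1
  obtain ⟨j, hj⟩ := Mazur.exists_unit_mul_zpow hp hA hz0 hfix
  have hp0 : (p : Qbar) ≠ 0 := by exact_mod_cast hp.ne_zero
  have hv : A.valuation z = A.valuation (p : Qbar) ^ j := by
    rw [Mazur.IsUnitAt, map_div₀, map_zpow₀] at hj
    exact (div_eq_one_iff_eq (zpow_ne_zero _ (A.valuation.ne_zero_iff.mpr hp0))).mp hj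
  have hlt : A.valuation z < 1 := hz
  have hvp : A.valuation (p : Qbar) < 1 := hA
  have hj1 : 1 ≤ j := by
    by_contra h
    push Not at h
    obtain ⟨m, rfl⟩ : ∃ m : ℕ, j = -(m : ℤ) := ⟨(-j).toNat, by omega⟩
    rw [hv, zpow_neg, zpow_natCast] at hlt
    refine absurd hlt (not_lt.mpr (one_le_inv_iff₀.mpr ⟨?_, pow_le_one₀ zero_le hvp.le⟩))
    exact pow_pos (zero_lt_iff.mpr (A.valuation.ne_zero_iff.mpr hp0)) _
  refine ⟨z / p, ?_, by rw [pow_one, mul_div_cancel₀ _ hp0]⟩
  rw [← A.valuation_le_one_iff, map_div₀, hv]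
  refine div_le_one_of_le₀ ?_ zero_le
  obtain ⟨m, rfl⟩ : ∃ m : ℕ, j = (m : ℤ) + 1 := ⟨(j - 1).toNat, by omega⟩
  rw [zpow_add₀ (A.valuation.ne_zero_iff.mpr hp0), zpow_one, zpow_natCast]
  calc A.valuation (p : Qbar) ^ m * A.valuation (p : Qbar) ≤ 1 * A.valuation (p : Qbar) :=
        mul_le_mul_left (pow_le_one₀ zero_le hvp.le) _
    _ = _ := one_mul _

/-- An invariant function takes the same value at `y` and at `0`: its increments are divisible by
every power of `p`. -/
theorem apply_eq_of_smul_sub_mem (hp : p.Prime) (hp2 : p ≠ 2) (hA : A.LiesOverPrime p)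
    (H : AddSubgroup M) (hH : ∀ σ ∈ A.inertiaSubgroupIn ℚ, ∀ x ∈ H, σ • x ∈ H) {y : M}
    (hy : y ∈ P.kerRed) (hpy : p • y ∈ H)
    (hfix : ∀ σ ∈ A.inertiaSubgroupIn ℚ, σ • y - y ∈ H) {f : M → Qbar} (hf : f ∈ P.Λ)
    (hinv : Inv H f) : f y = f 0 := by
  have hp0 : (p : Qbar) ≠ 0 := by exact_mod_cast hp.ne_zero
  let G : (M → Qbar) → ℕ → Qbar := fun f i => f (i • y) - f 0
  have hGzero : ∀ f, G f 0 = 0 := fun f => by simp [G]
  -- the first estimate
  have hbase : ∀ f ∈ P.Λ, Inv H f → ∀ i, TW.DivPow A p 1 (G f i) := by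
    intro f hf hinv i
    have hiy : ∀ σ ∈ A.inertiaSubgroupIn ℚ, σ • (i • y) - i • y ∈ H := fun σ hσ => by
      rw [smul_comm, ← nsmul_sub]
      exact H.nsmul_mem (hfix σ hσ) i
    refine dvdPow_one_of_fixed hp hA (P.kerRed.nsmul_mem hy i f hf) fun σ hσ => ?_
    rw [map_sub, P.apply_smul_eq_of_inv hf hinv hiy σ hσ,
      P.apply_smul_eq_of_inv hf hinv (x := 0) (fun τ _ => by
          rw [smul_zero, sub_zero]; exact H.zero_mem) σ hσ]
  -- improving the estimate
  have hstep : ∀ n, 1 ≤ n → (∀ f ∈ P.Λ, Inv H f → ∀ i, TW.DivPow A p n (G f i)) →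
      ∀ f ∈ P.Λ, Inv H f → ∀ i, TW.DivPow A p (n + 1) (G f i) := by
    intro n hn ih f hf hinv
    have hadd : ∀ g ∈ P.Λ, Inv H g → ∃ (r : ℕ) (u w : Fin r → M → Qbar),
        (∀ l, u l ∈ P.Λ ∧ Inv H (u l)) ∧ (∀ l, w l ∈ P.Λ ∧ Inv H (w l)) ∧
          ∀ i j, G g (i + j) = G g i + G g j + ∑ l, G (u l) i * G (w l) j := by
      intro g hg hginv
      obtain ⟨r, u, w, hu, hw, he⟩ := P.exists_inv_comul H hH hg hginv
      refine ⟨r, u, w, hu, hw, fun i j => ?_⟩
      have e2 := he (i • y) 0
      have e3 := he 0 (j • y)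
      have e4 := he 0 0
      rw [add_zero] at e2 e4
      rw [zero_add] at e3
      simp only [G, add_nsmul]
      rw [he, e2, e3, e4]
      simp only [← Finset.sum_sub_distrib, ← Finset.sum_add_distrib]
      exact Finset.sum_congr rfl fun l _ => by ring
    -- first order
    have hlin : ∀ g ∈ P.Λ, Inv H g → ∀ i : ℕ, TW.DivPow A p (2 * n) (G g i - i * G g 1) := by
      intro g hg hginv i
      obtain ⟨r, u, w, hu, hw, he⟩ := hadd g hg hginv
      induction i with
      | zero => rw [hGzero, Nat.cast_zero, zero_mul, sub_zero]; exact TW.divPow_zero_right _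
      | succ i hi =>
        rw [he, show G g i + G g 1 + ∑ l, G (u l) i * G (w l) 1 - ((i + 1 : ℕ) : Qbar) * G g 1 =
          (G g i - i * G g 1) + ∑ l, G (u l) i * G (w l) 1 by push_cast; ring]
        refine hi.add (TW.DivPow.sum fun l _ => ?_)
        rw [two_mul]
        exact (ih _ (hu l).1 (hu l).2 i).mul (ih _ (hw l).1 (hw l).2 1)
    obtain ⟨r, u, w, hu, hw, he⟩ := hadd f hf hinv
    set s : Qbar := ∑ l, G (u l) 1 * G (w l) 1 with hs
    have hquad : ∀ i : ℕ, TW.DivPow A p (3 * n) (G f i - i * G f 1 - (i.choose 2 : ℕ) * s) := by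
      intro i
      induction i with
      | zero => simp [hGzero, TW.divPow_zero_right]
      | succ i hi =>
        have e : G f (i + 1) - ((i + 1 : ℕ) : Qbar) * G f 1 - (((i + 1).choose 2 : ℕ) : Qbar) * s =
            (G f i - i * G f 1 - (i.choose 2 : ℕ) * s) +
              ∑ l, (G (u l) i - i * G (u l) 1) * G (w l) 1 := by
          rw [he, Nat.choose_succ_succ', Nat.choose_one_right]
          simp only [sub_mul, Finset.sum_sub_distrib, mul_assoc, ← Finset.mul_sum, hs]
          push_cast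
          ring
        rw [e]
        refine hi.add (TW.DivPow.sum fun l _ => ?_)
        rw [show 3 * n = 2 * n + n by ring]
        exact (hlin _ (hu l).1 (hu l).2 i).mul (ih _ (hw l).1 (hw l).2 1)
    have hGp : G f p = 0 := by
      have := hinv 0 _ hpy
      rw [zero_add] at this
      simp [G, this]
    obtain ⟨a, ha, hae⟩ := hquad p
    obtain ⟨k, hk⟩ := hp.dvd_choose_self (k := 2) (by norm_num) (by have := hp.two_le; omega)
    have hs2 : TW.DivPow A p (2 * n) s := TW.DivPow.sum fun l _ => by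
      rw [two_mul]
      exact (ih _ (hu l).1 (hu l).2 1).mul (ih _ (hw l).1 (hw l).2 1)
    obtain ⟨b, hb, hbe⟩ := hs2
    rw [hGp, zero_sub, hk, hbe, Nat.cast_mul] at hae
    have h1 : TW.DivPow A p (n + 1) (G f 1) := by
      refine ⟨-((p : Qbar) ^ (2 * n - 2) * a + (k : Qbar) * (p : Qbar) ^ (n - 1) * b), ?_, ?_⟩
      · exact neg_mem (add_mem (A.mul_mem _ _ (pow_mem (natCast_mem A p) _) ha)
          (A.mul_mem _ _ (A.mul_mem _ _ (natCast_mem A k) (pow_mem (natCast_mem A p) _)) hb))
      · obtain ⟨m, rfl⟩ : ∃ m, n = m + 1 := ⟨n - 1, by omega⟩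
        refine mul_left_cancel₀ hp0 ?_
        rw [show 2 * (m + 1) - 2 = 2 * m by omega, show m + 1 - 1 = m by omega]
        linear_combination -hae
    intro i
    have := (hlin f hf hinv i).mono (show n + 1 ≤ 2 * n by omega)
    have h2 := this.add (h1.mul_left (natCast_mem A i))
    rwa [sub_add_cancel] at h2
  have hall : ∀ n, 1 ≤ n → ∀ f ∈ P.Λ, Inv H f → ∀ i, TW.DivPow A p n (G f i) := fun n hn => by
    induction n, hn using Nat.le_induction with
    | base => exact hbase
    | succ n hn ih => exact hstep n hn ih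
  by_contra hne
  set z := G f 1 with hz
  have hz0 : z ≠ 0 := by simp only [hz, G, one_nsmul]; exact sub_ne_zero.mpr hne
  -- `z` is algebraic, so not infinitely divisible
  have hfix' : ∀ σ ∈ A.inertiaSubgroupIn ℚ, σ z = z := fun σ hσ => by
    simp only [hz, G, one_nsmul]
    rw [map_sub, P.apply_smul_eq_of_inv hf hinv hfix σ hσ,
      P.apply_smul_eq_of_inv hf hinv (x := 0)
        (fun τ _ => by rw [smul_zero, sub_zero]; exact H.zero_mem) σ hσ]
  obtain ⟨j, hj⟩ := Mazur.exists_unit_mul_zpow hp hA hz0 hfix'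
  obtain ⟨a, ha, hza⟩ := hall (j.natAbs + 1) (by omega) f hf hinv 1
  rw [← hz] at hza
  have hv := congrArg A.valuation hza
  rw [map_mul, map_pow] at hv
  rw [Mazur.IsUnitAt, map_div₀, map_zpow₀] at hj
  have hvp0 : A.valuation (p : Qbar) ≠ 0 := A.valuation.ne_zero_iff.mpr hp0
  rw [(div_eq_one_iff_eq (zpow_ne_zero _ hvp0)).mp hj] at hv
  have hle : A.valuation (p : Qbar) ^ j ≤ A.valuation (p : Qbar) ^ ((j.natAbs + 1 : ℕ) : ℤ) := by
    rw [hv, zpow_natCast]
    exact mul_le_of_le_one_right' ((A.valuation_le_one_iff _).mpr ha)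
  have hlt : A.valuation (p : Qbar) < 1 := hA
  have := (zpow_le_zpow_iff_right_of_lt_one₀ (zero_lt_iff.mpr hvp0) hlt).mp hle
  omega

/-- On a finite module the indicator of a point is a combination of the functions of the model,
as they separate points and are closed under products. -/
theorem indicator_mem_span [Finite M] [DecidableEq M] (z : M) :
    (fun x => if x = z then (1 : Qbar) else 0) ∈
      Submodule.span Qbar (P.Λ : Set (M → Qbar)) := by
  classical
  set U : Submodule Qbar (M → Qbar) := Submodule.span Qbar (P.Λ : Set (M → Qbar)) with hU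
  have hUmul : ∀ a ∈ U, ∀ b ∈ U, a * b ∈ U := fun a ha b hb => by
    have := Submodule.mul_mem_mul ha hb
    rw [hU, Submodule.span_mul_span] at this
    refine Submodule.span_mono ?_ this
    rintro _ ⟨f, hf, g, hg, rfl⟩
    exact P.mul_mem f hf g hg
  have h1U : (1 : M → Qbar) ∈ U := Submodule.subset_span P.one_mem
  have := Fintype.ofFinite M
  have hsep : ∀ x : M, x ≠ z → ∃ g ∈ U, g z = 1 ∧ g x = 0 := fun x hx => by
    obtain ⟨f, hf, hne⟩ : ∃ f ∈ P.Λ, f x ≠ f z := by
      by_contra hcon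
      push Not at hcon
      exact hx (P.separates x z hcon)
    refine ⟨(f z - f x)⁻¹ • (f - f x • (1 : M → Qbar)),
      U.smul_mem _ (U.sub_mem (Submodule.subset_span hf) (U.smul_mem _ h1U)), ?_, ?_⟩
    · simp [inv_mul_cancel₀ (sub_ne_zero.mpr hne.symm)]
    · simp
  choose g hg hgz hgx using hsep
  have he : (fun x => if x = z then (1 : Qbar) else 0) =
      ∏ x : {x : M // x ≠ z}, g x x.2 := by
    funext x
    rw [Finset.prod_apply]
    rcases eq_or_ne x z with rfl | hx
    · rw [if_pos rfl, Finset.prod_eq_one (fun (w : {w : M // w ≠ x}) _ => hgz w w.2)]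
    · rw [if_neg hx]
      exact (Finset.prod_eq_zero (Finset.mem_univ ⟨x, hx⟩) (hgx x hx)).symm
  rw [he]
  exact Finset.prod_induction _ (· ∈ U) (fun a b ha hb => hUmul a ha b hb) h1U
    fun w _ => hg w w.2

/-- **No unramified quotient**: a point reducing to the identity which is fixed by inertia modulo a
stable subgroup `H` containing its multiple by `p` lies in `H`. -/
theorem mem_of_smul_sub_mem [Finite M] (hp : p.Prime) (hp2 : p ≠ 2) (hA : A.LiesOverPrime p)
    (H : AddSubgroup M) (hH : ∀ σ ∈ A.inertiaSubgroupIn ℚ, ∀ x ∈ H, σ • x ∈ H) {y : M}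
    (hy : y ∈ P.kerRed) (hpy : p • y ∈ H)
    (hfix : ∀ σ ∈ A.inertiaSubgroupIn ℚ, σ • y - y ∈ H) : y ∈ H := by
  classical
  have hconst : ∀ f ∈ P.Λ, Inv H f → f y = f 0 := fun f hf hinv =>
    P.apply_eq_of_smul_sub_mem hp hp2 hA H hH hy hpy hfix hf hinv
  -- separation
  obtain ⟨n, c, hc, hsplit, hind⟩ := P.exists_compl H hH
  set U : Submodule Qbar (M → Qbar) := Submodule.span Qbar (P.Λ : Set (M → Qbar)) with hU
  have := Fintype.ofFinite M
  set δ : M → Qbar := fun x => if x ∈ H then 1 else 0 with hδ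
  have hδU : δ ∈ U := by
    have : δ = ∑ z ∈ Finset.univ.filter (· ∈ H), fun x => if x = z then (1 : Qbar) else 0 := by
      funext x
      rw [Finset.sum_apply, Finset.sum_ite_eq]
      simp [hδ]
    rw [this]
    exact U.sum_mem fun z _ => P.indicator_mem_span z
  -- `δ` is a combination of invariant functions and of the complement
  have hdec : ∀ g ∈ U, ∃ (β : M → Qbar) (α : Fin n → Qbar),
      Inv H β ∧ β y = β 0 ∧ ∀ x, g x = β x + ∑ l, α l * c l x := by
    intro g hg
    induction hg using Submodule.span_induction with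
    | mem g hg =>
      obtain ⟨s, hs⟩ := hsplit g hg
      refine ⟨fun x => g x - ∑ l, (s l : Qbar) * c l x, fun l => s l, fun x h hh => hs x h hh,
        ?_, fun x => (sub_add_cancel _ _).symm⟩
      have e : (fun x => g x - ∑ l, (s l : Qbar) * c l x) = g - ∑ l, s l • c l := by
        funext x
        simp [Finset.sum_apply, Subring.smul_def]
      exact hconst _ (e ▸ sub_mem hg (Submodule.sum_mem _ fun l _ => P.Λ.smul_mem _ (hc l)))
        fun x h hh => hs x h hh
    | zero => exact ⟨0, 0, fun x h _ => rfl, rfl, fun x => by simp⟩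
    | add g g' _ _ h h' =>
      obtain ⟨β, α, h1, h2, h3⟩ := h
      obtain ⟨β', α', h1', h2', h3'⟩ := h'
      refine ⟨β + β', α + α', fun x z hz => by simp [h1 x z hz, h1' x z hz], by simp [h2, h2'],
        fun x => ?_⟩
      simp only [Pi.add_apply, h3, h3', add_mul, Finset.sum_add_distrib]
      ring
    | smul a g _ h =>
      obtain ⟨β, α, h1, h2, h3⟩ := h
      refine ⟨a • β, a • α, fun x z hz => by simp [h1 x z hz], by simp [h2], fun x => ?_⟩
      simp only [Pi.smul_apply, h3, smul_eq_mul, mul_add, Finset.mul_sum, mul_assoc]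
  obtain ⟨β, α, hβi, hβy, hβ⟩ := hdec δ hδU
  have hδi : Inv H δ := fun x h hh => by simp only [hδ, add_mem_cancel_right hh]
  have hα := hind α fun x h hh => by
    have e1 := hβ (x + h)
    have e2 := hβ x
    rw [hδi x h hh, hβi x h hh, e2] at e1
    exact (add_left_cancel e1).symm
  have e : ∀ x, δ x = β x := fun x => by simp [hβ x, hα]
  by_contra hyH
  have : δ y = δ 0 := by rw [e, e, hβy]
  simp [hδ, hyH, H.zero_mem] at this

end FunModel

end Fermat.Agent.TwoComponent.Ordinary
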