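import Fermat.Agent.Flat.Transport
import Fermat.Agent.TwoComponent.Ordinary.Connected

/-!
# Connected parts from finite flat models

Torsion with finite flat models over the unramified ring has a connected part in the sense needed
for ordinarity.
-/

noncomputable section

open scoped TensorProduct Pointwise

namespace Fermat.Agent.TwoComponent.Ordinary

local notation "Qbar" => AlgebraicClosure ℚ
local notation "GQ" => (AlgebraicClosure ℚ ≃ₐ[ℚ] AlgebraicClosure ℚ)

open Fermat.Agent.Flat

variable {p : ℕ} [Fact p.Prime]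

omit [Fact p.Prime] in
/-- The span of the functions given by a finite algebra is finitely generated. -/
theorem fg_span_range {A : ValuationSubring Qbar} {H : Type} [CommRing H] [Algebra (Zl p) H]
    [Module.Finite (Zl p) H] (hsc : ∀ z : Zl p, algebraMap (Zl p) Qbar z ∈ R0 A) {X : Type*}
    (φ : X → H →ₐ[Zl p] Qbar) :
    (Submodule.span (R0 A) (Set.range fun (h : H) (x : X) => φ x h)).FG := by
  classical
  let ev : H → X → Qbar := fun h x => φ x h
  set Λ := Submodule.span (R0 A) (Set.range ev) with hΛ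
  have hev : ∀ h, ev h ∈ Λ := fun h => Submodule.subset_span ⟨h, rfl⟩
  obtain ⟨s, hs⟩ := Module.Finite.fg_top (R := Zl p) (M := H)
  refine ⟨s.image ev, le_antisymm (Submodule.span_le.mpr ?_) (Submodule.span_le.mpr ?_)⟩
  · intro f hf
    obtain ⟨h, -, rfl⟩ := Finset.mem_image.mp hf
    exact hev h
  · rintro _ ⟨h, rfl⟩
    have hh : h ∈ Submodule.span (Zl p) (s : Set H) := by rw [hs]; exact Submodule.mem_top
    induction hh using Submodule.span_induction with
    | mem h hh => exact Submodule.subset_span (Finset.mem_image_of_mem ev hh)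
    | zero =>
      rw [show ev 0 = 0 from funext fun x => map_zero _]
      exact Submodule.zero_mem _
    | add a b _ _ ha hb =>
      rw [show ev (a + b) = ev a + ev b from funext fun x => map_add _ _ _]
      exact Submodule.add_mem _ ha hb
    | smul z a _ ha =>
      rw [show ev (z • a) = (⟨_, hsc z⟩ : R0 A) • ev a from funext fun x => by
        show φ x (z • a) = _
        rw [map_smul, Algebra.smul_def, Pi.smul_apply, Subring.smul_def, smul_eq_mul]]
      exact Submodule.smul_mem _ _ ha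

/-- The model spanned by a multiplicative set of integral equivariant functions with expansions. -/
def FunModel.ofSpan {A : ValuationSubring Qbar} {M : Type*} [AddCommGroup M] [DistribMulAction GQ M]
    (S : Set (M → Qbar)) (hfg : (Submodule.span (R0 A) S).FG) (hone : (1 : M → Qbar) ∈ S)
    (hmul : ∀ f ∈ S, ∀ g ∈ S, f * g ∈ S) (hint : ∀ f ∈ S, ∀ x, f x ∈ A)
    (hequiv : ∀ f ∈ S, ∀ σ ∈ A.inertiaSubgroupIn ℚ, ∀ x, f (σ • x) = σ (f x))
    (hsep : ∀ x x' : M, (∀ f ∈ S, f x = f x') → x = x')
    (hcomul : ∀ f ∈ S, ∃ (r : ℕ) (u w : Fin r → M → Qbar), (∀ i, u i ∈ S) ∧ (∀ i, w i ∈ S) ∧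
      ∀ x x', f (x + x') = ∑ i, u i x * w i x') : FunModel A M where
  Λ := Submodule.span (R0 A) S
  fg := hfg
  one_mem := Submodule.subset_span hone
  mul_mem f hf g hg := by
    have := Submodule.mul_mem_mul hf hg
    rw [Submodule.span_mul_span] at this
    refine Submodule.span_mono ?_ this
    rintro _ ⟨a, ha, b, hb, rfl⟩
    exact hmul a ha b hb
  integral f hf x := by
    induction hf using Submodule.span_induction with
    | mem f hf => exact hint f hf x
    | zero => exact A.zero_mem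
    | add a b _ _ ha hb => exact A.add_mem _ _ ha hb
    | smul r a _ ha => exact A.mul_mem _ _ (mem_R0.mp r.2).1 ha
  equiv f hf σ hσ x := by
    induction hf using Submodule.span_induction with
    | mem f hf => exact hequiv f hf σ hσ x
    | zero => exact (map_zero σ).symm
    | add a b _ _ ha hb => simp only [Pi.add_apply, ha, hb, map_add]
    | smul r a _ ha =>
      simp only [Pi.smul_apply, Subring.smul_def, smul_eq_mul, map_mul, ha, (mem_R0.mp r.2).2 σ hσ]
  separates x x' h := hsep x x' fun f hf => h f (Submodule.subset_span hf)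
  comul f hf := by
    induction hf using Submodule.span_induction with
    | mem f hf =>
      obtain ⟨r, u, w, hu, hw, he⟩ := hcomul f hf
      exact ⟨r, u, w, fun i => Submodule.subset_span (hu i),
        fun i => Submodule.subset_span (hw i), he⟩
    | zero => exact ⟨0, Fin.elim0, Fin.elim0, fun i => i.elim0, fun i => i.elim0, by simp⟩
    | add a b _ _ ha hb =>
      obtain ⟨r, u, w, hu, hw, he⟩ := ha
      obtain ⟨r', u', w', hu', hw', he'⟩ := hb
      refine ⟨r + r', Fin.append u u', Fin.append w w', fun i => ?_, fun i => ?_, fun x x' => ?_⟩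
      · refine Fin.addCases (fun j => ?_) (fun j => ?_) i <;> simp [hu, hu']
      · refine Fin.addCases (fun j => ?_) (fun j => ?_) i <;> simp [hw, hw']
      · simp [Fin.sum_univ_add, he, he']
    | smul c a _ ha =>
      obtain ⟨r, u, w, hu, hw, he⟩ := ha
      refine ⟨r, fun i => c • u i, w, fun i => Submodule.smul_mem _ _ (hu i), hw, fun x x' => ?_⟩
      simp only [Pi.smul_apply, he, Subring.smul_def, smul_eq_mul, Finset.mul_sum, mul_assoc]

/-- Functions congruent at two points on a set are congruent on its span. -/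
theorem sub_mem_nonunits_of_mem_span {A : ValuationSubring Qbar} {X : Type*} {S : Set (X → Qbar)}
    {x y : X} (h : ∀ f ∈ S, f x - f y ∈ A.nonunits) {f : X → Qbar}
    (hf : f ∈ Submodule.span (R0 A) S) : f x - f y ∈ A.nonunits := by
  induction hf using Submodule.span_induction with
  | mem f hf => exact h f hf
  | zero => simp
  | add a b _ _ ha hb =>
    simp only [Pi.add_apply]
    rw [add_sub_add_comm]
    exact FunModel.add_mem_nonunits ha hb
  | smul r a _ ha =>
    simp only [Pi.smul_apply, Subring.smul_def, smul_eq_mul, ← mul_sub]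
    exact Gal.mul_mem_nonunits (mem_R0.mp r.2).1 ha

/-- The function on the points of a finite flat model given by an element of its algebra. -/
def modelFun {H M : Type*} [CommRing H] [Algebra (Zl p) H]
    (e : WithConv (H →ₐ[Zl p] Qbar) ≃ M) (h : H) (x : M) : Qbar :=
  (e.symm x).ofConv h

omit [Fact p.Prime] in
theorem modelFun_smul {H M : Type*} [CommRing H] [Algebra (Zl p) H] [SMul GQ M]
    (e : WithConv (H →ₐ[Zl p] Qbar) ≃ M)
    (heq : ∀ (σ : GQ) (f g : WithConv (H →ₐ[Zl p] Qbar)),
      (∀ h : H, g h = σ (f h)) → e g = σ • e f) (σ : GQ) (x : M) (h : H) :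
    modelFun e h (σ • x) = σ (modelFun e h x) := by
  let g : WithConv (H →ₐ[Zl p] Qbar) :=
    WithConv.toConv ((galZl (ℓ := p) σ).toAlgHom.comp (e.symm x).ofConv)
  have hg := heq σ (e.symm x) g fun h => rfl
  rw [Equiv.apply_symm_apply] at hg
  have : e.symm (σ • x) = g := by
    rw [Equiv.symm_apply_eq, hg]
  show (e.symm (σ • x)).ofConv h = _
  rw [this]
  rfl

/-- The functions of a finite flat model. -/
def funModelOfFlat {A : ValuationSubring Qbar} (hA : A.LiesOverPrime p) {H : Type} [CommRing H]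
    [HopfAlgebra (Zl p) H] [Module.Finite (Zl p) H] {M : Type*} [AddCommGroup M]
    [DistribMulAction GQ M] (e : WithConv (H →ₐ[Zl p] Qbar) ≃ M)
    (hadd : ∀ f g, e (f * g) = e f + e g)
    (heq : ∀ (σ : GQ) (f g : WithConv (H →ₐ[Zl p] Qbar)),
      (∀ h : H, g h = σ (f h)) → e g = σ • e f) :
    FunModel A M := by
  classical
  have hsc : ∀ z : Zl p, algebraMap (Zl p) Qbar z ∈ R0 A := fun z =>
    mem_R0.mpr ⟨algebraMap_mem_of_liesOverPrime hA z, fun σ _ => by
      rw [IsScalarTower.algebraMap_apply (Zl p) ℚ Qbar]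
      exact σ.commutes _⟩
  refine FunModel.ofSpan (Set.range (modelFun e)) (fg_span_range hsc fun x => (e.symm x).ofConv)
    ⟨1, funext fun x => map_one _⟩ ?_ ?_ ?_ ?_ ?_
  · rintro _ ⟨a, rfl⟩ _ ⟨b, rfl⟩
    exact ⟨a * b, funext fun x => map_mul _ _ _⟩
  · rintro _ ⟨h, rfl⟩ x
    exact mem_of_isIntegral hA ((Algebra.IsIntegral.isIntegral h).map (e.symm x).ofConv)
  · rintro _ ⟨h, rfl⟩ σ - x
    exact modelFun_smul e heq σ x h
  · exact fun x x' h => e.symm.injective (WithConv.ext (AlgHom.ext fun a => h _ ⟨a, rfl⟩))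
  · rintro _ ⟨h, rfl⟩
    let 𝓡 := Coalgebra.Repr.arbitrary (Zl p) h
    let ι' := 𝓡.index.equivFin.symm
    refine ⟨_, fun i => modelFun e (𝓡.left (ι' i)), fun i => modelFun e (𝓡.right (ι' i)),
      fun i => ⟨_, rfl⟩, fun i => ⟨_, rfl⟩, fun x x' => ?_⟩
    have hxx : e.symm (x + x') = e.symm x * e.symm x' := by
      rw [Equiv.symm_apply_eq, hadd, e.apply_symm_apply, e.apply_symm_apply]
    show (e.symm (x + x')).ofConv h = _
    rw [hxx, Equiv.sum_comp ι' (fun i : {i // i ∈ 𝓡.index} =>
      modelFun e (𝓡.left i) x * modelFun e (𝓡.right i) x')]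
    rw [Finset.sum_coe_sort 𝓡.index (fun i => modelFun e (𝓡.left i) x * modelFun e (𝓡.right i) x'),
      AlgHom.convMul_apply]
    conv_lhs => rw [← 𝓡.eq]
    simp [map_sum, modelFun]

/-- **Finite flat models give connected parts.** -/
theorem hasConnectedPart_of_models (hp2 : p ≠ 2) {A : ValuationSubring Qbar}
    (hA : A.LiesOverPrime p) {J : Type*} [AddCommGroup J] [DistribMulAction GQ J]
    (hfin : ∀ n : ℕ, Finite (Submodule.torsionBy ℤ J ((p : ℤ) ^ n)))
    (hmod : ∀ n : ℕ, ∃ (H : Type) (_ : CommRing H) (_ : HopfAlgebra (Zl p) H),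
      Module.Finite (Zl p) H ∧
        ∃ e : WithConv (H →ₐ[Zl p] Qbar) ≃ Submodule.torsionBy ℤ J ((p : ℤ) ^ n),
          (∀ f g, e (f * g) = e f + e g) ∧
          ∀ (σ : GQ) (f g : WithConv (H →ₐ[Zl p] Qbar)),
            (∀ h : H, g h = σ (f h)) → ((e g : J)) = σ • (e f : J)) :
    HasConnectedPart A p J := by
  intro n
  classical
  have hmodn := hmod n
  have := hfin n
  set Mn := Submodule.torsionBy ℤ J ((p : ℤ) ^ n) with hMn
  obtain ⟨Hf, _, _, hHfin, e, hadd, heq⟩ := hmodn
  have hstab : ∀ (σ : GQ) (x : Mn), σ • (x : J) ∈ Mn := fun σ x => by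
    refine (Submodule.mem_torsionBy_iff _ _).mpr ?_
    have h := (Submodule.mem_torsionBy_iff _ _).mp x.2
    rw [show ((p : ℤ) ^ n) = (((p ^ n : ℕ)) : ℤ) by push_cast; rfl, natCast_zsmul] at h ⊢
    rw [← smul_comm, h, smul_zero]
  let : DistribMulAction GQ Mn :=
    { smul := fun σ x => ⟨σ • (x : J), hstab σ x⟩
      one_smul := fun x => Subtype.ext (one_smul GQ (x : J))
      mul_smul := fun σ τ x => Subtype.ext (mul_smul σ τ (x : J))
      smul_zero := fun σ => Subtype.ext (smul_zero σ)
      smul_add := fun σ x y => Subtype.ext (smul_add σ (x : J) (y : J)) }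
  have hcoe : ∀ (σ : GQ) (x : Mn), ((σ • x : Mn) : J) = σ • (x : J) := fun _ _ => rfl
  have heq' : ∀ (σ : GQ) (f g : WithConv (Hf →ₐ[Zl p] Qbar)),
      (∀ h : Hf, g h = σ (f h)) → e g = σ • e f := fun σ f g h => Subtype.ext (heq σ f g h)
  let P : FunModel A Mn := funModelOfFlat hA e hadd heq'
  refine ⟨P.kerRed.map Mn.subtype.toAddMonoidHom, ?_, ?_, ?_, ?_⟩
  · rintro _ ⟨x, -, rfl⟩
    have h := (Submodule.mem_torsionBy_iff _ _).mp x.2
    rwa [show ((p : ℤ) ^ n) = (((p ^ n : ℕ)) : ℤ) by push_cast; rfl, natCast_zsmul] at h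
  · rintro σ hσ _ ⟨x, hx, rfl⟩
    refine ⟨σ • x, fun f hf => sub_mem_nonunits_of_mem_span ?_ hf, hcoe σ x⟩
    rintro _ ⟨h, rfl⟩
    have h0 : modelFun e h 0 = σ (modelFun e h 0) := by
      rw [← modelFun_smul e heq', smul_zero]
    rw [modelFun_smul e heq', h0, ← map_sub, Gal.decomposition_mem_nonunits_iff hσ]
    exact hx _ (Submodule.subset_span ⟨h, rfl⟩)
  · intro σ hσ x hx
    have hx' : x ∈ Mn := by
      rw [hMn, Submodule.mem_torsionBy_iff,
        show ((p : ℤ) ^ n) = (((p ^ n : ℕ)) : ℤ) by push_cast; rfl, natCast_zsmul, hx]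
    exact ⟨σ • (⟨x, hx'⟩ : Mn) - ⟨x, hx'⟩, P.smul_sub_mem_kerRed hσ _, rfl⟩
  · intro H hle hH y hy hpy hfix
    obtain ⟨y', hy', rfl⟩ := hy
    exact P.mem_of_smul_sub_mem Fact.out hp2 hA (H.comap Mn.subtype.toAddMonoidHom)
      (fun σ hσ x hx => hH σ hσ _ hx) hy' hpy fun σ hσ => hfix σ hσ

end Fermat.Agent.TwoComponent.Ordinary
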