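import Mathlib.Data.Fintype.BigOperators
import Mathlib.GroupTheory.Perm.Basic
import Fermat.Agent.TwoComponent.Ordinary.Interface

/-!
# Finite powers keep the connected and toric parts

If a module has a connected part or a toric part then so do its finite powers, coordinatewise.
-/

noncomputable section

namespace Fermat.Agent.TwoComponent.Ordinary

local notation "Qbar" => AlgebraicClosure ℚ
local notation "GQ" => (AlgebraicClosure ℚ ≃ₐ[ℚ] AlgebraicClosure ℚ)

variable {M J : Type*} [AddCommGroup M] [DistribMulAction GQ M] [AddCommGroup J]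
  [DistribMulAction GQ J] {A : ValuationSubring Qbar} {p : ℕ}

/-- The coordinatewise subgroup. -/
def powerSubgroup (ι : Type*) (C : AddSubgroup M) : AddSubgroup (ι → M) :=
  AddSubgroup.pi Set.univ fun _ => C

omit [DistribMulAction Gal(Qbar/ℚ) M] in
theorem mem_powerSubgroup {ι : Type*} {C : AddSubgroup M} {x : ι → M} :
    x ∈ powerSubgroup ι C ↔ ∀ i, x i ∈ C := by
  simp [powerSubgroup, AddSubgroup.mem_pi]

/-- Having no unramified quotient passes to finite powers. -/
theorem mem_of_smul_sub_mem_powerSubgroup {C : AddSubgroup M}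
    (hC : ∀ H : AddSubgroup M, H ≤ C → (∀ σ ∈ A.inertiaSubgroupIn ℚ, ∀ x ∈ H, σ • x ∈ H) →
      ∀ y ∈ C, p • y ∈ H → (∀ σ ∈ A.inertiaSubgroupIn ℚ, σ • y - y ∈ H) → y ∈ H)
    (ι : Type*) [Finite ι] :
    ∀ H : AddSubgroup (ι → M), H ≤ powerSubgroup ι C →
      (∀ σ ∈ A.inertiaSubgroupIn ℚ, ∀ x ∈ H, σ • x ∈ H) →
      ∀ y ∈ powerSubgroup ι C, p • y ∈ H →
        (∀ σ ∈ A.inertiaSubgroupIn ℚ, σ • y - y ∈ H) → y ∈ H := by
  classical
  have key : ∀ s : Finset ι, ∀ H : AddSubgroup (ι → M), H ≤ powerSubgroup ι C →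
      (∀ x ∈ H, ∀ i, i ∉ s → x i = 0) →
      (∀ σ ∈ A.inertiaSubgroupIn ℚ, ∀ x ∈ H, σ • x ∈ H) →
      ∀ y ∈ powerSubgroup ι C, (∀ i, i ∉ s → y i = 0) → p • y ∈ H →
        (∀ σ ∈ A.inertiaSubgroupIn ℚ, σ • y - y ∈ H) → y ∈ H := by
    intro s
    induction s using Finset.induction with
    | empty =>
      intro H _ _ _ y _ hy _ _
      have h0 : y = 0 := funext fun i => hy i (Finset.notMem_empty i)
      rw [h0]; exact H.zero_mem
    | insert j s hj ih =>
      intro H hHC hsupp hstab y hy hys hpy hσy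
      let π : (ι → M) →+ M := Pi.evalAddMonoidHom (fun _ => M) j
      have hyj : y j ∈ H.map π := by
        refine hC (H.map π) ?_ ?_ _ (mem_powerSubgroup.mp hy j) ⟨p • y, hpy, rfl⟩
          fun σ hσ => ⟨σ • y - y, hσy σ hσ, rfl⟩
        · rintro _ ⟨x, hx, rfl⟩
          exact mem_powerSubgroup.mp (hHC hx) j
        · rintro σ hσ _ ⟨x, hx, rfl⟩
          exact ⟨σ • x, hstab σ hσ x hx, rfl⟩
      obtain ⟨h, hh, hhj⟩ := hyj
      have hhj' : h j = y j := hhj
      let Z : AddSubgroup (ι → M) := π.ker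
      have hsubs : ∀ x : ι → M, x ∈ Z → (∀ i, i ∉ insert j s → x i = 0) →
          ∀ i, i ∉ s → x i = 0 := fun x hx hx' i hi => by
        by_cases hij : i = j
        · rw [hij]; exact hx
        · exact hx' i (by simp [hi, hij])
      have hz : y - h ∈ Z := sub_eq_zero.mpr hhj'.symm
      have hzC : y - h ∈ powerSubgroup ι C := sub_mem hy (hHC hh)
      have hzs : ∀ i, i ∉ insert j s → (y - h) i = 0 := fun i hi => by
        rw [Pi.sub_apply, hys i hi, hsupp h hh i hi, sub_zero]
      have hσz : ∀ (σ : GQ) (x : ι → M), x ∈ Z → σ • x ∈ Z := fun σ x hx => by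
        show σ • x j = 0
        rw [show x j = 0 from hx, smul_zero]
      have hfin := ih (H ⊓ Z) (inf_le_left.trans hHC)
        (fun x hx => hsubs x hx.2 (hsupp x hx.1))
        (fun σ hσ x hx => AddSubgroup.mem_inf.mpr ⟨hstab σ hσ x hx.1, hσz σ x hx.2⟩)
        (y - h) hzC (hsubs _ hz hzs)
        (AddSubgroup.mem_inf.mpr ⟨by rw [smul_sub]; exact sub_mem hpy (nsmul_mem hh p),
            nsmul_mem hz p⟩)
        (fun σ hσ => AddSubgroup.mem_inf.mpr ⟨by
          rw [smul_sub, sub_sub_sub_comm]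
          exact sub_mem (hσy σ hσ) (sub_mem (hstab σ hσ h hh) hh),
          sub_mem (hσz σ _ hz) hz⟩)
      have := add_mem hfin.1 hh
      rwa [sub_add_cancel] at this
  intro H hHC hstab y hy hpy hσy
  have := Fintype.ofFinite ι
  exact key Finset.univ H hHC (fun x _ i hi => absurd (Finset.mem_univ i) hi) hstab y hy
    (fun i hi => absurd (Finset.mem_univ i) hi) hpy hσy

/-- Finite powers keep the connected part. -/
theorem HasConnectedPart.pi (hM : HasConnectedPart A p M) (ι : Type*) [Finite ι] :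
    HasConnectedPart A p (ι → M) := by
  intro n
  obtain ⟨C, hkill, hD, hI, hmin⟩ := hM n
  refine ⟨powerSubgroup ι C,
    fun x hx => funext fun i => hkill _ (mem_powerSubgroup.mp hx i),
    fun σ hσ x hx => mem_powerSubgroup.mpr fun i => hD σ hσ _ (mem_powerSubgroup.mp hx i),
    fun σ hσ x hx => mem_powerSubgroup.mpr fun i => hI σ hσ _ (congrFun hx i),
    mem_of_smul_sub_mem_powerSubgroup hmin ι⟩

omit [DistribMulAction Gal(Qbar/ℚ) J] in
/-- Finite powers keep the toric part. -/
theorem HasToricPart.pi {f g : M →+ J} (hM : HasToricPart A p f g) (ι : Type*) :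
    HasToricPart A p (f.compLeft ι) (g.compLeft ι) := by
  intro n
  obtain ⟨C, hkill, hD, hI, hmult⟩ := hM n
  exact ⟨powerSubgroup ι C,
    fun x hx => funext fun i => hkill _ (mem_powerSubgroup.mp hx i),
    fun σ hσ x hx => mem_powerSubgroup.mpr fun i => hD σ hσ _ (mem_powerSubgroup.mp hx i),
    fun σ hσ τ hτ x hx => mem_powerSubgroup.mpr fun i => hI σ hσ τ hτ _ (congrFun hx i),
    fun x hx h1 h2 h3 σ hσ a ha => funext fun i =>
      hmult _ (mem_powerSubgroup.mp hx i) (congrFun h1 i) (congrFun h2 i) (congrFun h3 i) σ hσ a ha⟩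

end Fermat.Agent.TwoComponent.Ordinary
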