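import Mathlib.RingTheory.AdicCompletion.Functoriality
import Mathlib.RingTheory.Ideal.Quotient.Index
import Fermat.Prelude.Thm_IsAdicComplete_of_module_finite
import Fermat.Agent.Attach.Coeff
import Fermat.Agent.TwoComponent.NewPart.Counting

/-!
# The coefficient lattice inside powers of the Jacobian torsion

Equivariant maps from the coefficient lattice to powers of the Jacobian torsion, with kernels
shrinking to zero.
-/

noncomputable section

open ModularCurve

namespace Fermat.Agent.TwoComponent.Ordinary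

open Fermat.Agent.Attach

local notation "GQ" => (AlgebraicClosure ℚ ≃ₐ[ℚ] AlgebraicClosure ℚ)

variable {p : ℕ} [Fact p.Prime] {O : Type} [CommRing O] [IsDomain O] [IsDiscreteValuationRing O]
  [IsAdicComplete (IsLocalRing.maximalIdeal O) O] [CharZero O]
  [Finite (IsLocalRing.ResidueField O)] (hp : (p : O) ∈ IsLocalRing.maximalIdeal O)

omit [IsAdicComplete (IsLocalRing.maximalIdeal O) O] in
theorem finite_quot_span_p : Finite (O ⧸ Ideal.span {(p : O)}) := by
  have h0 : (p : O) ≠ 0 := Nat.cast_ne_zero.mpr (Fact.out : p.Prime).ne_zero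
  obtain ⟨π, hπ⟩ := IsDiscreteValuationRing.exists_irreducible O
  obtain ⟨e, u, he⟩ := IsDiscreteValuationRing.eq_unit_mul_pow_irreducible h0 hπ
  have hspan : Ideal.span {(p : O)} = IsLocalRing.maximalIdeal O ^ e := by
    rw [hπ.maximalIdeal_eq, Ideal.span_singleton_pow, he]
    exact Ideal.span_singleton_mul_left_unit u.isUnit _
  have : Finite (O ⧸ IsLocalRing.maximalIdeal O) := ‹Finite (IsLocalRing.ResidueField O)›
  rw [hspan]
  exact Ideal.finite_quotient_pow (IsNoetherian.noetherian _) e

/-- `O` is free of finite rank over `ℤ_p`: it has `ℤ_p`-linear coordinates. -/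
theorem exists_coord :
    ∃ (d : ℕ) (c : O ≃+ (Fin d → ℤ_[p])), ∀ (a : ℤ_[p]) (x : O),
      c (padicMap p (IsLocalRing.maximalIdeal O) hp a * x) = a • c x := by
  classical
  let φ := padicMap p (IsLocalRing.maximalIdeal O) hp
  let : Algebra ℤ_[p] O := φ.toAlgebra
  have hinj : Function.Injective φ := injective_padicMap φ
  have hmap : ∀ n : ℕ, ∀ x ∈ IsLocalRing.maximalIdeal ℤ_[p] ^ n,
      φ x ∈ IsLocalRing.maximalIdeal O ^ n := by
    intro n x hx
    have h1 : φ x ∈ (IsLocalRing.maximalIdeal ℤ_[p] ^ n).map φ := Ideal.mem_map_of_mem φ hx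
    rw [Ideal.map_pow] at h1
    refine Ideal.pow_right_mono ?_ n h1
    rw [PadicInt.maximalIdeal_eq_span_p, Ideal.map_span, Set.image_singleton, map_natCast,
      Ideal.span_singleton_le_iff_mem]
    exact hp
  have := finite_quot_span_p (p := p) (O := O)
  have : Fintype (O ⧸ Ideal.span {(p : O)}) := Fintype.ofFinite _
  let lift : O ⧸ Ideal.span {(p : O)} → O := Function.surjInv Ideal.Quotient.mk_surjective
  let f : ((O ⧸ Ideal.span {(p : O)}) → ℤ_[p]) →ₗ[ℤ_[p]] O :=
    Fintype.linearCombination ℤ_[p] lift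
  have : IsAdicComplete (IsLocalRing.maximalIdeal ℤ_[p]) ((O ⧸ Ideal.span {(p : O)}) → ℤ_[p]) :=
    IsAdicComplete.of_module_finite _ _
  have : IsHausdorff (IsLocalRing.maximalIdeal ℤ_[p]) O := ⟨fun x hx => by
    refine IsHausdorff.haus (IsAdicComplete.toIsHausdorff
      (I := IsLocalRing.maximalIdeal O) (M := O)) x fun n => ?_
    rw [SModEq.zero]
    refine Submodule.smul_induction_on
      (p := fun y => y ∈ IsLocalRing.maximalIdeal O ^ n • (⊤ : Submodule O O))
      (SModEq.zero.mp (hx n)) (fun a ha y _ => ?_) (fun y z hy hz => add_mem hy hz)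
    rw [Algebra.smul_def, ← smul_eq_mul]
    exact Submodule.smul_mem_smul (hmap n a ha) Submodule.mem_top⟩
  have hf : Function.Surjective f := by
    refine surjective_of_mkQ_comp_surjective (I := IsLocalRing.maximalIdeal ℤ_[p]) fun y => ?_
    obtain ⟨y, rfl⟩ := Submodule.mkQ_surjective _ y
    refine ⟨Pi.single (Ideal.Quotient.mk _ y) 1, ?_⟩
    rw [LinearMap.comp_apply, Fintype.linearCombination_apply_single, one_smul, Submodule.mkQ_apply,
      Submodule.mkQ_apply, Submodule.Quotient.eq]
    obtain ⟨b, hb⟩ := Ideal.mem_span_singleton'.mp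
      (Ideal.Quotient.eq.mp (Function.surjInv_eq Ideal.Quotient.mk_surjective
        (Ideal.Quotient.mk (Ideal.span {(p : O)}) y)))
    show lift _ - y ∈ _
    rw [show lift (Ideal.Quotient.mk _ y) - y = (p : ℤ_[p]) • b by
      rw [Algebra.smul_def, map_natCast, mul_comm]; exact hb.symm]
    exact Submodule.smul_mem_smul (by
      rw [PadicInt.maximalIdeal_eq_span_p]; exact Ideal.mem_span_singleton_self _) Submodule.mem_top
  have : Module.Finite ℤ_[p] O := Module.Finite.of_surjective f hf
  have : Module.IsTorsionFree ℤ_[p] O := by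
    refine Module.IsTorsionFree.mk fun a ha x y h => ?_
    have h2 : φ a * x = φ a * y := h
    exact mul_left_cancel₀ (fun h0 => ha.ne_zero (hinj (h0.trans (map_zero φ).symm))) h2
  have : Module.Free ℤ_[p] O := Module.free_of_finite_type_torsion_free'
  refine ⟨_, (Module.finBasis ℤ_[p] O).equivFun.toAddEquiv, fun a x => ?_⟩
  exact (Module.finBasis ℤ_[p] O).equivFun.map_smul a x

variable {N : ℕ} [NeZero N] (M : TorsionModel N p)

omit hp [Fact (Nat.Prime p)] in
theorem rep_smul_ptMod (n : ℕ) (g : GQ) (y : Fin M.rk → ZMod (p ^ n)) :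
    g • ptMod M n y = ptMod M n ((M.rep n g).mulVec y) := by
  rw [show ptMod M n y = M.pt n fun i => ((y i).cast : ℤ) from rfl, M.galMat_spec, ← ptMod_redVec,
    M.redVec_mulVec, redVec_cast]
  rfl

omit hp [Fact (Nat.Prime p)] in
theorem ptMod_add (n : ℕ) (x y : Fin M.rk → ZMod (p ^ n)) :
    ptMod M n (x + y) = ptMod M n x + ptMod M n y := by
  conv_rhs => rw [show ptMod M n x = M.pt n fun i => ((x i).cast : ℤ) from rfl,
    show ptMod M n y = M.pt n fun i => ((y i).cast : ℤ) from rfl, ← map_add, ← ptMod_redVec]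
  congr 1
  funext i
  simp [TorsionModel.redVec]

section LevelMap

variable {d : ℕ} (c : O ≃+ (Fin d → ℤ_[p]))

/-- The map from the lattice to torsion points of level `p ^ n` given by coordinates of `O` over
`ℤ_p`. -/
def coordLevelMap (n : ℕ) : (Fin M.rk → O) →+ (Fin d → JZero N) :=
  AddMonoidHom.mk' (fun x j => ptMod M n fun i => PadicInt.toZModPow n (c (x i) j))
    fun x y => funext fun j => by
      simp only [Pi.add_apply, map_add, ← ptMod_add]
      rfl

omit [CharZero O] [Finite (IsLocalRing.ResidueField O)] in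
/-- The level maps are equivariant for the Galois group. -/
theorem smul_coordLevelMap (hc : ∀ (a : ℤ_[p]) (x : O),
      c (padicMap p (IsLocalRing.maximalIdeal O) hp a * x) = a • c x)
    (n : ℕ) (g : GQ) (x : Fin M.rk → O) :
    g • coordLevelMap M c n x = coordLevelMap M c n ((M.repO hp g).mulVec x) := by
  funext j
  show g • ptMod M n (fun i => PadicInt.toZModPow n (c (x i) j)) = ptMod M n _
  rw [rep_smul_ptMod]
  congr 1
  funext i
  have e : c ((M.repO hp g).mulVec x i) j = (M.repPadic g).mulVec (fun l => c (x l) j) i := by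
    rw [Matrix.mulVec, dotProduct, Matrix.mulVec, dotProduct, map_sum, Finset.sum_apply]
    exact Finset.sum_congr rfl fun l _ => congrFun (hc (M.repPadic g i l) (x l)) j
  rw [e, RingHom.map_mulVec, ← M.repPadic_mod n g]
  rfl

omit [CharZero O] [Finite (IsLocalRing.ResidueField O)] in
/-- The coordinates of a vector killed by the level map `n` lie in `𝔪 ^ n`. -/
theorem mem_pow_of_coordLevelMap_eq_zero (hc : ∀ (a : ℤ_[p]) (x : O),
      c (padicMap p (IsLocalRing.maximalIdeal O) hp a * x) = a • c x)
    (n : ℕ) (x : Fin M.rk → O) (hx : coordLevelMap M c n x = 0) (i : Fin M.rk) :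
    x i ∈ IsLocalRing.maximalIdeal O ^ n := by
  have hz : ∀ j, PadicInt.toZModPow n (c (x i) j) = 0 := fun j => by
    have h2 : ptMod M n (fun l => PadicInt.toZModPow n (c (x l) j)) = ptMod M n 0 := by
      rw [show ptMod M n (fun l => PadicInt.toZModPow n (c (x l) j)) = 0 from congrFun hx j]
      exact ((congrArg (M.pt n) (funext fun i => by simp)).trans (map_zero (M.pt n))).symm
    exact congrFun (ptMod_injective M n h2) i
  choose b hb using fun j => show ∃ b, c (x i) j = (p : ℤ_[p]) ^ n * b by
    have := hz j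
    rw [← RingHom.mem_ker, PadicInt.ker_toZModPow, Ideal.mem_span_singleton] at this
    exact this
  have e : x i = padicMap p (IsLocalRing.maximalIdeal O) hp ((p : ℤ_[p]) ^ n) * c.symm b := by
    apply c.injective
    rw [hc, c.apply_symm_apply]
    exact funext fun j => hb j
  rw [e, map_pow, map_natCast]
  exact Ideal.mul_mem_right _ _ (Ideal.pow_mem_pow hp n)

omit [IsDomain O] [IsDiscreteValuationRing O] [IsAdicComplete (IsLocalRing.maximalIdeal O) O]
  [CharZero O] [Finite (IsLocalRing.ResidueField O)] in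
/-- The level map `n` takes values in the `p ^ n`-torsion. -/
theorem nsmul_coordLevelMap (n : ℕ) (x : Fin M.rk → O) : p ^ n • coordLevelMap M c n x = 0 :=
  funext fun _ => M.pt_torsion n _

end LevelMap

/-- Equivariant maps from the lattice to torsion points with kernels shrinking to zero. -/
theorem exists_level_maps :
    ∃ (d : ℕ) (Φ : ∀ _n : ℕ, (Fin M.rk → O) →+ (Fin d → JZero N)),
      (∀ n (g : GQ) x, g • Φ n x = Φ n ((M.repO hp g).mulVec x)) ∧
      (∀ n x, Φ n x = 0 → ∀ i, x i ∈ IsLocalRing.maximalIdeal O ^ n) ∧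
      (∀ n x, p ^ n • Φ n x = 0) :=
  have ⟨d, c, hc⟩ := exists_coord hp
  ⟨d, coordLevelMap M c, smul_coordLevelMap hp M c hc, mem_pow_of_coordLevelMap_eq_zero hp M c hc,
    nsmul_coordLevelMap M c⟩

end Fermat.Agent.TwoComponent.Ordinary
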