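import Mathlib.LinearAlgebra.JordanChevalley
import Mathlib.LinearAlgebra.Matrix.ToLin
import Mathlib.LinearAlgebra.Semisimple
import Mathlib.LinearAlgebra.TensorProduct.Basis
import Mathlib.RingTheory.Localization.Integral
import Mathlib.RingTheory.TensorProduct.Finite
import Fermat.Agent.Attach.Coeff
import Fermat.Agent.Hecke.Petersson

/-!
# The Hecke algebra with coefficients acts faithfully and is reduced

The Hecke algebra with coefficients in a complete discrete valuation ring `O` of characteristic
zero acts faithfully on `O ⊗` lattice and is reduced.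
-/

noncomputable section

open Polynomial
open scoped TensorProduct

namespace Fermat.Agent.TwoComponent.Ordinary

open Fermat.Agent.Attach

variable {N : ℕ} [NeZero N] {p : ℕ} (M : TorsionModel N p) {S : Set ℕ}
  (hS : ∀ q, q.Prime → q ∣ N → q ∈ S)

include M hS in
theorem module_finite_hecke : Module.Finite ℤ (CuspForm.heckeAlgebra N 2 S) :=
  Module.Finite.of_injective ((M.mat.comp (toAnemic hS)).toAddMonoidHom.toIntLinearMap)
    (M.mat_injective.comp (toAnemic_injective hS))

include M hS in
theorem module_free_hecke : Module.Free ℤ (CuspForm.heckeAlgebra N 2 S) :=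
  have := module_finite_hecke M hS
  have : Module.IsTorsionFree ℤ (CuspForm.heckeAlgebra N 2 S) := inferInstance
  Module.free_of_finite_type_torsion_free'

/-- The Hecke algebra with coefficients in `O`. -/
abbrev HeckeO (N : ℕ) [NeZero N] (S : Set ℕ) (O : Type) [CommRing O] :=
  O ⊗[ℤ] CuspForm.heckeAlgebra N 2 S

variable (O : Type) [CommRing O]

/-- The action of the Hecke algebra with coefficients on the lattice. -/
def actO : HeckeO N S O →ₐ[O] Matrix (Fin M.rk) (Fin M.rk) O :=
  Algebra.TensorProduct.lift (Algebra.ofId O _) (M.matO O hS).toIntAlgHom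
    fun a _ => Algebra.commutes a _

@[simp] theorem actO_tmul (a : O) (t : CuspForm.heckeAlgebra N 2 S) :
    actO M hS O (a ⊗ₜ t) = a • M.matO O hS t := by
  refine (Algebra.TensorProduct.lift_tmul _ _ _ a t).trans ?_
  rw [Algebra.smul_def]
  rfl

theorem actO_commute (x y : HeckeO N S O) : Commute (actO M hS O x) (actO M hS O y) := by
  show _ * _ = _ * _
  rw [← map_mul, mul_comm, map_mul]

/-- The Hecke algebra with coefficients acts faithfully. -/
theorem actO_injective [IsDomain O] [CharZero O] : Function.Injective (actO M hS O) := by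
  classical
  have := module_finite_hecke M hS
  have := module_free_hecke M hS
  let b := Module.finBasis ℤ (CuspForm.heckeAlgebra N 2 S)
  let B := Algebra.TensorProduct.basis O b
  let ψ := M.mat.comp (toAnemic hS)
  let e := (finProdFinEquiv : Fin M.rk × Fin M.rk ≃ Fin (M.rk * M.rk))
  let C : Matrix (Fin (M.rk * M.rk)) (Fin (Module.finrank ℤ (CuspForm.heckeAlgebra N 2 S))) ℤ :=
    Matrix.of fun z i => ψ (b i) (e.symm z).1 (e.symm z).2
  have hC : Function.Injective C.mulVec := by
    intro v w h
    have h2 : ψ (∑ i, v i • b i) = ψ (∑ i, w i • b i) := by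
      ext r c
      have e1 : ∀ u : _ → ℤ, ψ (∑ i, u i • b i) r c = C.mulVec u (e (r, c)) := fun u => by
        rw [map_sum, Matrix.sum_apply]
        refine Finset.sum_congr rfl fun i _ => ?_
        rw [map_zsmul, Matrix.smul_apply, smul_eq_mul, mul_comm]
        simp [C]
      rw [e1, e1, h]
    have h3 := (M.mat_injective.comp (toAnemic_injective hS)) h2
    rw [← b.equivFun_symm_apply, ← b.equivFun_symm_apply] at h3
    exact b.equivFun.symm.injective h3
  let K := FractionRing O
  have : CharZero K := charZero_of_injective_algebraMap (IsFractionRing.injective O K)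
  have hCK := mulVec_map_injective (K := K) C hC
  refine (injective_iff_map_eq_zero _).mpr fun x hx => ?_
  have hv : (C.map (Int.castRingHom K)).mulVec (fun i => algebraMap O K (B.repr x i)) =
      (C.map (Int.castRingHom K)).mulVec 0 := by
    rw [Matrix.mulVec_zero]
    funext z
    have h := congrArg (fun X : Matrix (Fin M.rk) (Fin M.rk) O =>
      algebraMap O K (X (e.symm z).1 (e.symm z).2)) hx
    conv at h => lhs; rw [← B.sum_repr x]
    simp only [map_sum, map_smul, Algebra.TensorProduct.basis_apply, B, actO_tmul, one_smul,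
      Matrix.sum_apply, Matrix.smul_apply, smul_eq_mul, map_mul, Matrix.zero_apply, map_zero] at h
    show ∑ i : Fin (Module.finrank ℤ (CuspForm.heckeAlgebra N 2 S)), _ * _ = _
    refine Eq.trans (Finset.sum_congr rfl fun i _ => ?_) h
    rw [mul_comm]
    refine congrArg (_ * ·) ?_
    show ((C z i : ℤ) : K) = algebraMap O K _
    exact (map_intCast (algebraMap O K) _).symm
  have h0 := hCK hv
  refine B.ext_elem fun i => IsFractionRing.injective O K ?_
  rw [map_zero, Finsupp.zero_apply, map_zero]
  exact congrFun h0 i

/-- If the Hecke algebra is reduced, its elements act semisimply on the lattice tensored with a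
field of characteristic zero. -/
theorem isSemisimple_mat {K : Type} [Field K] [CharZero K]
    (hred : IsReduced (CuspForm.heckeAlgebra N 2 S)) (t : CuspForm.heckeAlgebra N 2 S) :
    Module.End.IsSemisimple
      (Matrix.toLinAlgEquiv' ((M.mat (toAnemic hS t)).map (Int.castRingHom K))) := by
  classical
  set ψ := M.mat.comp (toAnemic hS)
  set A : Module.End ℚ (Fin M.rk → ℚ) :=
    Matrix.toLinAlgEquiv' ((ψ t).map (Int.castRingHom ℚ)) with hA
  obtain ⟨g, k, hsq, -, hdvd⟩ :=
    exists_squarefree_dvd_pow_of_ne_zero (minpoly.ne_zero_of_finite ℚ A)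
  let ev : CuspForm.heckeAlgebra N 2 S →+* Module.End ℚ (Fin M.rk → ℚ) :=
    ((Matrix.toLinAlgEquiv' : Matrix (Fin M.rk) (Fin M.rk) ℚ ≃ₐ[ℚ] _).toRingEquiv.toRingHom.comp
      (Int.castRingHom ℚ).mapMatrix).comp ψ
  have hev : ∀ P : ℤ[X], ev (aeval t P) = aeval A (P.map (algebraMap ℤ ℚ)) := fun P => by
    rw [aeval_map_algebraMap, aeval_def, aeval_def, Polynomial.hom_eval₂]
    congr 1
    exact RingHom.ext_int _ _
  obtain ⟨c, hc, hg⟩ := IsLocalization.integerNormalization_spec (nonZeroDivisors ℤ) g
  set g' := IsLocalization.integerNormalization (nonZeroDivisors ℤ) g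
  have hevinj : Function.Injective ev := by
    refine Matrix.toLinAlgEquiv'.injective.comp (Function.Injective.comp ?_
      (M.mat_injective.comp (toAnemic_injective hS)))
    exact fun X Y h => Matrix.ext fun i j => Int.cast_injective (congrFun (congrFun h i) j)
  have hgA : aeval A g = 0 := by
    have hnil : IsNilpotent (aeval A g) := ⟨k, by
      rw [← map_pow]
      exact aeval_eq_zero_of_dvd_aeval_eq_zero hdvd (minpoly.aeval ℚ A)⟩
    have hnil' : IsNilpotent (ev (aeval t g')) := by
      rw [hev, hg]
      show IsNilpotent (aeval A (c • g))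
      rw [map_zsmul, zsmul_eq_mul]
      exact (Int.cast_commute _ _).isNilpotent_mul_left hnil
    have h0 : aeval t g' = 0 := hred.eq_zero _ ((IsNilpotent.map_iff hevinj).mp hnil')
    have h1 := hev g'
    rw [h0, map_zero, hg] at h1
    have h2 : (c : ℤ) • aeval A g = 0 := by rw [← map_zsmul]; exact h1.symm
    have hc0 : (c : ℤ) ≠ 0 := nonZeroDivisors.ne_zero hc
    rw [← Int.cast_smul_eq_zsmul ℚ] at h2
    exact (smul_eq_zero.mp h2).resolve_left (Int.cast_ne_zero.mpr hc0)
  refine Module.End.isSemisimple_of_squarefree_aeval_eq_zero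
    (p := g.map (algebraMap ℚ K)) (PerfectField.separable_iff_squarefree.mpr hsq).map.squarefree ?_
  have hK : (ψ t).map (Int.castRingHom K) =
      (algebraMap ℚ K).mapMatrix ((ψ t).map (Int.castRingHom ℚ)) :=
    Matrix.ext fun i j => by simp
  show aeval (Matrix.toLinAlgEquiv' ((ψ t).map (Int.castRingHom K))) _ = 0
  rw [aeval_algHom_apply, hK, aeval_map_algebraMap]
  have h3 : aeval ((ψ t).map (Int.castRingHom ℚ)) g = 0 := by
    apply Matrix.toLinAlgEquiv'.injective
    rw [← aeval_algHom_apply, map_zero]
    exact hgA
  rw [aeval_def, show algebraMap ℚ (Matrix (Fin M.rk) (Fin M.rk) K) =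
      (algebraMap ℚ K).mapMatrix.comp (algebraMap ℚ (Matrix (Fin M.rk) (Fin M.rk) ℚ)) from
      RingHom.ext_rat _ _, ← Polynomial.hom_eval₂, ← aeval_def, h3]
  simp

include M hS in
/-- The Hecke algebra with coefficients in `O` is reduced. -/
theorem isReduced_heckeO [IsDomain O] [CharZero O] : IsReduced (HeckeO N S O) := by
  classical
  have hred := Fermat.Agent.Hecke.Pet.isReduced_heckeAlgebra (N := N) hS
  let K := FractionRing O
  have : CharZero K := charZero_of_injective_algebraMap (IsFractionRing.injective O K)
  let Φ : HeckeO N S O →+* Module.End K (Fin M.rk → K) :=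
    ((Matrix.toLinAlgEquiv' : Matrix (Fin M.rk) (Fin M.rk) K ≃ₐ[K] _).toRingEquiv.toRingHom.comp
      (algebraMap O K).mapMatrix).comp (actO M hS O).toRingHom
  have hΦ : Function.Injective Φ :=
    Matrix.toLinAlgEquiv'.injective.comp (Function.Injective.comp
      (fun X Y h => Matrix.ext fun i j => IsFractionRing.injective O K (congrFun (congrFun h i) j))
      (actO_injective M hS O))
  have hss : ∀ x, (Φ x).IsSemisimple := fun x => by
    induction x using TensorProduct.induction_on with
    | zero => rw [map_zero]; exact Module.End.isSemisimple_zero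
    | tmul a t =>
      have e : Φ (a ⊗ₜ t) = algebraMap O K a •
          Matrix.toLinAlgEquiv' ((M.mat (toAnemic hS t)).map (Int.castRingHom K)) := by
        rw [← map_smul]
        show Matrix.toLinAlgEquiv' ((algebraMap O K).mapMatrix (actO M hS O (a ⊗ₜ t))) = _
        rw [actO_tmul]
        congr 1
        refine Matrix.ext fun i j => ?_
        show algebraMap O K (a * _) = algebraMap O K a * _
        rw [map_mul]
        exact congrArg (_ * ·) (map_intCast (algebraMap O K) _)
      rw [e]
      exact Module.End.IsSemisimple_smul _ (isSemisimple_mat M hS hred t)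
    | add x y hx hy =>
      rw [map_add]
      have hc : Commute (Φ x) (Φ y) := by
        show _ * _ = _ * _
        rw [← map_mul, mul_comm, map_mul]
      exact hx.add_of_commute hc hy
  exact ⟨fun x hx => hΦ ((Module.End.eq_zero_of_isNilpotent_isSemisimple (hx.map Φ) (hss x)).trans
    (map_zero Φ).symm)⟩

end Fermat.Agent.TwoComponent.Ordinary
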