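import Mathlib.RingTheory.RootsOfUnity.Lemmas
import Fermat.Agent.EichlerShimura.Galois
import Fermat.Agent.Red.GenusLift
import Fermat.Agent.TwoComponent.Ordinary.Interface

/-!
# A `(p - 1)`-st root of `-p` and the cyclotomic character

A root `θ` of `θ ^ (p - 1) = -p` exists in the valuation ring and inertia multiplies it by the
residual cyclotomic character.
-/

noncomputable section

namespace Fermat.Agent.TwoComponent.Ordinary

local notation "Qbar" => AlgebraicClosure ℚ
local notation "GQ" => (AlgebraicClosure ℚ ≃ₐ[ℚ] AlgebraicClosure ℚ)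

variable {A : ValuationSubring (AlgebraicClosure ℚ)} {p : ℕ}

theorem isUnit_of_residue_ne_zero {a : A} (h : IsLocalRing.residue A a ≠ 0) : IsUnit a := by
  by_contra hn
  exact h ((IsLocalRing.residue_eq_zero_iff a).mpr hn)

/-- Inertia multiplies a `(p - 1)`-st root of `-p` by its cyclotomic character. -/
theorem exists_theta (hp : p.Prime) (hA : A.LiesOverPrime p) {σ : GQ}
    (hσ : σ ∈ A.inertiaSubgroupIn ℚ) {a : ℕ} (ha : ActsByOnRoots p σ a) :
    ∃ θ ρ : A, θ ≠ 0 ∧ θ ^ (p - 1) = -(p : A) ∧ σ (θ : Qbar) = (ρ : Qbar) * (θ : Qbar) ∧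
      IsLocalRing.residue A ρ = (a : IsLocalRing.ResidueField A) := by
  have : Fact p.Prime := ⟨hp⟩
  have := Red.charP_residueField A hA
  obtain ⟨n, rfl⟩ : ∃ n, p = n + 1 := ⟨p - 1, by have := hp.one_le; omega⟩
  rw [Nat.add_sub_cancel]
  obtain ⟨u, hu, huprim⟩ := EichlerShimura.exists_primitiveRoot_unit (A := A) hp
  set ζ : A := (u : A) with hζdef
  have hζp : ζ ^ (n + 1) = 1 := by rw [hζdef, ← Units.val_pow_eq_pow_val, hu, Units.val_one]
  have hζ : IsPrimitiveRoot ((ζ : A) : Qbar) (n + 1) :=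
    IsPrimitiveRoot.coe_units_iff.mpr huprim
  have hπζ : IsLocalRing.residue A ζ = 1 := by
    refine frobenius_inj (IsLocalRing.ResidueField A) (n + 1) ?_
    rw [frobenius_def, frobenius_def, one_pow, ← map_pow, hζp, map_one]
  -- `(ζ - 1) ^ n` is `p` up to a unit
  set η : A := ζ - 1 with hη
  set G : ℕ → A := fun m => ∑ i ∈ Finset.range m, ζ ^ i with hG
  have hGπ : ∀ m, IsLocalRing.residue A (G m) = (m : IsLocalRing.ResidueField A) := fun m => by
    simp [hG, map_sum, hπζ]
  have hgeom : ∀ m, ζ ^ m - 1 = G m * η := fun m => (geom_sum_mul ζ m).symm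
  have hprod : ∃ v : A, IsUnit v ∧ η ^ n * v = (-1) ^ n * ((n + 1 : ℕ) : A) := by
    refine ⟨∏ i ∈ Finset.range n, G (i + 1), ?_, ?_⟩
    · refine IsUnit.prod_iff.mpr fun i hi => isUnit_of_residue_ne_zero ?_
      rw [hGπ, Ne, CharP.cast_eq_zero_iff _ (n + 1)]
      exact Nat.not_dvd_of_pos_of_lt (Nat.succ_pos i) (Nat.succ_lt_succ (Finset.mem_range.mp hi))
    · apply Subtype.ext
      have h := hζ.prod_one_sub_pow_eq_order
      have e : ∀ i, 1 - (ζ : Qbar) ^ i = -((G i : Qbar) * (η : Qbar)) := fun i => by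
        have := congrArg Subtype.val (hgeom i)
        push_cast at this
        rw [← this]; ring
      simp only [e, Finset.prod_neg, Finset.card_range, Finset.prod_mul_distrib,
        Finset.prod_const] at h
      push_cast
      rw [show ((n : Qbar) + 1) = (-1) ^ n * ((∏ i ∈ Finset.range n, (G (i + 1) : Qbar)) *
        (η : Qbar) ^ n) from h.symm, ← mul_assoc, ← mul_pow, neg_one_mul, neg_neg, one_pow, one_mul,
        mul_comm]
  obtain ⟨v, hv, hηv⟩ := hprod
  -- the root
  obtain ⟨θ₀, hθ₀⟩ := IsAlgClosed.exists_pow_nat_eq (-(((n + 1 : ℕ) : A) : Qbar))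
    (show 0 < n by have := hp.two_le; omega)
  have hn : 0 < n := by have := hp.two_le; omega
  have hmem : θ₀ ∈ A := (A.valuation_le_one_iff _).mp ((pow_le_one_iff hn.ne').mp (by
    rw [← map_pow, hθ₀, Valuation.map_neg]
    exact (A.valuation_le_one_iff _).mpr (SetLike.coe_mem _)))
  set θ : A := ⟨θ₀, hmem⟩ with hθdef
  have hθ : θ ^ n = -((n + 1 : ℕ) : A) :=
    Subtype.ext (by push_cast; rw [hθdef, hθ₀]; push_cast; ring)
  have hp0 : ((n + 1 : ℕ) : A) ≠ 0 := fun h => by
    have := congrArg Subtype.val h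
    push_cast at this
    exact (Nat.cast_add_one_ne_zero n) this
  have hθ0 : θ ≠ 0 :=
    fun h => hp0 (by rw [h, zero_pow hn.ne', eq_comm, neg_eq_zero] at hθ; exact hθ)
  have hη0 : (η : Qbar) ≠ 0 := by
    rw [hη]; push_cast
    exact sub_ne_zero.mpr (hζ.ne_one hp.one_lt)
  -- `w = η / θ` is a unit
  set w₀ : Qbar := (η : Qbar) / (θ : Qbar) with hw₀
  have hθ0' : (θ : Qbar) ≠ 0 := fun h => hθ0 (Subtype.ext h)
  obtain ⟨v', hv'⟩ := hv.exists_right_inv
  have hwn : w₀ ^ n = ((-1 : A) ^ (n + 1) * v' : A) := by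
    have h1 : η ^ n = (-1) ^ n * ((n + 1 : ℕ) : A) * v' := by
      rw [← hηv, mul_assoc, hv', mul_one]
    rw [hw₀, div_pow, div_eq_iff (pow_ne_zero _ hθ0'), ← SubmonoidClass.coe_pow,
      ← SubmonoidClass.coe_pow, h1, hθ]
    push_cast
    ring
  have hwmem : w₀ ∈ A := (A.valuation_le_one_iff _).mp ((pow_le_one_iff hn.ne').mp (by
    rw [← map_pow, hwn]; exact (A.valuation_le_one_iff _).mpr (SetLike.coe_mem _)))
  set w : A := ⟨w₀, hwmem⟩ with hw
  have hwu : IsLocalRing.residue A w ≠ 0 := by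
    intro h
    have h1 : w ^ n = (-1) ^ (n + 1) * v' :=
      Subtype.ext (by push_cast; rw [hw, hwn]; push_cast; rfl)
    have h2 := congrArg (IsLocalRing.residue A) h1
    rw [map_pow, h, zero_pow hn.ne', map_mul] at h2
    have hv'u : IsLocalRing.residue A v' ≠ 0 := fun h0 => by
      have := congrArg (IsLocalRing.residue A) hv'
      rw [map_mul, h0, mul_zero, map_one] at this
      exact zero_ne_one this
    have h3 : IsLocalRing.residue A ((-1) ^ (n + 1)) ≠ 0 := by
      rw [map_pow, map_neg, map_one]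
      exact pow_ne_zero _ (neg_ne_zero.mpr one_ne_zero)
    exact mul_ne_zero h3 hv'u h2.symm
  obtain ⟨hσw, hπσw⟩ := (EichlerShimura.inducesOn_refl_of_inertia hσ) w
  have hσwu : IsUnit (⟨σ (w : Qbar), hσw⟩ : A) := isUnit_of_residue_ne_zero (by
    rw [hπσw]; exact hwu)
  obtain ⟨w', hw'⟩ := hσwu.exists_right_inv
  refine ⟨θ, G a * w * w', hθ0, hθ, ?_, ?_⟩
  · have hz : ((ζ : A) : Qbar) ^ (n + 1) = 1 := hζ.pow_eq_one
    have hση : σ (η : Qbar) = ((G a : A) : Qbar) * (η : Qbar) := by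
      have := congrArg Subtype.val (hgeom a)
      push_cast at this
      rw [← this, hη]; push_cast
      rw [map_sub, map_one, ha _ hz]
    have hw'' : σ w₀ * (w' : Qbar) = 1 := congrArg Subtype.val hw'
    have hσw0 : σ w₀ ≠ 0 := left_ne_zero_of_mul_eq_one hw''
    have hσθ : σ (θ : Qbar) = σ (η : Qbar) / σ w₀ := by
      rw [← map_div₀, hw₀, div_div_cancel₀ hη0]
    rw [hσθ, hση, div_eq_iff hσw0]
    have e : (η : Qbar) = w₀ * θ := by rw [hw₀, div_mul_cancel₀ _ hθ0']
    push_cast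
    rw [e, show ((w : A) : Qbar) = w₀ from rfl]
    linear_combination -((G a : A) : Qbar) * w₀ * (θ : Qbar) * hw''
  · have h3 := congrArg (IsLocalRing.residue A) hw'
    rw [map_mul, hπσw, map_one] at h3
    rw [map_mul, map_mul, hGπ, mul_assoc]
    exact (congrArg _ h3).trans (mul_one _)

end Fermat.Agent.TwoComponent.Ordinary
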