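import Fermat.Agent.Red.Genus
import Fermat.Agent.TwoComponent.Depth.Toric
import Fermat.Agent.TwoComponent.ModelDegen
import Fermat.Agent.TwoComponent.ModelPerm
import Fermat.Agent.TwoComponent.Ordinary.Interface
import Fermat.Agent.TwoComponent.Ordinary.Theta

/-!
# The toric part of `J₀(M p)` at `p`

The classes of slope zero and trivial reduction on `X₀(M p)` form the toric part at `p` needed for
ordinarity, for the two pushforwards to level `M`.
-/

noncomputable section

open ModularCurve AlgebraicCurve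

namespace Fermat.Agent.TwoComponent

open Fermat.Agent.Red

namespace TwoRed

variable {K k F Fk : Type*} [Field K] [IsAlgClosed K] [Field F] [Algebra K F] [Field k] [Field Fk]
  [Algebra k Fk] {A : ValuationSubring K} {π : A →+* k} {S : Type*} [Fintype S]
  (T : TwoRed A π F Fk S)

/-- The classes of slope zero and trivial reduction, as a subgroup. -/
def T00 {m : ℕ} (hm : 0 < m) : AddSubgroup (Pic0 K F) :=
  (⨅ i, (T.redClass hm i).ker).map (T.T0 m).subtype

theorem mem_T00 {m : ℕ} (hm : 0 < m) {y : Pic0 K F} :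
    y ∈ T.T00 hm ↔ ∃ h : y ∈ T.T0 m, ∀ i, T.redClass hm i ⟨y, h⟩ = 0 := by
  constructor
  · rintro ⟨z, hz, rfl⟩
    exact ⟨z.2, fun i => AddSubgroup.mem_iInf.mp hz i⟩
  · rintro ⟨h, h'⟩
    exact ⟨⟨y, h⟩, AddSubgroup.mem_iInf.mpr h', rfl⟩

end TwoRed

namespace SemiRed

variable {K k F Fk : Type*} [Field K] [IsAlgClosed K] [Field F] [Algebra K F] [Field k] [Field Fk]
  [Algebra k Fk] {A : ValuationSubring K} {π : A →+* k} {S : Type*} [Fintype S]
  {T : TwoRed A π F Fk S} (σ : SemiRed T)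

theorem smul_mem_T00 (hσ : σ.PermutesNodes) {m : ℕ} (hm : 0 < m) {y : Pic0 K F}
    (hy : y ∈ T.T00 hm) : σ.aut • y ∈ T.T00 hm := by
  obtain ⟨h, h'⟩ := (T.mem_T00 hm).mp hy
  refine (T.mem_T00 hm).mpr ⟨σ.smul_mem_T0 hσ h, fun i => ?_⟩
  rw [σ.redClass_smul hm hσ i ⟨y, h⟩, h' i]
  rw [← Pic0.mk_zero, SemilinearAut.pic0_smul_mk, map_zero]

theorem smul_sub_mem_T00 (hσp : σ.PermutesNodes) (hres : σ.resAut = 1) {m : ℕ}
    (hm : 0 < m) {z : Pic0 K F} (hz : T.InT0 m z) : σ.aut • z - z ∈ T.T00 hm := by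
  have h := σ.smul_mem_T0 hσp hz
  refine (T.mem_T00 hm).mpr ⟨(T.T0 m).sub_mem h hz, fun i => ?_⟩
  rw [show (⟨σ.aut • z - z, (T.T0 m).sub_mem h hz⟩ : T.T0 m) = ⟨_, h⟩ - ⟨z, hz⟩ from rfl, map_sub,
    σ.redClass_smul hm hσp i ⟨z, hz⟩, hres, one_smul, sub_self]

end SemiRed

namespace Ordinary

local notation "Qbar" => AlgebraicClosure ℚ
local notation "GQ" => (AlgebraicClosure ℚ ≃ₐ[ℚ] AlgebraicClosure ℚ)

/-- A map of Jacobians given by pushing divisors forward. -/
def IsPushforward {N M : ℕ} (φ : modularFunctionFieldBar M →ₐ[Qbar] modularFunctionFieldBar N)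
    (hφ : φ.toRingHom.IsIntegral) (f : JZero N →+ JZero M) : Prop :=
  ∀ D : Divisor.degZero (K := Qbar) (F := modularFunctionFieldBar N),
    f (Pic0.mk D) = Pic0.mk ⟨Divisor.pushforwardAlong φ hφ D,
      Divisor.pushforwardAlong_mem_degZero φ hφ D.2⟩

theorem eq_zero_of_mem_principal {K F : Type*} [Field K] [Field F] [Algebra K F]
    {D : Divisor.degZero (K := K) (F := F)} (h : Pic0.mk D = 0) :
    (D : Divisor K F) ∈ Divisor.principal (K := K) (F := F) :=
  AddSubgroup.mem_addSubgroupOf.mp ((QuotientAddGroup.eq_zero_iff _).mp h)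

section Model

open IsLocalRing (ResidueField residue)

variable (M p : ℕ) [NeZero M] [hp : Fact p.Prime] (hpM : ¬ p ∣ M)
  {A : ValuationSubring (AlgebraicClosure ℚ)} [CharP (ResidueField A) p]
  [IsAlgClosed (ResidueField A)]
  (hres : ResidueAt A p (residue A))
  (hgen : genusFF Qbar (modularFunctionFieldBar M) ≤
    genusFF (ResidueField A) (modularFunctionFieldFullC (ResidueField A) M))
  {n : ℕ} (hm : 0 < p ^ n)

/-- Two steps of inertia land in the classes of slope zero and trivial reduction. -/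
theorem inertia_sub_mem_T00 {σ τ : GQ} (hσ : σ ∈ A.inertiaSubgroupIn ℚ)
    (hτ : τ ∈ A.inertiaSubgroupIn ℚ) {x : JZero (M * p)} (hx : p ^ n • x = 0) :
    σ • (τ • x - x) - (τ • x - x) ∈ (modelTwoRed M p hpM hres hgen).T00 hm := by
  set Sσ := modelSemiRed M p hpM hres hgen (EichlerShimura.inducesOn_refl_of_inertia hσ) with hSσ
  set Sτ := modelSemiRed M p hpM hres hgen (EichlerShimura.inducesOn_refl_of_inertia hτ) with hSτ
  have hr : Sσ.resAut = 1 := by
    rw [hSσ, modelSemiRed_resAut, EichlerShimura.coeffSemilinear_refl]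
  have hperm : Sσ.PermutesNodes := fun s i => ⟨s, by rw [hr, inv_one, one_smul]⟩
  exact Sσ.smul_sub_mem_T00 hperm hr hm
    (Sτ.smul_sub_mem
      (modelSemiRed_isInertial M p hpM hres hgen (EichlerShimura.inducesOn_refl_of_inertia hτ)) hx)

/-- On a `p`-torsion class of slope zero and trivial reduction killed by both pushforwards inertia
acts through the cyclotomic character. -/
theorem smul_eq_nsmul_of_mem_T00 (hA : A.LiesOverPrime p) {f g : JZero (M * p) →+ JZero M}
    (hα : (heckeAlphaBar Qbar M p).toRingHom.IsIntegral)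
    (hβ : (heckeBetaBar Qbar M p).toRingHom.IsIntegral)
    (hf : IsPushforward (heckeAlphaBar Qbar M p) hα f)
    (hg : IsPushforward (heckeBetaBar Qbar M p) hβ g) {x : JZero (M * p)}
    (hx : x ∈ (modelTwoRed M p hpM hres hgen).T00 hm) (hpx : p • x = 0) (hfx : f x = 0)
    (hgx : g x = 0) {σ : GQ} (hσ : σ ∈ A.inertiaSubgroupIn ℚ) {a : ℕ}
    (ha : ActsByOnRoots p σ a) : σ • x = a • x := by
  set T := modelTwoRed M p hpM hres hgen with hT
  rcases eq_or_ne n 0 with rfl | hn
  · obtain ⟨h, -⟩ := (T.mem_T00 hm).mp hx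
    have h0 : x = 0 := by simpa using TwoRed.InT0.nsmul_eq_zero h
    rw [h0, nsmul_zero]
    exact smul_zero (A := JZero (M * p)) σ
  obtain ⟨h, h'⟩ := (T.mem_T00 hm).mp hx
  have hpk : (p : IsLocalRing.ResidueField A) = 0 := CharP.cast_eq_zero _ p
  have h00 : T.InT00 p x :=
    (TwoRed.inT00_of_redClass_eq_zero hm ⟨x, h⟩ h').of_pow hp.out hpk hn hpx
  obtain ⟨θ, ρ, hθ0, hθ, hρ, hρa⟩ := exists_theta hp.out hA hσ ha
  obtain ⟨D₀, hD₀⟩ := Pic0.mk_surjective x
  have hint0 : (degenAlpha M p hpM hres hgen).φ.toRingHom.IsIntegral := hα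
  have hint1 : (degenBeta M p hpM hres hgen).φ.toRingHom.IsIntegral := hβ
  refine SemiRed.smul_eq_nsmul_of_toric
    (modelSemiRed M p hpM hres hgen (EichlerShimura.inducesOn_refl_of_inertia hσ))
    (modelSemiRed_isInertial M p hpM hres hgen (EichlerShimura.inducesOn_refl_of_inertia hσ))
    hp.out hpk hθ0 hθ hρ hρa
    (degenAlpha M p hpM hres hgen) (degenBeta M p hpM hres hgen) rfl rfl rfl rfl
    (fun h => RR.ofFF.eq_const_of_ord_nonneg (f := h))
    (fun h => RR.ofFF.eq_const_of_ord_nonneg (f := h)) hint0 hint1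
    (Hecke.finiteAlong _) (Hecke.finiteAlong _)
    (Hecke.normFormulaAlong _ _) (Hecke.normFormulaAlong _ _)
    (boundedPull_alpha M p hpM hres hgen hint0) (boundedPull_beta M p hpM hres hgen hint1)
    h00 hD₀ ?_ ?_
  · have e := hf D₀
    rw [hD₀, hfx] at e
    exact eq_zero_of_mem_principal e.symm
  · have e := hg D₀
    rw [hD₀, hgx] at e
    exact eq_zero_of_mem_principal e.symm

end Model

/-- **The toric part at `p` of `J₀(M p)`.** -/
theorem hasToricPart_JZero (M p : ℕ) [NeZero M] [hp : Fact p.Prime] (hpM : ¬ p ∣ M)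
    {A : ValuationSubring (AlgebraicClosure ℚ)} (hA : A.LiesOverPrime p)
    {f g : JZero (M * p) →+ JZero M}
    (hα : (heckeAlphaBar Qbar M p).toRingHom.IsIntegral)
    (hβ : (heckeBetaBar Qbar M p).toRingHom.IsIntegral)
    (hf : IsPushforward (heckeAlphaBar Qbar M p) hα f)
    (hg : IsPushforward (heckeBetaBar Qbar M p) hβ g) : HasToricPart A p f g := by
  intro n
  have := Red.isAlgClosed_residueField A
  have := Red.charP_residueField A hA
  have hres := residueAt p hA
  have hgen := Red.genus_le A hpM hA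
  have hm : 0 < p ^ n := pow_pos hp.out.pos n
  set T := modelTwoRed M p hpM hres hgen with hT
  refine ⟨T.T00 hm, fun x hx => ?_, fun σ hσ x hx => ?_, fun σ hσ τ hτ x hx => ?_, ?_⟩
  · obtain ⟨h, -⟩ := (T.mem_T00 hm).mp hx
    exact TwoRed.InT0.nsmul_eq_zero h
  · have h := EichlerShimura.inducesOn_residueAut hσ
    exact (modelSemiRed M p hpM hres hgen h).smul_mem_T00
      (modelSemiRed_permutes M p hpM hres hgen h) hm hx
  · exact inertia_sub_mem_T00 M p hpM hres hgen hm hσ hτ hx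
  · exact fun x hx hpx hfx hgx σ hσ a ha =>
      smul_eq_nsmul_of_mem_T00 M p hpM hres hgen hm hA hα hβ hf hg hx hpx hfx hgx hσ ha

end Ordinary

end Fermat.Agent.TwoComponent
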