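import Mathlib.Algebra.Polynomial.Derivative
import Mathlib.RingTheory.DiscreteValuationRing.Basic
import Mathlib.RingTheory.Henselian
import Mathlib.RingTheory.Ideal.GoingUp
import Mathlib.RingTheory.LocalRing.ResidueField.Basic
import Mathlib.RingTheory.Nilpotent.Defs
import Mathlib.RingTheory.Noetherian.Basic
import Mathlib.Tactic.ComputeDegree
import Mathlib.Tactic.LinearCombination
import Fermat.Prelude.Thm_Algebra_finite_maximalSpectrum_and_bijective_localization_of_module_finite

/-!
# The local factor of a finite algebra at a point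

The factor of a finite algebra over a complete discrete valuation ring at the point given by a
map to a local ring, and the roots near `-1` and `1` of quadratic polynomials over it.
-/

noncomputable section

namespace Fermat.Agent.TwoComponent.Ordinary

variable {O T R : Type} [CommRing O] [IsDomain O] [IsDiscreteValuationRing O]
  [IsAdicComplete (IsLocalRing.maximalIdeal O) O] [CommRing T] [IsLocalRing T] [Algebra O T]
  [CommRing R] [Algebra O R] [Module.Finite O R] (q : R →ₐ[O] T) (hq : Function.Surjective q)

/-- The maximal ideal below that of `T`. -/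
def ptIdeal : Ideal R := (IsLocalRing.maximalIdeal T).comap q

include hq in
omit [IsDomain O] [IsDiscreteValuationRing O] [IsAdicComplete (IsLocalRing.maximalIdeal O) O]
  [Module.Finite O R] in
theorem ptIdeal_isMaximal : (ptIdeal q).IsMaximal :=
  have := IsLocalRing.maximalIdeal.isMaximal T
  Ideal.comap_isMaximal_of_surjective q hq

/-- The local factor at the point. -/
structure Factor {O T R : Type} [CommRing O] [CommRing T] [IsLocalRing T] [Algebra O T]
    [CommRing R] [Algebra O R] (q : R →ₐ[O] T) (L : Type) [CommRing L] [Algebra O L] where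
  /-- The projection onto the factor. -/
  proj : R →ₐ[O] L
  /-- An element mapping to `1` and killing the kernel of the projection. -/
  idem : R
  proj_idem : proj idem = 1
  ker_mul : ∀ r, proj r = 0 → r * idem = 0
  surj : Function.Surjective proj
  /-- The point, factored through the projection. -/
  toT : L →ₐ[O] T
  toT_proj : ∀ r, toT (proj r) = q r

omit [IsDomain O] [IsDiscreteValuationRing O] [IsAdicComplete (IsLocalRing.maximalIdeal O) O]
  [Module.Finite O R] in
theorem Factor.isReduced {L : Type} [CommRing L] [Algebra O L] (F : Factor q L) [IsReduced R] :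
    IsReduced L := by
  refine ⟨fun l hl => ?_⟩
  obtain ⟨r, rfl⟩ := F.surj l
  obtain ⟨k, hk⟩ := hl
  rw [← map_pow] at hk
  have h : (r * F.idem) ^ (k + 1) = 0 := by
    rw [mul_pow, pow_succ F.idem, pow_succ r, mul_comm (F.idem ^ k), mul_assoc, ← mul_assoc r,
      mul_comm r F.idem, mul_assoc F.idem, ← mul_assoc, F.ker_mul _ hk, zero_mul]
  have h0 := IsReduced.eq_zero _ ⟨k + 1, h⟩
  have := congrArg F.proj h0
  rwa [map_mul, F.proj_idem, mul_one, map_zero] at this

include hq in
/-- The local factor exists; it is complete and finite over `O`. -/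
theorem exists_factor :
    ∃ (L : Type) (_ : CommRing L) (_ : IsLocalRing L) (_ : Algebra O L) (F : Factor q L),
      IsAdicComplete (IsLocalRing.maximalIdeal L) L ∧ Module.Finite O L ∧ IsLocalHom F.toT := by
  classical
  have := ptIdeal_isMaximal q hq
  obtain ⟨hfin, hbij, hfinL, hcomp⟩ :=
    Algebra.finite_maximalSpectrum_and_bijective_localization_of_module_finite (𝒪 := O) R
  let m : MaximalSpectrum R := ⟨ptIdeal q, inferInstance⟩
  let L := Localization.AtPrime m.asIdeal
  have hunit : ∀ y : m.asIdeal.primeCompl, IsUnit (q y) := fun y => by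
    by_contra h
    exact y.2 ((IsLocalRing.mem_maximalIdeal _).mpr h)
  obtain ⟨e, he⟩ := hbij.2 (Pi.single m 1)
  let proj : R →ₐ[O] L := IsScalarTower.toAlgHom O R L
  let toT : L →ₐ[O] T := IsLocalization.liftAlgHom (M := m.asIdeal.primeCompl) hunit
  refine ⟨L, inferInstance, inferInstance, inferInstance,
    { proj := proj
      idem := e
      proj_idem := (congrFun he m).trans (Pi.single_eq_same m 1)
      ker_mul := fun r hr => hbij.1 ?_
      surj := fun l => ?_
      toT := toT
      toT_proj := fun r => IsLocalization.lift_eq hunit r },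
    hcomp m, hfinL m, ⟨fun l hl => ?_⟩⟩
  · rw [map_mul, map_zero, he]
    funext I
    rw [Pi.mul_apply, Pi.zero_apply]
    rcases eq_or_ne I m with rfl | hI
    · rw [Pi.single_eq_same, mul_one]; exact hr
    · rw [Pi.single_eq_of_ne hI, mul_zero]
  · obtain ⟨r, hr⟩ := hbij.2 (Pi.single m l)
    refine ⟨r, ?_⟩
    have h := congrFun hr m
    rw [Pi.single_eq_same] at h
    exact h
  · obtain ⟨⟨r, y⟩, hl'⟩ := IsLocalization.surj m.asIdeal.primeCompl l
    have h2 : toT (proj r) = toT l * toT (proj y) := by
      rw [← map_mul]; exact congrArg toT hl'.symm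
    have hq' : ∀ a, toT (proj a) = q a := IsLocalization.lift_eq hunit
    rw [hq', hq'] at h2
    have hrm : r ∈ m.asIdeal.primeCompl := fun h =>
      (IsLocalRing.mem_maximalIdeal _).mp h (h2 ▸ hl.mul (hunit y))
    exact isUnit_of_mul_isUnit_left (hl'.symm ▸ IsLocalization.map_units L ⟨r, hrm⟩ :
      IsUnit (l * algebraMap R L y))

variable {L : Type} [CommRing L] [IsLocalRing L] [Algebra O L] [Module.Finite O L]

omit [IsAdicComplete (IsLocalRing.maximalIdeal O) O] in
/-- Every power of a nonzero element of `𝔪_O` contains a power of `𝔪_L`. -/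
theorem exists_pow_le_span {x : O} (hx : x ≠ 0) :
    ∃ k, IsLocalRing.maximalIdeal L ^ k ≤ Ideal.span {algebraMap O L x} := by
  have : IsNoetherianRing L := IsNoetherianRing.of_finite O L
  refine Ideal.exists_pow_le_of_le_radical_of_fg ?_ (IsNoetherian.noetherian _)
  rw [Ideal.radical_eq_sInf]
  refine le_sInf fun P ⟨hP, hPp⟩ => ?_
  have := hPp
  have hxP : x ∈ P.comap (algebraMap O L) := hP (Ideal.mem_span_singleton_self _)
  have : (P.comap (algebraMap O L)).IsMaximal :=
    IsPrime.to_maximal_ideal fun h => hx (Ideal.mem_bot.mp (h ▸ hxP))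
  have : Algebra.IsIntegral O L := Algebra.IsIntegral.of_finite O L
  exact (IsLocalRing.eq_maximalIdeal
    (Ideal.isMaximal_of_isIntegral_of_isMaximal_comap (R := O) P inferInstance)).ge

omit [IsDiscreteValuationRing O] [IsAdicComplete (IsLocalRing.maximalIdeal O) O] in
/-- For `t ∈ 𝔪` and `χ ≡ -1`, the polynomial `X² - t X + χ` has roots near `-1` and `1`. -/
theorem exists_roots [IsAdicComplete (IsLocalRing.maximalIdeal L) L]
    (h2 : IsUnit (2 : L)) {t χ : L} (ht : t ∈ IsLocalRing.maximalIdeal L)
    (hχ : χ + 1 ∈ IsLocalRing.maximalIdeal L) :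
    ∃ a d : L, a + d = t ∧ a * d = χ ∧ IsUnit (a - d) ∧
      a + 1 ∈ IsLocalRing.maximalIdeal L ∧ d - 1 ∈ IsLocalRing.maximalIdeal L := by
  set f : Polynomial L := Polynomial.X ^ 2 - Polynomial.C t * Polynomial.X + Polynomial.C χ
  have hf : f.Monic := by
    unfold f
    monicity!
  have hder : f.derivative.eval (-1) = -(2 + t) := by
    simp [f]
    ring
  have hu : ∀ x ∈ IsLocalRing.maximalIdeal L, IsUnit (2 + x) := fun x hx => by
    by_contra h
    have := sub_mem ((IsLocalRing.mem_maximalIdeal _).mpr h) hx
    rw [add_sub_cancel_right] at this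
    exact (IsLocalRing.mem_maximalIdeal _).mp this h2
  obtain ⟨a, ha, ha'⟩ := HenselianRing.is_henselian (I := IsLocalRing.maximalIdeal L) f hf (-1)
    (by
      have e : f.eval (-1) = t + (χ + 1) := by simp [f]; ring
      rw [e]
      exact add_mem ht hχ)
    (by
      rw [hder]
      exact (hu t ht).neg.map _)
  rw [sub_neg_eq_add] at ha'
  refine ⟨a, t - a, add_sub_cancel _ _, ?_, ?_, ha', ?_⟩
  · have h : a ^ 2 - t * a + χ = 0 := by simpa [f] using ha
    linear_combination -h
  · have e : a - (t - a) = -(2 + (t - 2 * (a + 1))) := by ring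
    rw [e]
    exact (hu _ (sub_mem ht (Ideal.mul_mem_left _ _ ha'))).neg
  · have e : t - a - 1 = t - (a + 1) := by ring
    rw [e]
    exact sub_mem ht ha'

end Fermat.Agent.TwoComponent.Ordinary
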