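import Fermat.Agent.TwoComponent.Ordinary.HeckeExt
import Fermat.Agent.TwoComponent.Ordinary.LocalFactor

/-!
# The lattice cut out by a local factor of the Hecke algebra

The part of the coefficient lattice cut out by a local factor of the Hecke algebra, with the
action of that factor and of commuting matrices.
-/

noncomputable section

namespace Fermat.Agent.TwoComponent.Ordinary

open Fermat.Agent.Attach

local notation "GQ" => (AlgebraicClosure ℚ ≃ₐ[ℚ] AlgebraicClosure ℚ)

variable {N : ℕ} [NeZero N] {p : ℕ} (M : TorsionModel N p) {S : Set ℕ}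
  (hS : ∀ q, q.Prime → q ∣ N → q ∈ S)
  {O T L : Type} [CommRing O] [CommRing T] [IsLocalRing T] [Algebra O T] [CommRing L] [Algebra O L]
  {q : HeckeO N S O →ₐ[O] T} (F : Factor q L)

/-- The lattice of the factor. -/
def facLattice : Submodule O (Fin M.rk → O) where
  carrier := {x | ∀ r, F.proj r = 0 → (actO M hS O r).mulVec x = 0}
  add_mem' {x y} hx hy r hr := by rw [Matrix.mulVec_add, hx r hr, hy r hr, add_zero]
  zero_mem' r _ := Matrix.mulVec_zero _
  smul_mem' c x hx r hr := by rw [Matrix.mulVec_smul, hx r hr, smul_zero]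

theorem mulVec_mem (X : Matrix (Fin M.rk) (Fin M.rk) O)
    (hX : ∀ r, Commute X (actO M hS O r)) (x : facLattice M hS F) :
    X.mulVec (x : Fin M.rk → O) ∈ facLattice M hS F := fun r hr => by
  rw [Matrix.mulVec_mulVec, ← (hX r).eq, ← Matrix.mulVec_mulVec, x.2 r hr, Matrix.mulVec_zero]

/-- Restriction of a commuting matrix to the lattice. -/
def resEnd (X : Matrix (Fin M.rk) (Fin M.rk) O) (hX : ∀ r, Commute X (actO M hS O r)) :
    Module.End O (facLattice M hS F) :=
  (Matrix.mulVecLin X).restrict fun x hx => mulVec_mem M hS F X hX ⟨x, hx⟩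

theorem resEnd_apply (X : Matrix (Fin M.rk) (Fin M.rk) O) (hX) (x : facLattice M hS F) :
    (resEnd M hS F X hX x : Fin M.rk → O) = X.mulVec x := rfl

/-- The algebra acting on the lattice. -/
def actLat : HeckeO N S O →+* Module.End O (facLattice M hS F) where
  toFun r := resEnd M hS F (actO M hS O r) fun s => actO_commute M hS O r s
  map_one' := LinearMap.ext fun x => Subtype.ext (by
    rw [resEnd_apply, map_one, Matrix.one_mulVec]; rfl)
  map_mul' r s := LinearMap.ext fun x => Subtype.ext (by
    rw [resEnd_apply, map_mul, ← Matrix.mulVec_mulVec]; rfl)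
  map_zero' := LinearMap.ext fun x => Subtype.ext (by
    rw [resEnd_apply, map_zero, Matrix.zero_mulVec]; rfl)
  map_add' r s := LinearMap.ext fun x => Subtype.ext (by
    rw [resEnd_apply, map_add, Matrix.add_mulVec]; rfl)

theorem actLat_congr {r r' : HeckeO N S O} (h : F.proj r = F.proj r') :
    actLat M hS F r = actLat M hS F r' := by
  refine LinearMap.ext fun x => Subtype.ext ?_
  have h0 := x.2 (r - r') (by rw [map_sub, h, sub_self])
  rw [map_sub, Matrix.sub_mulVec, sub_eq_zero] at h0
  exact h0

/-- The factor acting on the lattice. -/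
def actFac : L →+* Module.End O (facLattice M hS F) where
  toFun l := actLat M hS F (Function.surjInv F.surj l)
  map_one' := (actLat_congr M hS F (by rw [Function.surjInv_eq F.surj, map_one])).trans
    (map_one (actLat M hS F))
  map_mul' a b := (actLat_congr M hS F (by
    rw [Function.surjInv_eq F.surj, map_mul, Function.surjInv_eq F.surj,
      Function.surjInv_eq F.surj])).trans (map_mul (actLat M hS F) _ _)
  map_zero' := (actLat_congr M hS F (by rw [Function.surjInv_eq F.surj, map_zero])).trans
    (map_zero (actLat M hS F))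
  map_add' a b := (actLat_congr M hS F (by
    rw [Function.surjInv_eq F.surj, map_add, Function.surjInv_eq F.surj,
      Function.surjInv_eq F.surj])).trans (map_add (actLat M hS F) _ _)

theorem actFac_proj (r : HeckeO N S O) : actFac M hS F (F.proj r) = actLat M hS F r :=
  actLat_congr M hS F (Function.surjInv_eq F.surj _)

theorem actFac_injective [IsDomain O] [CharZero O] : Function.Injective (actFac M hS F) := by
  refine (injective_iff_map_eq_zero _).mpr fun l hl => ?_
  obtain ⟨r, rfl⟩ := F.surj l
  have h : actO M hS O (r * F.idem) = 0 := by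
    refine Matrix.toLin'.injective ?_
    rw [map_zero]
    refine LinearMap.ext fun x => ?_
    rw [Matrix.toLin'_apply, LinearMap.zero_apply, map_mul, ← Matrix.mulVec_mulVec]
    have hx : (actO M hS O F.idem).mulVec x ∈ facLattice M hS F := fun s hs => by
      rw [Matrix.mulVec_mulVec, ← map_mul, F.ker_mul s hs, map_zero, Matrix.zero_mulVec]
    rw [actFac_proj] at hl
    exact congrArg Subtype.val (LinearMap.congr_fun hl ⟨_, hx⟩)
  have h2 := actO_injective M hS O (h.trans (map_zero _).symm)
  have h3 := congrArg F.proj h2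
  rwa [map_mul, F.proj_idem, mul_one, map_zero] at h3

theorem actFac_algebraMap (c : O) (x : facLattice M hS F) :
    actFac M hS F (algebraMap O L c) x = c • x := by
  rw [← F.proj.commutes, actFac_proj]
  refine Subtype.ext ?_
  show (actO M hS O (algebraMap O _ c)).mulVec _ = _
  rw [AlgHom.commutes, Algebra.algebraMap_eq_smul_one, Matrix.smul_mulVec, Matrix.one_mulVec]
  rfl

theorem resEnd_comm_actFac (X : Matrix (Fin M.rk) (Fin M.rk) O) (hX) (l : L) :
    Commute (resEnd M hS F X hX) (actFac M hS F l) := by
  obtain ⟨r, rfl⟩ := F.surj l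
  rw [actFac_proj]
  refine LinearMap.ext fun x => Subtype.ext ?_
  show X.mulVec ((actO M hS O r).mulVec _) = (actO M hS O r).mulVec (X.mulVec _)
  rw [Matrix.mulVec_mulVec, Matrix.mulVec_mulVec, (hX r).eq]

end Fermat.Agent.TwoComponent.Ordinary
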