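import Mathlib.Algebra.Ring.GeomSum
import Mathlib.LinearAlgebra.Span.Basic
import Mathlib.RingTheory.Ideal.Quotient.Operations
import Mathlib.RingTheory.LocalRing.MaximalIdeal.Basic
import Mathlib.Tactic.Abel
import Mathlib.Tactic.LinearCombination
import Mathlib.Tactic.Ring

/-!
# Representations whose trace relation splits along a regular element

`ρ : G → GL_R(V)` satisfies `ρ g + χ(g) ρ g⁻¹ = t(g)` and at `s` the two roots `a, d` of
`X² - t(s) X + χ(s)` differ by a unit. On the two eigenspaces the diagonal blocks are scalars.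
-/

noncomputable section

namespace Fermat.Agent.TwoComponent.Ordinary

variable {R V G : Type*} [CommRing R] [AddCommGroup V] [Module R V] [Group G]

/-- A representation with a trace relation, and an element `s` at which the two roots differ by a
unit. -/
structure SplitData (R V G : Type*) [CommRing R] [AddCommGroup V] [Module R V] [Group G] where
  /-- The representation. -/
  rho : G →* Module.End R V
  /-- The trace function `t` in `ρ g + χ(g) ρ g⁻¹ = t(g)`. -/
  tr : G → R
  /-- The determinant character `χ`. -/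
  chi : G →* R
  rel : ∀ g, rho g + chi g • rho g⁻¹ = tr g • (1 : Module.End R V)
  /-- The regular element. -/
  s : G
  /-- The first root `a` of `X² - t(s) X + χ(s)`. -/
  rootA : R
  /-- The second root `d` of `X² - t(s) X + χ(s)`; `a - d` is a unit. -/
  rootD : R
  sum_eq : rootA + rootD = tr s
  prod_eq : rootA * rootD = chi s
  unit_sub : IsUnit (rootA - rootD)

namespace SplitData

variable (P : SplitData R V G)

/-- The inverse of the difference of the roots. -/
def inv : R := ↑P.unit_sub.unit⁻¹

theorem inv_mul : P.inv * (P.rootA - P.rootD) = 1 := P.unit_sub.val_inv_mul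

/-- Upper diagonal entry. -/
def entA (g : G) : R := P.inv * (P.tr (P.s * g) - P.rootD * P.tr g)

/-- Lower diagonal entry. -/
def entD (g : G) : R := P.tr g - P.entA g

/-- Product of an upper and a lower off-diagonal entry. -/
def offA (g h : G) : R := P.entA (g * h) - P.entA g * P.entA h

/-- Product of a lower and an upper off-diagonal entry. -/
def offD (g h : G) : R := P.entD (g * h) - P.entD g * P.entD h

/-- The projection on the `a`-eigenspace. -/
def projA : Module.End R V := P.inv • (P.rho P.s - P.rootD • 1)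

/-- The projection on the `d`-eigenspace. -/
def projD : Module.End R V := 1 - P.projA

theorem rho_s_sq : P.rho P.s * P.rho P.s =
    P.tr P.s • P.rho P.s - P.chi P.s • (1 : Module.End R V) := by
  have h := congrArg (P.rho P.s * ·) (P.rel P.s)
  simp only [mul_add, mul_smul_comm, mul_one, ← map_mul, mul_inv_cancel, map_one] at h
  rw [eq_sub_iff_add_eq, ← map_mul]
  exact h

theorem rho_s_mul_projA : P.rho P.s * P.projA = P.rootA • P.projA := by
  rw [projA, mul_smul_comm, mul_sub, mul_smul_comm, mul_one, P.rho_s_sq, ← P.sum_eq, ← P.prod_eq]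
  simp only [smul_sub, smul_smul, add_smul, smul_add]
  rw [show P.rootA * (P.inv * P.rootD) = P.inv * (P.rootA * P.rootD) by ring,
    mul_comm P.rootA P.inv]
  abel

theorem projA_mul_rho_s : P.projA * P.rho P.s = P.rootA • P.projA := by
  rw [← P.rho_s_mul_projA, projA, smul_mul_assoc, mul_smul_comm, sub_mul, mul_sub, smul_mul_assoc,
    mul_smul_comm, one_mul, mul_one]

theorem projA_sq : P.projA * P.projA = P.projA := by
  nth_rewrite 1 [projA]
  rw [smul_mul_assoc, sub_mul, P.rho_s_mul_projA, smul_mul_assoc, one_mul, ← sub_smul, smul_smul,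
    P.inv_mul, one_smul]

theorem projD_sq : P.projD * P.projD = P.projD := by
  rw [projD, mul_sub, sub_mul, sub_mul, P.projA_sq, one_mul, one_mul, mul_one]
  abel

theorem projA_projD : P.projA * P.projD = 0 := by
  rw [projD, mul_sub, P.projA_sq, mul_one, sub_self]

theorem projD_projA : P.projD * P.projA = 0 := by
  rw [projD, sub_mul, P.projA_sq, one_mul, sub_self]

theorem projA_add_projD : P.projA + P.projD = 1 := add_sub_cancel _ _

theorem rho_s_mul_projD : P.rho P.s * P.projD = P.rootD • P.projD := by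
  have h : P.rho P.s = (P.rootA - P.rootD) • P.projA + P.rootD • (1 : Module.End R V) := by
    rw [projA, smul_smul, mul_comm, P.inv_mul, one_smul, sub_add_cancel]
  rw [h, add_mul, smul_mul_assoc, P.projA_projD, smul_zero, zero_add, smul_mul_assoc, one_mul]

theorem projD_mul_rho_s : P.projD * P.rho P.s = P.rootD • P.projD := by
  rw [← P.rho_s_mul_projD, projD, sub_mul, mul_sub, one_mul, mul_one, P.projA_mul_rho_s,
    P.rho_s_mul_projA]

theorem chi_smul_inv (g : G) : P.chi g • P.rho g⁻¹ = P.tr g • 1 - P.rho g :=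
  eq_sub_of_add_eq' (P.rel g)

/-- On an eigen-projection the compressed action is scalar. -/
theorem compress (E : Module.End R V) (a d : R) (hE : E * E = E)
    (h1 : E * P.rho P.s = a • E) (h2 : P.rho P.s * E = a • E) (had : a * d = P.chi P.s)
    (g : G) : (a - d) • (E * P.rho g * E) = (P.tr (P.s * g) - d * P.tr g) • E := by
  have hinv : P.chi P.s • (P.rho P.s⁻¹ * E) = d • E := by
    have h := congrArg (P.rho P.s⁻¹ * ·) h2
    simp only [← mul_assoc, mul_smul_comm, ← map_mul, inv_mul_cancel, map_one, one_mul] at h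
    rw [← had, mul_comm, ← smul_smul, ← h]
  have h := congrArg (fun X => E * X * E) (P.rel (P.s * g))
  simp only [mul_inv_rev, map_mul] at h
  have e1 : E * (P.rho P.s * P.rho g) * E = a • (E * P.rho g * E) := by
    rw [← mul_assoc, h1, smul_mul_assoc, smul_mul_assoc]
  have e2 : E * ((P.chi P.s * P.chi g) • (P.rho g⁻¹ * P.rho P.s⁻¹)) * E =
      d • (P.tr g • E - E * P.rho g * E) := by
    rw [show (P.chi P.s * P.chi g) • (P.rho g⁻¹ * P.rho P.s⁻¹) =
      P.chi P.s • ((P.chi g • P.rho g⁻¹) * P.rho P.s⁻¹) by rw [smul_mul_assoc, smul_smul],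
      P.chi_smul_inv, mul_smul_comm, smul_mul_assoc, mul_assoc, mul_assoc, ← mul_smul_comm,
      ← mul_smul_comm, hinv, mul_smul_comm, mul_smul_comm, sub_mul, mul_sub, smul_mul_assoc,
      one_mul, mul_smul_comm, hE, mul_assoc]
  rw [mul_add, add_mul, e1, e2] at h
  simp only [mul_smul_comm, mul_one, smul_mul_assoc, hE, smul_sub, smul_smul] at h
  rw [sub_smul, sub_smul, ← h]
  abel

theorem compressA (g : G) : P.projA * P.rho g * P.projA = P.entA g • P.projA := by
  have h := P.compress P.projA P.rootA P.rootD P.projA_sq P.projA_mul_rho_s P.rho_s_mul_projA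
    P.prod_eq g
  have h2 := congrArg (P.inv • ·) h
  simp only [smul_smul, P.inv_mul, one_smul] at h2
  exact h2

theorem compressD (g : G) : P.projD * P.rho g * P.projD = P.entD g • P.projD := by
  have h := P.compress P.projD P.rootD P.rootA P.projD_sq P.projD_mul_rho_s P.rho_s_mul_projD
    (by rw [mul_comm, P.prod_eq]) g
  have h2 := congrArg ((-P.inv) • ·) h
  have e : -P.inv * (P.rootD - P.rootA) = 1 := by rw [← P.inv_mul]; ring
  simp only [smul_smul, e, one_smul] at h2
  rw [h2]
  congr 1
  rw [entD, entA]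
  linear_combination P.tr g * P.inv_mul

theorem mid (E F : Module.End R V) (hF : F = 1 - E) (g h : G) :
    E * P.rho g * F * P.rho h * E =
      E * P.rho (g * h) * E - (E * P.rho g * E) * (P.rho h * E) := by
  rw [hF, map_mul]
  simp only [mul_sub, sub_mul, mul_one, mul_assoc]

theorem midA (g h : G) : P.projA * P.rho g * P.projD * P.rho h * P.projA =
    P.offA g h • P.projA := by
  rw [P.mid P.projA P.projD rfl, P.compressA, P.compressA, smul_mul_assoc, ← mul_assoc,
    P.compressA, smul_smul, ← sub_smul]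
  rfl

theorem midD (g h : G) : P.projD * P.rho g * P.projA * P.rho h * P.projD =
    P.offD g h • P.projD := by
  rw [P.mid P.projD P.projA (by rw [projD, sub_sub_cancel]), P.compressD, P.compressD,
    smul_mul_assoc, ← mul_assoc, P.compressD, smul_smul, ← sub_smul]
  rfl

variable {g₀ h₀ : G}

/-- A lower off-diagonal block is a multiple of a fixed one. -/
theorem lower_eq (hA : IsUnit (P.offA g₀ h₀)) (hD : IsUnit (P.offD h₀ g₀)) (σ : G) :
    P.projD * P.rho σ * P.projA =
      (↑hD.unit⁻¹ * P.offD σ g₀) • (P.projD * P.rho h₀ * P.projA) := by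
  have h1 : P.projA = (↑hA.unit⁻¹ : R) • (P.projA * P.rho g₀ * P.projD * P.rho h₀ * P.projA) := by
    rw [P.midA, smul_smul, hA.val_inv_mul, one_smul]
  have h2 : ∀ τ, P.projD * P.rho τ * P.projA =
      ((↑hA.unit⁻¹ : R) * P.offD τ g₀) • (P.projD * P.rho h₀ * P.projA) := fun τ => by
    conv_lhs => rw [h1]
    rw [mul_smul_comm, ← smul_smul]
    congr 1
    rw [← smul_mul_assoc (P.offD τ g₀), ← smul_mul_assoc (P.offD τ g₀), ← P.midD τ g₀]
    simp only [mul_assoc]
  have h3 : ((↑hA.unit⁻¹ : R) * P.offD h₀ g₀) • (P.projD * P.rho h₀ * P.projA) =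
      P.projD * P.rho h₀ * P.projA := (h2 h₀).symm
  rw [h2 σ]
  conv_lhs => rw [show (↑hA.unit⁻¹ : R) * P.offD σ g₀ =
    (↑hD.unit⁻¹ * P.offD σ g₀) * ((↑hA.unit⁻¹ : R) * P.offD h₀ g₀) by
      rw [show ↑hD.unit⁻¹ * P.offD σ g₀ * (↑hA.unit⁻¹ * P.offD h₀ g₀) =
        (↑hA.unit⁻¹ * P.offD σ g₀) * (↑hD.unit⁻¹ * P.offD h₀ g₀) by ring, hD.val_inv_mul, mul_one]]
  rw [← smul_smul, h3]

theorem eq_zero_of_smul_projD (hfaith : ∀ r : R, r • (1 : Module.End R V) = 0 → r = 0)
    (hA : IsUnit (P.offA g₀ h₀)) {r : R} (h : r • P.projD = 0) : r = 0 := by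
  refine hfaith r ?_
  have h1 : r • P.projA = 0 := by
    have h2 : r • (P.projA * P.rho g₀ * P.projD * P.rho h₀ * P.projA) = 0 := by
      rw [← smul_mul_assoc, ← smul_mul_assoc, ← mul_smul_comm, h, mul_zero, zero_mul, zero_mul]
    rw [P.midA, smul_smul, mul_comm, ← smul_smul] at h2
    have h3 := congrArg ((↑hA.unit⁻¹ : R) • ·) h2
    simp only [smul_smul, smul_zero] at h3
    rwa [← mul_assoc, hA.val_inv_mul, one_mul] at h3
  rw [← P.projA_add_projD, smul_add, h1, h, add_zero]

theorem rho_pow_projA (j : ℕ) : P.rho (P.s ^ j) * P.projA = P.rootA ^ j • P.projA := by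
  induction j with
  | zero => simp
  | succ j ih =>
    rw [pow_succ, map_mul, mul_assoc, P.rho_s_mul_projA, mul_smul_comm, ih, smul_smul, pow_succ']

theorem rho_pow_projD (j : ℕ) : P.rho (P.s ^ j) * P.projD = P.rootD ^ j • P.projD := by
  induction j with
  | zero => simp
  | succ j ih =>
    rw [pow_succ, map_mul, mul_assoc, P.rho_s_mul_projD, mul_smul_comm, ih, smul_smul, pow_succ']

/-- A lower block vanishes once the lower off-diagonal entry does. -/
theorem lower_eq_zero (hA : IsUnit (P.offA g₀ h₀)) (hD : IsUnit (P.offD h₀ g₀)) {σ : G}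
    (h : P.offD σ g₀ = 0) (v : V) : P.projD (P.rho σ (P.projA v)) = 0 := by
  have e := LinearMap.congr_fun (P.lower_eq hA hD σ) v
  rw [h, mul_zero, zero_smul, LinearMap.zero_apply] at e
  exact e

/-- If the lower block at `σ` vanishes, the lower coordinate is multiplied by the lower diagonal
entry. -/
theorem projD_rho {σ : G} (h : ∀ v, P.projD (P.rho σ (P.projA v)) = 0) (v : V) :
    P.projD (P.rho σ v) = P.entD σ • P.projD v := by
  have e : v = P.projA v + P.projD v := (LinearMap.congr_fun P.projA_add_projD v).symm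
  conv_lhs => rw [e]
  rw [map_add, map_add, h, zero_add]
  exact LinearMap.congr_fun (P.compressD σ) v

end SplitData

/-- Raising to `p`-th powers improves congruences. -/
theorem pow_prime_pow_sub_mem {I : Ideal R} {p : ℕ} (hp : (p : R) ∈ I) {x y : R}
    (h : x - y ∈ I) (K : ℕ) : x ^ p ^ K - y ^ p ^ K ∈ I ^ (K + 1) := by
  induction K with
  | zero => simpa using h
  | succ K ih =>
    rw [pow_succ p, pow_mul, pow_mul, ← geom_sum₂_mul, pow_succ']
    refine Ideal.mul_mem_mul ?_ ih
    set u := x ^ p ^ K
    set v := y ^ p ^ K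
    have huv : u - v ∈ I := Ideal.pow_le_self (Nat.succ_ne_zero K) ih
    have hmk : Ideal.Quotient.mk I u = Ideal.Quotient.mk I v := Ideal.Quotient.eq.mpr huv
    rw [← Ideal.Quotient.eq_zero_iff_mem, map_sum]
    simp only [map_mul, map_pow, hmk, ← pow_add]
    rw [Finset.sum_congr rfl fun i hi => by
      rw [show i + (p - 1 - i) = p - 1 by have := Finset.mem_range.mp hi; omega]]
    rw [Finset.sum_const, Finset.card_range, ← map_pow, ← map_nsmul, nsmul_eq_mul,
      Ideal.Quotient.eq_zero_iff_mem]
    exact Ideal.mul_mem_right _ _ hp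

end Fermat.Agent.TwoComponent.Ordinary
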