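import Mathlib.LinearAlgebra.Determinant
import Mathlib.LinearAlgebra.TensorProduct.Basis
import Fermat.Prelude.Def_GaloisRep_LocalConditions
import Fermat.Agent.Attach.Coeff
import Fermat.Agent.TW.InertiaOmega

/-!
# The residual frame at `p` of an ordinary representation

An absolutely irreducible residually ordinary representation has a basis in which some inertia
element is `diag(-1, 1)` and inertia is `[[*, *], [0, 1]]`.
-/

noncomputable section

open scoped TensorProduct

namespace Fermat.Agent.TwoComponent.Ordinary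

open Fermat.Agent.Attach

local notation "Qbar" => AlgebraicClosure ℚ
local notation "GQ" => (AlgebraicClosure ℚ ≃ₐ[ℚ] AlgebraicClosure ℚ)

variable {p : ℕ} [Fact p.Prime]

theorem exists_inertia_inverting (hp2 : p ≠ 2) {A : ValuationSubring Qbar}
    (hA : A.LiesOverPrime p) :
    ∃ σ ∈ A.inertiaSubgroupIn ℚ, ∀ z : Qbar, z ^ p = 1 → σ z = z⁻¹ := by
  have hp1 := (Fact.out : p.Prime).one_le
  obtain ⟨σ, hσ, hω⟩ := TW.exists_inertia_omega hA hp2 (-1)
  refine ⟨σ, hσ, fun z hz => ?_⟩
  have hζ := TW.zetaP_spec (p := p)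
  have h1 : σ (TW.zetaP p) = (TW.zetaP p) ^ ((-1 : (ZMod p)ˣ) : ZMod p).val := by
    rw [← hω]
    exact ((TW.zetaP_spec (p := p)).autToPow_spec ℚ σ).symm
  have h2 : TW.zetaP p * σ (TW.zetaP p) = 1 := by
    rw [h1, ← pow_succ']
    refine (hζ.pow_eq_one_iff_dvd _).mpr ((ZMod.natCast_eq_zero_iff _ _).mp ?_)
    push_cast [ZMod.natCast_zmod_val]
    simp
  obtain ⟨i, -, rfl⟩ := hζ.eq_pow_of_pow_eq_one hz
  rw [map_pow, eq_inv_of_mul_eq_one_right h2, inv_pow]

theorem cyc_one_of_inverting {σ : GQ} (hσ : ∀ z : Qbar, z ^ p = 1 → σ z = z⁻¹) :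
    cyc p 1 σ = ((p - 1 : ℕ) : ZMod (p ^ 1)) := by
  refine cyc_eq_natCast p 1 σ (p - 1) fun z hz => ?_
  rw [pow_one] at hz
  rw [hσ z hz]
  refine inv_eq_of_mul_eq_one_right ?_
  rw [← pow_succ', Nat.sub_add_cancel (Fact.out : p.Prime).one_le, hz]

variable {T : Type} [CommRing T] [IsLocalRing T] [IsAdicComplete (IsLocalRing.maximalIdeal T) T]
  (hpT : (p : T) ∈ IsLocalRing.maximalIdeal T)

theorem residue_cycO_inverting {σ : GQ} (hσ : ∀ z : Qbar, z ^ p = 1 → σ z = z⁻¹) :
    IsLocalRing.residue T (TorsionModel.cycO hpT σ) = -1 := by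
  have h := padicMap_sub_mem p (IsLocalRing.maximalIdeal T) hpT 1
    ((cycPadic p σ : ℤ_[p]ˣ) : ℤ_[p]) ((p - 1 : ℕ) : ℤ_[p])
    (by rw [← cyc_eq, cyc_one_of_inverting hσ, map_natCast])
  rw [pow_one, map_natCast] at h
  have h2 : IsLocalRing.residue T (TorsionModel.cycO hpT σ) =
      IsLocalRing.residue T ((p - 1 : ℕ) : T) := Ideal.Quotient.eq.mpr h
  rw [h2, map_natCast, Nat.cast_sub (Fact.out : p.Prime).one_le, Nat.cast_one,
    ← map_natCast (IsLocalRing.residue T), (IsLocalRing.residue_eq_zero_iff _).mpr hpT, zero_sub]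

include hpT in
omit [IsAdicComplete (IsLocalRing.maximalIdeal T) T] in
theorem two_ne_zero_residue (hp2 : p ≠ 2) : (2 : IsLocalRing.ResidueField T) ≠ 0 := by
  intro h2
  have h0 : (p : IsLocalRing.ResidueField T) = 0 := by
    rw [← map_natCast (IsLocalRing.residue T), (IsLocalRing.residue_eq_zero_iff _).mpr hpT]
  obtain ⟨m, hm⟩ := (Fact.out : p.Prime).odd_of_ne_two hp2
  rw [hm] at h0
  push_cast at h0
  rw [h2, zero_mul, zero_add] at h0
  exact one_ne_zero h0

variable (ρ : GaloisRepAdic T)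

omit [IsAdicComplete (IsLocalRing.maximalIdeal T) T] in
theorem det_residual (g : GQ) :
    LinearMap.det (ρ.residual.ρ g) = IsLocalRing.residue T (LinearMap.det (ρ.ρ g)) :=
  LinearMap.det_baseChange (A := IsLocalRing.ResidueField T) _

/-- No line through a basis vector is stable under an absolutely irreducible representation. -/
theorem exists_off_ne_zero {k : Type} [Field k] (r : ResidualGaloisRep k)
    (habs : r.IsAbsolutelyIrreducible) (b : Module.Basis (Fin 2) k r.V) {i j : Fin 2}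
    (hij : i ≠ j) :
    ∃ g, LinearMap.toMatrix b b (r.ρ g) i j ≠ 0 := by
  by_contra! hall
  let K := AlgebraicClosure k
  let B := Algebra.TensorProduct.basis K b
  rcases habs (Submodule.span K {B j}) (fun σ x hx => by
    obtain ⟨c, rfl⟩ := Submodule.mem_span_singleton.mp hx
    refine Submodule.mem_span_singleton.mpr ⟨c * algebraMap k K (b.repr (r.ρ σ (b j)) j), ?_⟩
    rw [mul_smul, map_smul]
    congr 1
    show _ = (r.ρ σ).baseChange K (B j)
    rw [Algebra.TensorProduct.basis_apply, LinearMap.baseChange_tmul]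
    have hz : b.repr (r.ρ σ (b j)) i = 0 := by
      have := hall σ
      rwa [LinearMap.toMatrix_apply] at this
    have e : r.ρ σ (b j) = b.repr (r.ρ σ (b j)) j • b j := by
      refine b.ext_elem fun l => ?_
      rw [map_smul, Finsupp.smul_apply, b.repr_self, Finsupp.single_apply]
      rcases eq_or_ne j l with rfl | hl
      · simp
      · have hli : l = i := by
          fin_cases i <;> fin_cases j <;> fin_cases l <;> simp_all
        subst hli
        simp [hz, hl]
    conv_rhs => rw [e, TensorProduct.tmul_smul, ← algebraMap_smul K]) with h | h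
  · exact B.ne_zero j (Submodule.mem_bot K |>.mp (h ▸ Submodule.mem_span_singleton_self _))
  · obtain ⟨c, hc⟩ := Submodule.mem_span_singleton.mp (h ▸ (Submodule.mem_top : B i ∈ _))
    have := congrArg (fun x => B.repr x i) hc
    simp [B.repr_self, hij.symm] at this

/-- The residual frame: `σ₀ = diag(-1, 1)` and inertia is `[[*, *], [0, 1]]`. -/
theorem exists_residual_frame (hp2 : p ≠ 2) {A : ValuationSubring Qbar} (hA : A.LiesOverPrime p)
    (hdet : ∀ g, LinearMap.det (ρ.ρ g) = TorsionModel.cycO hpT g)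
    (hres : (GaloisRepAdic.ofResidualGaloisRep ρ.residual).IsOrdinaryAt p)
    (habs : ρ.residual.IsAbsolutelyIrreducible) :
    ∃ s ∈ A.inertiaSubgroupIn ℚ, (∀ z : Qbar, z ^ p = 1 → s z = z⁻¹) ∧
      ∃ b : Module.Basis (Fin 2) (IsLocalRing.ResidueField T) ρ.residual.V,
        (LinearMap.toMatrix b b (ρ.residual.ρ s) = !![-1, 0; 0, 1]) ∧
        (∀ σ ∈ A.inertiaSubgroupIn ℚ, LinearMap.toMatrix b b (ρ.residual.ρ σ) 1 0 = 0 ∧
          LinearMap.toMatrix b b (ρ.residual.ρ σ) 1 1 = 1) ∧
        (∃ g, LinearMap.toMatrix b b (ρ.residual.ρ g) 0 1 ≠ 0) ∧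
        ∃ h, LinearMap.toMatrix b b (ρ.residual.ρ h) 1 0 ≠ 0 := by
  obtain ⟨s, hs, hsz⟩ := exists_inertia_inverting hp2 hA
  obtain ⟨L, ⟨b', hb'⟩, hD, hI⟩ := hres A hA
  change Submodule (IsLocalRing.ResidueField T) ρ.residual.V at L
  change Module.Basis (Fin 2) (IsLocalRing.ResidueField T) ρ.residual.V at b'
  subst hb'
  have hrow : ∀ σ ∈ A.inertiaSubgroupIn ℚ, b'.repr (ρ.residual.ρ σ (b' 0)) 1 = 0 ∧
      b'.repr (ρ.residual.ρ σ (b' 1)) 1 = 1 := fun σ hσ => by
    have h1 : ∀ x ∈ Submodule.span (IsLocalRing.ResidueField T) {b' 0}, b'.repr x 1 = 0 := by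
      intro x hx
      obtain ⟨c, rfl⟩ := Submodule.mem_span_singleton.mp hx
      simp
    refine ⟨h1 _ (hD σ (Subgroup.map_subtype_le _ hσ) _ (Submodule.mem_span_singleton_self _)), ?_⟩
    have h2 : b'.repr (ρ.residual.ρ σ (b' 1) - b' 1) 1 = 0 := h1 _ (hI σ hσ (b' 1))
    rw [map_sub, Finsupp.sub_apply, b'.repr_self, Finsupp.single_eq_same, sub_eq_zero] at h2
    exact h2
  have h2ne := two_ne_zero_residue hpT hp2
  -- move `b' 1` into the fixed line of `s`
  set β := b'.repr (ρ.residual.ρ s (b' 1)) 0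
  have hs00 : b'.repr (ρ.residual.ρ s (b' 0)) 0 = -1 := by
    have h := det_residual ρ s
    rw [hdet, residue_cycO_inverting hpT hsz, ← LinearMap.det_toMatrix b', Matrix.det_fin_two] at h
    simp only [LinearMap.toMatrix_apply] at h
    rw [(hrow s hs).1, (hrow s hs).2, mul_zero, mul_one, sub_zero] at h
    exact h
  set w : Fin 2 → ρ.residual.V := ![b' 0, b' 1 + (β / 2) • b' 0] with hw
  have hli : LinearIndependent (IsLocalRing.ResidueField T) w := by
    rw [hw, LinearIndependent.pair_iff]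
    intro x y hxy
    have h0 := congrArg (fun v => b'.repr v 0) hxy
    have h1 := congrArg (fun v => b'.repr v 1) hxy
    simp at h0 h1
    subst h1
    simpa using h0
  let b := basisOfLinearIndependentOfCardEqFinrank hli (by rw [ρ.residual.finrank_eq]; rfl)
  have hb : ⇑b = w := coe_basisOfLinearIndependentOfCardEqFinrank _ _
  have hs0 : ρ.residual.ρ s (b 0) = -b 0 := by
    rw [hb]
    show ρ.residual.ρ s (b' 0) = -b' 0
    refine b'.ext_elem fun l => ?_
    rw [map_neg, Finsupp.neg_apply]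
    fin_cases l
    · simpa using hs00
    · simpa using (hrow s hs).1
  have hs1 : ρ.residual.ρ s (b 1) = b 1 := by
    rw [hb]
    show ρ.residual.ρ s (b' 1 + (β / 2) • b' 0) = b' 1 + (β / 2) • b' 0
    refine b'.ext_elem fun l => ?_
    rw [map_add, map_smul, map_add, map_smul]
    fin_cases l
    · have : β + β / 2 * -1 = β / 2 := by field_simp; ring
      simpa [hs00] using this
    · simp [(hrow s hs).1, (hrow s hs).2]
  refine ⟨s, hs, hsz, b, ?_, fun σ hσ => ?_,
    exists_off_ne_zero _ habs b (by decide), exists_off_ne_zero _ habs b (by decide)⟩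
  · ext i j
    rw [LinearMap.toMatrix_apply]
    fin_cases i <;> fin_cases j <;> simp [hs0, hs1]
  · have hcoord : ∀ v, b.repr v 1 = b'.repr v 1 := fun v => by
      have hv := congrArg (fun u => b'.repr u 1) (b.sum_repr v)
      simp [hb, hw, Fin.sum_univ_two] at hv
      exact hv
    rw [LinearMap.toMatrix_apply, LinearMap.toMatrix_apply, hcoord, hcoord, hb]
    refine ⟨(hrow σ hσ).1, ?_⟩
    show b'.repr (ρ.residual.ρ σ (b' 1 + (β / 2) • b' 0)) 1 = 1
    rw [map_add, map_smul, map_add, map_smul, Finsupp.add_apply, Finsupp.smul_apply,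
      (hrow σ hσ).1, (hrow σ hσ).2]
    simp

end Fermat.Agent.TwoComponent.Ordinary
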