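import Mathlib.LinearAlgebra.Dimension.OrzechProperty
import Mathlib.RingTheory.LocalRing.Module
import Fermat.Agent.TwoComponent.NewPart.PairSpan
import Fermat.Agent.TwoComponent.Ordinary.Idem
import Fermat.Agent.TwoComponent.Ordinary.Residual

/-!
# The split data of an adic representation of rank two

Split data for `ρ` at an element with two distinct residual eigenvalues.
-/

noncomputable section

open scoped TensorProduct

namespace Fermat.Agent.TwoComponent.Ordinary

open Fermat.Agent.Attach IsLocalRing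

local notation "Qbar" => AlgebraicClosure ℚ
local notation "GQ" => (AlgebraicClosure ℚ ≃ₐ[ℚ] AlgebraicClosure ℚ)

variable {T : Type} [CommRing T] [IsLocalRing T] [IsAdicComplete (IsLocalRing.maximalIdeal T) T]
  (ρ : GaloisRepAdic T)

omit [IsAdicComplete (maximalIdeal T) T] in
theorem det_repMat (g : GQ) : (repMat ρ g).det = LinearMap.det (ρ.ρ g) :=
  LinearMap.det_toMatrix _ _

omit [IsAdicComplete (maximalIdeal T) T] in
theorem add_det_smul_inv (g : GQ) :
    ρ.ρ g + LinearMap.det (ρ.ρ g) • ρ.ρ g⁻¹ = ρ.trace g • (1 : Module.End T ρ.V) := by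
  let e := LinearMap.toMatrixAlgEquiv (Module.finBasisOfFinrankEq T ρ.V ρ.finrank_eq)
  refine e.injective ?_
  rw [map_add, map_smul, map_smul, map_one, ← det_repMat, ← trace_repMat]
  show repMat ρ g + (repMat ρ g).det • repMat ρ g⁻¹ = (repMat ρ g).trace • 1
  set X := repMat ρ g
  have hXY : X * repMat ρ g⁻¹ = 1 := by rw [← map_mul, mul_inv_cancel, map_one]
  have hadj : X.det • repMat ρ g⁻¹ = X.adjugate := by
    rw [← Matrix.one_mul (repMat ρ g⁻¹), ← Matrix.smul_mul, ← Matrix.adjugate_mul, Matrix.mul_assoc,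
      hXY, Matrix.mul_one]
  rw [hadj, Matrix.adjugate_fin_two]
  ext i j
  fin_cases i <;> fin_cases j <;> simp [Matrix.trace_fin_two, add_comm]

/-- The split data of `ρ` at `s` with chosen roots. -/
def splitOfRep (s : GQ) (a d : T) (hsum : a + d = ρ.trace s)
    (hprod : a * d = LinearMap.det (ρ.ρ s)) (hu : IsUnit (a - d)) : SplitData T ρ.V GQ where
  rho := ρ.ρ
  tr := ρ.trace
  chi := LinearMap.det.comp ρ.ρ
  rel := add_det_smul_inv ρ
  s := s
  rootA := a
  rootD := d
  sum_eq := hsum
  prod_eq := hprod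
  unit_sub := hu

omit [IsAdicComplete (maximalIdeal T) T] in
theorem residue_trace (g : GQ) {ι : Type} [Fintype ι] [DecidableEq ι]
    (b : Module.Basis ι (ResidueField T) ρ.residual.V) :
    residue T (ρ.trace g) = (LinearMap.toMatrix b b (ρ.residual.ρ g)).trace := by
  rw [← LinearMap.trace_eq_matrix_trace]
  exact (LinearMap.trace_baseChange _ (ResidueField T)).symm

omit [IsAdicComplete (maximalIdeal T) T] in
/-- The two projections lift a residual eigenbasis to a basis of `ρ`. -/
theorem ordinary_basis (P : SplitData T ρ.V GQ) (hP : P.rho = ρ.ρ)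
    (b : Module.Basis (Fin 2) (ResidueField T) ρ.residual.V)
    (hb0 : ρ.residual.ρ P.s (b 0) = -b 0) (hb1 : ρ.residual.ρ P.s (b 1) = b 1)
    (ha : residue T P.rootA = -1) (hd : residue T P.rootD = 1) :
    ∃ B : Module.Basis (Fin 2) T ρ.V, P.projA (B 0) = B 0 ∧ P.projD (B 1) = B 1 := by
  have hlift : ∀ x : ρ.residual.V, ∃ v : ρ.V, (1 : ResidueField T) ⊗ₜ[T] v = x :=
    TensorProduct.mk_surjective T ρ.V (ResidueField T) Ideal.Quotient.mk_surjective
  have hA : ∀ v : ρ.V, (1 : ResidueField T) ⊗ₜ[T] P.projA v = residue T P.inv •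
      ((1 : ResidueField T) ⊗ₜ[T] ρ.ρ P.s v - (1 : ResidueField T) ⊗ₜ[T] v) := fun v => by
    simp only [SplitData.projA, hP, LinearMap.smul_apply, LinearMap.sub_apply,
      Module.End.one_apply]
    rw [TensorProduct.tmul_smul, TensorProduct.tmul_sub, TensorProduct.tmul_smul,
      ← algebraMap_smul (ResidueField T) P.rootD, ← algebraMap_smul (ResidueField T) P.inv,
      ResidueField.algebraMap_eq, hd, one_smul]
  have hinv : residue T P.inv * (-1 - 1) = 1 := by
    have h := congrArg (residue T) P.inv_mul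
    rwa [map_mul, map_sub, ha, hd, map_one] at h
  obtain ⟨u, hu⟩ := hlift (b 0)
  obtain ⟨v, hv⟩ := hlift (b 1)
  set f : Fin 2 → ρ.V := ![P.projA u, P.projD v] with hf
  have hfb : ∀ i, (1 : ResidueField T) ⊗ₜ[T] f i = b i := by
    intro i
    fin_cases i
    · show (1 : ResidueField T) ⊗ₜ[T] P.projA u = b 0
      have hsu : (1 : ResidueField T) ⊗ₜ[T] ρ.ρ P.s u = -((1 : ResidueField T) ⊗ₜ[T] u) :=
        ((congrArg (ρ.residual.ρ P.s) hu).trans hb0).trans (congrArg Neg.neg hu.symm)
      rw [hA, hsu, show -((1 : ResidueField T) ⊗ₜ[T] u) - (1 : ResidueField T) ⊗ₜ[T] u =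
        (-1 - 1 : ResidueField T) • ((1 : ResidueField T) ⊗ₜ[T] u) from
        (((sub_smul (-1 : ResidueField T) 1 ((1 : ResidueField T) ⊗ₜ[T] u)).trans
          (congrArg₂ (· - ·) (neg_one_smul _ _) (one_smul _ _))).symm), smul_smul, hinv, one_smul]
      exact hu
    · show (1 : ResidueField T) ⊗ₜ[T] P.projD v = b 1
      have hsv : (1 : ResidueField T) ⊗ₜ[T] ρ.ρ P.s v = (1 : ResidueField T) ⊗ₜ[T] v :=
        ((congrArg (ρ.residual.ρ P.s) hv).trans hb1).trans hv.symm
      rw [SplitData.projD, LinearMap.sub_apply, Module.End.one_apply, TensorProduct.tmul_sub, hA,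
        hsv, sub_self, smul_zero, sub_zero]
      exact hv
  have hspan := IsLocalRing.span_eq_top_of_tmul_eq_basis f b hfb
  refine ⟨basisOfTopLeSpanOfCardEqFinrank f hspan.ge (by rw [ρ.finrank_eq]; rfl), ?_, ?_⟩ <;>
    rw [coe_basisOfTopLeSpanOfCardEqFinrank, hf]
  · exact LinearMap.congr_fun P.projA_sq u
  · exact LinearMap.congr_fun P.projD_sq v

end Fermat.Agent.TwoComponent.Ordinary
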