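import Fermat.Prelude.Def_CuspForm_HeckeGaloisRepDatum
import Fermat.Agent.TwoComponent.NewPart.PairSpan
import Fermat.Agent.TwoComponent.Ordinary.HeckeExt

/-!
# The Hecke elements giving the traces of a Hecke–Galois datum

The Hecke algebra with coefficients contains the elements mapping to the traces of a Galois
representation attached to a Hecke character.
-/

noncomputable section

open Polynomial
open scoped TensorProduct

namespace Fermat.Agent.TwoComponent.Ordinary

open Fermat.Agent.Attach

local notation "Qbar" => AlgebraicClosure ℚ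
local notation "GQ" => (AlgebraicClosure ℚ ≃ₐ[ℚ] AlgebraicClosure ℚ)

variable {N : ℕ} [NeZero N] {p : ℕ} [Fact p.Prime] (M : TorsionModel N p)
  {O T : Type} [CommRing O] [IsDomain O] [CharZero O] [IsLocalRing O] [IsNoetherianRing O]
  [IsAdicComplete (IsLocalRing.maximalIdeal O) O]
  [CommRing T] [IsLocalRing T] [IsNoetherianRing T]
  [IsAdicComplete (IsLocalRing.maximalIdeal T) T] [Algebra O T] [IsLocalHom (algebraMap O T)]
  [Module.Free O T] [Module.Finite O T]
  (hp : (p : O) ∈ IsLocalRing.maximalIdeal O)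

include hp in
omit [Fact (Nat.Prime p)] [IsDomain O] [CharZero O] [IsNoetherianRing O]
  [IsAdicComplete (IsLocalRing.maximalIdeal O) O] [IsNoetherianRing T]
  [IsAdicComplete (IsLocalRing.maximalIdeal T) T] [Module.Free O T] [Module.Finite O T] in
theorem natCast_mem_maximalIdeal : (p : T) ∈ IsLocalRing.maximalIdeal T := by
  rw [← map_natCast (algebraMap O T)]
  exact map_nonunit (algebraMap O T) _ hp

omit [IsDomain O] [CharZero O] [IsNoetherianRing O] [IsNoetherianRing T] [Module.Free O T]
  [Module.Finite O T] in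
theorem algebraMap_padicMap (x : ℤ_[p]) :
    algebraMap O T (padicMap p (IsLocalRing.maximalIdeal O) hp x) =
      padicMap p (IsLocalRing.maximalIdeal T) (natCast_mem_maximalIdeal hp) x := by
  rw [← sub_eq_zero]
  refine IsHausdorff.haus (IsAdicComplete.toIsHausdorff
    (I := IsLocalRing.maximalIdeal T) (M := T)) _ fun n => ?_
  rw [SModEq.zero, smul_eq_mul, Ideal.mul_top]
  have : NeZero (p ^ n) := ⟨pow_ne_zero _ (Fact.out : p.Prime).ne_zero⟩
  have hx : PadicInt.toZModPow n x = PadicInt.toZModPow n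
      ((PadicInt.toZModPow n x).val : ℤ_[p]) := by
    rw [map_natCast, ZMod.natCast_zmod_val]
  have h1 := padicMap_sub_mem p (IsLocalRing.maximalIdeal O) hp n _ _ hx
  have h2 := padicMap_sub_mem p (IsLocalRing.maximalIdeal T) (natCast_mem_maximalIdeal hp) n _ _ hx
  rw [map_natCast] at h1 h2
  have h3 : algebraMap O T (padicMap p (IsLocalRing.maximalIdeal O) hp x) -
      ((PadicInt.toZModPow n x).val : T) ∈ IsLocalRing.maximalIdeal T ^ n := by
    rw [← map_natCast (algebraMap O T), ← map_sub]
    have h4 : (IsLocalRing.maximalIdeal O).map (algebraMap O T) ≤ IsLocalRing.maximalIdeal T :=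
      Ideal.map_le_iff_le_comap.mpr fun a ha => map_nonunit (algebraMap O T) a ha
    have h5 := Ideal.mem_map_of_mem (algebraMap O T) h1
    rw [Ideal.map_pow] at h5
    exact Ideal.pow_right_mono h4 n h5
  have h6 := sub_mem h3 h2
  rwa [sub_sub_sub_cancel_right] at h6

omit [IsDomain O] [CharZero O] [IsNoetherianRing O] [IsNoetherianRing T] [Module.Free O T]
  [Module.Finite O T] in
theorem map_repO (g : GQ) :
    (M.repO hp g).map (algebraMap O T) = M.repO (natCast_mem_maximalIdeal (T := T) hp) g :=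
  Matrix.ext fun i j => algebraMap_padicMap hp (M.repPadic g i j)

omit [IsDomain O] [CharZero O] [IsNoetherianRing O] [IsNoetherianRing T] [Module.Free O T]
  [Module.Finite O T] in
theorem map_cycO (g : GQ) :
    algebraMap O T (TorsionModel.cycO hp g) =
      TorsionModel.cycO (natCast_mem_maximalIdeal (T := T) hp) g :=
  algebraMap_padicMap hp _

variable {S : Set ℕ} (hS : ∀ q, q.Prime → q ∣ N → q ∈ S)

/-- Extension of coefficients of the Hecke algebra from `O` to `T`. -/
def extCoeff (O T : Type) [CommRing O] [CommRing T] [Algebra O T] :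
    HeckeO N S O →ₐ[O] HeckeO N S T :=
  Algebra.TensorProduct.map (Algebra.ofId O T) (AlgHom.id ℤ _)

omit [Fact (Nat.Prime p)] [IsDomain O] [CharZero O] [IsLocalRing O] [IsNoetherianRing O]
  [IsAdicComplete (IsLocalRing.maximalIdeal O) O] [IsLocalRing T] [IsNoetherianRing T]
  [IsAdicComplete (IsLocalRing.maximalIdeal T) T] [IsLocalHom (algebraMap O T)] [Module.Free O T]
  [Module.Finite O T] in
theorem actO_extCoeff (z : HeckeO N S O) :
    actO M hS T (extCoeff (N := N) (S := S) O T z) = (actO M hS O z).map (algebraMap O T) := by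
  induction z using TensorProduct.induction_on with
  | zero => simp
  | tmul a t =>
    rw [extCoeff, Algebra.TensorProduct.map_tmul, actO_tmul, actO_tmul]
    refine Matrix.ext fun i j => ?_
    rw [Matrix.smul_apply, Matrix.map_apply, Matrix.smul_apply, smul_eq_mul, smul_eq_mul, map_mul]
    exact congrArg (_ * ·) (map_intCast (algebraMap O T) _).symm
  | add x y hx hy => rw [map_add, map_add, hx, hy, map_add, Matrix.map_add _ (map_add _)]

/-- The map to a coefficient ring through a character. -/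
def piExt (O : Type) {T : Type} [CommRing O] [CommRing T] [Algebra O T]
    (π : CuspForm.heckeAlgebra N 2 S →+* T) : HeckeO N S O →ₐ[O] T :=
  Algebra.TensorProduct.lift (Algebra.ofId O T) π.toIntAlgHom fun a _ => Algebra.commutes a _

theorem piExt_tmul {O T : Type} [CommRing O] [CommRing T] [Algebra O T]
    (π : CuspForm.heckeAlgebra N 2 S →+* T) (a : O) (t : CuspForm.heckeAlgebra N 2 S) :
    piExt O π (a ⊗ₜ t) = algebraMap O T a * π t :=
  Algebra.TensorProduct.lift_tmul _ _ _ a t

omit [Fact (Nat.Prime p)] in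
theorem matO_apply (R : Type) [CommRing R] (t : CuspForm.heckeAlgebra N 2 S) (r c : Fin M.rk) :
    M.matO R hS t r c = ((M.mat (toAnemic hS t) r c : ℤ) : R) := rfl

variable (O) in
include O in
omit [IsLocalRing O] [IsNoetherianRing O] [IsAdicComplete (IsLocalRing.maximalIdeal O) O]
    [IsLocalRing T] [IsNoetherianRing T] [IsAdicComplete (IsLocalRing.maximalIdeal T) T]
    [IsLocalHom (algebraMap O T)] [Module.Finite O T] [Fact (Nat.Prime p)] in
theorem actO_injective_ext : Function.Injective (actO M hS T) := by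
  classical
  have := module_finite_hecke M hS
  have := module_free_hecke M hS
  let b := Module.finBasis ℤ (CuspForm.heckeAlgebra N 2 S)
  let B := Algebra.TensorProduct.basis T b
  let β := Module.Free.chooseBasis O T
  refine (injective_iff_map_eq_zero _).mpr fun z hz => B.ext_elem fun i => ?_
  rw [map_zero, Finsupp.zero_apply]
  refine β.ext_elem fun k => ?_
  rw [map_zero, Finsupp.zero_apply]
  let w : HeckeO N S O := ∑ j, β.repr (B.repr z j) k ⊗ₜ[ℤ] b j
  have hw : actO M hS O w = 0 := by
    refine Matrix.ext fun r c => ?_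
    have h := congrArg (fun X : Matrix (Fin M.rk) (Fin M.rk) T => β.repr (X r c) k) hz
    conv at h => lhs; rw [← B.sum_repr z]
    simp only [map_sum, map_smul, B, Algebra.TensorProduct.basis_apply, actO_tmul, one_smul,
      Matrix.sum_apply, Matrix.smul_apply, Matrix.zero_apply, map_zero, Finsupp.zero_apply,
      smul_eq_mul, Finsupp.finsetSum_apply] at h
    simp only [w, map_sum, actO_tmul, Matrix.sum_apply, Matrix.smul_apply, Matrix.zero_apply,
      smul_eq_mul]
    refine Eq.trans (Finset.sum_congr rfl fun j _ => ?_) h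
    rw [matO_apply, matO_apply]
    set m : ℤ := M.mat (toAnemic hS (b j)) r c
    rw [mul_comm _ (m : T), ← zsmul_eq_mul, map_zsmul, Finsupp.smul_apply, zsmul_eq_mul, mul_comm]
  have hw0 : w = 0 := actO_injective M hS O (hw.trans (map_zero _).symm)
  have h2 := congrArg (fun x => (Algebra.TensorProduct.basis O b).repr x i) hw0
  simpa [w, Algebra.TensorProduct.basis_repr_tmul, Finsupp.single_apply] using h2

variable {S₀ : Finset ℕ}

omit [Module.Finite O T] in
/-- Elements of the Hecke algebra with coefficients giving `g + χ(g) g⁻¹` and mapping to the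
trace of `ρ(g)`. -/
theorem exists_trace (hG : TorsionGalois N p) (hpS : p ∈ S₀)
    (hS₀ : ∀ q, q.Prime → q ∣ N → q ∈ (↑S₀ : Set ℕ))
    (π : CuspForm.heckeAlgebra N 2 (↑S₀ : Set ℕ) →+* T) (ρ : GaloisRepAdic T)
    (hρ : ∀ (ℓ : ℕ) (hℓ : ℓ.Prime) (hℓN : ¬ ℓ ∣ N) (hℓS : ℓ ∉ (↑S₀ : Set ℕ)),
      ∀ A : ValuationSubring Qbar, A.LiesOverPrime ℓ → ∀ σ : GQ, A.IsFrobeniusAt σ ℓ →
        LinearMap.charpoly (ρ.ρ σ) =
          X ^ 2 - C (π (CuspForm.heckeAlgebra.T hℓ hℓN hℓS)) * X + C ((ℓ : T)))
    (g : GQ) :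
    ∃ z : HeckeO N (↑S₀ : Set ℕ) O,
      actO M hS₀ O z = M.repO hp g + TorsionModel.cycO hp g • M.repO hp g⁻¹ ∧
      piExt O π z = ρ.trace g ∧
      (repMat ρ g).det = algebraMap O T (TorsionModel.cycO hp g) := by
  set hpT := natCast_mem_maximalIdeal (T := T) hp
  obtain ⟨z, hz⟩ : ∃ z : HeckeO N (↑S₀ : Set ℕ) O,
      actO M hS₀ O z = M.repO hp g + TorsionModel.cycO hp g • M.repO hp g⁻¹ := by
    have h : Submodule.span O (Set.range (M.matO O hS₀)) ≤
        Subalgebra.toSubmodule (actO M hS₀ O).range := by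
      refine Submodule.span_le.mpr ?_
      rintro _ ⟨t, rfl⟩
      exact ⟨1 ⊗ₜ t, by show actO M hS₀ O _ = _; rw [actO_tmul, one_smul]⟩
    exact h (M.good_mem_span hp hG hpS hS₀ g)
  obtain ⟨hmem, hdet⟩ := joint_trace_mem hpT M M hG hG (dvd_refl N) hpS hS₀ π ρ hρ g
  let πT : HeckeO N (↑S₀ : Set ℕ) T →ₐ[T] T := piExt T π
  let Ψ : HeckeO N (↑S₀ : Set ℕ) T →ₐ[T] Triple M M T :=
    (actO M hS₀ T).prod ((actO M hS₀ T).prod πT)
  have hle : jointHecke M M hS₀ (dvd_refl N) π ≤ Ψ.range := by
    refine Algebra.adjoin_le ?_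
    rintro _ ⟨ℓ, hℓ, hℓN, hℓS, rfl⟩
    refine ⟨1 ⊗ₜ CuspForm.heckeAlgebra.T hℓ hℓN hℓS, ?_⟩
    show Ψ _ = _
    simp [Ψ, πT, piExt_tmul]
  obtain ⟨z', hz'⟩ := hle hmem
  have h1 : actO M hS₀ T z' = (M.repO hp g + TorsionModel.cycO hp g • M.repO hp g⁻¹).map
      (algebraMap O T) := by
    refine (congrArg Prod.fst hz').trans ?_
    rw [Matrix.map_add _ (map_add _), ← map_repO (T := T) M hp, ← map_repO (T := T) M hp,
      ← map_cycO (T := T) hp]
    show _ + _ = _ + _
    congr 1
    exact Matrix.ext fun i j => (map_mul (algebraMap O T) _ _).symm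
  have heq : z' = extCoeff (N := N) (S := ↑S₀) O T z := actO_injective_ext M O hS₀ (T := T)
    (by rw [h1, actO_extCoeff, hz])
  refine ⟨z, hz, ?_, hdet.trans (map_cycO hp g).symm⟩
  have h2 : πT z' = ρ.trace g := congrArg (fun x : Triple M M T => x.2.2) hz'
  rw [← h2, heq]
  clear hz heq hz' h1 h2
  induction z using TensorProduct.induction_on with
  | zero => simp
  | tmul a t =>
    simp [πT, extCoeff, piExt_tmul]
  | add x y hx hy => simp only [map_add, hx, hy]

end Fermat.Agent.TwoComponent.Ordinary
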