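import Fermat.Agent.TwoComponent.Ordinary.Core
import Fermat.Agent.TwoComponent.Ordinary.Lattice
import Fermat.Agent.TwoComponent.Ordinary.Product
import Fermat.Agent.TwoComponent.Ordinary.TSide
import Fermat.Agent.TwoComponent.Ordinary.Trace

/-!
# The ordinary line of a residually ordinary representation in the torsion of a Jacobian

For a representation over a point of a Hecke algebra, the factor of the algebra at the point acts on
a lattice of the torsion model with split data at an inverting element of inertia.  Level maps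
put the lattice into the torsion of a Jacobian with connected and toric parts, so the lower entries
vanish on the decomposition group and the representation has an ordinary line, on whose quotient
the decomposition group acts by the lower diagonal entry (`exists_ordinaryFrame`).
-/

noncomputable section

open ModularCurve IsLocalRing
open scoped TensorProduct

namespace Fermat.Agent.TwoComponent.Ordinary

open Fermat.Agent.Attach

local notation "Qbar" => AlgebraicClosure ℚ
local notation "GQ" => (AlgebraicClosure ℚ ≃ₐ[ℚ] AlgebraicClosure ℚ)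

variable {N : ℕ} [NeZero N] {p : ℕ} [Fact p.Prime] {S : Set ℕ}

theorem repO_commute_actO (M : TorsionModel N p) (hG : TorsionGalois N p)
    (hS : ∀ q, q.Prime → q ∣ N → q ∈ S) {O : Type} [CommRing O] [IsLocalRing O]
    [IsAdicComplete (maximalIdeal O) O] (hp : (p : O) ∈ maximalIdeal O) (g : GQ)
    (z : HeckeO N S O) : Commute (M.repO hp g) (actO M hS O z) := by
  induction z using TensorProduct.induction_on with
  | zero => rw [map_zero]; exact Commute.zero_right _
  | tmul a t => rw [actO_tmul]; exact (M.repO_commute hp hG hS g t).smul_right a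
  | add x y hx hy => rw [map_add]; exact hx.add_right hy

section

variable (M : TorsionModel N p) (hS : ∀ q, q.Prime → q ∣ N → q ∈ S)
  {O T L : Type} [CommRing O] [CommRing T] [IsLocalRing T] [Algebra O T] [CommRing L] [Algebra O L]
  {q : HeckeO N S O →ₐ[O] T} (F : Factor q L)

/-- The module over the factor. -/
instance : Module L (facLattice M hS F) :=
  Module.compHom (facLattice M hS F) (actFac M hS F)

omit [Fact (Nat.Prime p)] in
theorem fac_smul_def (l : L) (x : facLattice M hS F) : l • x = actFac M hS F l x := rfl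

/-- The Galois action on the lattice, linear over the factor. -/
def facRho (R : GQ →* Matrix (Fin M.rk) (Fin M.rk) O)
    (hR : ∀ g z, Commute (R g) (actO M hS O z)) :
    GQ →* Module.End L (facLattice M hS F) where
  toFun g :=
    { toFun := resEnd M hS F (R g) (hR g)
      map_add' := map_add _
      map_smul' := fun l x =>
        LinearMap.congr_fun (resEnd_comm_actFac M hS F (R g) (hR g) l).eq x }
  map_one' := LinearMap.ext fun x => Subtype.ext (by
    show (R 1).mulVec (x : Fin M.rk → O) = (x : Fin M.rk → O)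
    rw [map_one, Matrix.one_mulVec])
  map_mul' g h := LinearMap.ext fun x => Subtype.ext (by
    show (R (g * h)).mulVec (x : Fin M.rk → O) = (R g).mulVec ((R h).mulVec (x : Fin M.rk → O))
    rw [map_mul, Matrix.mulVec_mulVec])

omit [Fact (Nat.Prime p)] in
theorem facRho_rel (R : GQ →* Matrix (Fin M.rk) (Fin M.rk) O)
    (hR : ∀ g z, Commute (R g) (actO M hS O z)) (c : GQ →* O) (z : GQ → HeckeO N S O)
    (hz : ∀ g, actO M hS O (z g) = R g + c g • R g⁻¹) (g : GQ) :
    facRho M hS F R hR g + algebraMap O L (c g) • facRho M hS F R hR g⁻¹ =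
      F.proj (z g) • (1 : Module.End L (facLattice M hS F)) := by
  refine LinearMap.ext fun x => ?_
  rw [LinearMap.add_apply, LinearMap.smul_apply, LinearMap.smul_apply, Module.End.one_apply,
    fac_smul_def, fac_smul_def, actFac_algebraMap, actFac_proj]
  refine Subtype.ext ?_
  show (R g).mulVec (x : Fin M.rk → O) + c g • (R g⁻¹).mulVec (x : Fin M.rk → O) =
    (actO M hS O (z g)).mulVec (x : Fin M.rk → O)
  rw [hz, Matrix.add_mulVec, Matrix.smul_mulVec]

end

variable {W : Type*} [AddCommGroup W] {L : Type} [CommRing L] [Module L W]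
  {T : Type} [CommRing T] {V' : Type*} [AddCommGroup V'] [Module T V']

theorem map_entA {P : SplitData L W GQ} {P' : SplitData T V' GQ} (φ : L →+* T)
    (hs : P'.s = P.s) (ha : P'.rootA = φ P.rootA) (hd : P'.rootD = φ P.rootD)
    (htr : ∀ g, P'.tr g = φ (P.tr g)) (g : GQ) : φ (P.entA g) = P'.entA g := by
  have hinv : φ P.inv = P'.inv := by
    refine left_inv_eq_right_inv (a := P'.rootA - P'.rootD) ?_ ?_
    · rw [ha, hd, ← map_sub, ← map_mul, P.inv_mul, map_one]
    · rw [mul_comm]; exact P'.inv_mul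
  rw [SplitData.entA, SplitData.entA, map_mul, map_sub, map_mul, hinv, hs, hd, htr, htr]

theorem map_entD {P : SplitData L W GQ} {P' : SplitData T V' GQ} (φ : L →+* T)
    (hs : P'.s = P.s) (ha : P'.rootA = φ P.rootA) (hd : P'.rootD = φ P.rootD)
    (htr : ∀ g, P'.tr g = φ (P.tr g)) (g : GQ) : φ (P.entD g) = P'.entD g := by
  rw [SplitData.entD, SplitData.entD, map_sub, map_entA φ hs ha hd htr, htr]

/-- In a matrix representation with the same traces and `s = diag(-1, 1)`, the diagonal entries of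
the split data are those of the matrices. -/
theorem map_entA_frame {k : Type} [Field k] (P : SplitData L W GQ) (ψ : L →+* k)
    (Mb : GQ → Matrix (Fin 2) (Fin 2) k) (hmul : ∀ g h, Mb (g * h) = Mb g * Mb h)
    (hs : Mb P.s = !![-1, 0; 0, 1]) (ha : ψ P.rootA = -1) (hd : ψ P.rootD = 1)
    (htr : ∀ g, ψ (P.tr g) = (Mb g).trace) (g : GQ) :
    ψ (P.entA g) = Mb g 0 0 ∧ ψ (P.entD g) = Mb g 1 1 := by
  have hinv : ψ P.inv * (-1 - 1) = 1 := by
    have h := congrArg ψ P.inv_mul
    rwa [map_mul, map_sub, ha, hd, map_one] at h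
  have hA : ψ (P.entA g) = Mb g 0 0 := by
    rw [SplitData.entA, map_mul, map_sub, map_mul, hd, htr, htr, hmul, hs]
    simp [Matrix.trace_fin_two, Matrix.vecMul, dotProduct, Fin.sum_univ_two]
    linear_combination (Mb g 0 0) * hinv
  refine ⟨hA, ?_⟩
  rw [SplitData.entD, map_sub, hA, htr, Matrix.trace_fin_two, add_sub_cancel_left]

theorem map_off_frame {k : Type} [Field k] (P : SplitData L W GQ) (ψ : L →+* k)
    (Mb : GQ → Matrix (Fin 2) (Fin 2) k) (hmul : ∀ g h, Mb (g * h) = Mb g * Mb h)
    (hs : Mb P.s = !![-1, 0; 0, 1]) (ha : ψ P.rootA = -1) (hd : ψ P.rootD = 1)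
    (htr : ∀ g, ψ (P.tr g) = (Mb g).trace) (g h : GQ) :
    ψ (P.offA g h) = Mb g 0 1 * Mb h 1 0 ∧ ψ (P.offD g h) = Mb g 1 0 * Mb h 0 1 := by
  have e := map_entA_frame P ψ Mb hmul hs ha hd htr
  refine ⟨?_, ?_⟩
  · rw [SplitData.offA, map_sub, map_mul, (e _).1, (e _).1, (e _).1, hmul, Matrix.mul_apply,
      Fin.sum_univ_two]
    ring
  · rw [SplitData.offD, map_sub, map_mul, (e _).2, (e _).2, (e _).2, hmul, Matrix.mul_apply,
      Fin.sum_univ_two]
    ring

/-- The action on a basis in which an endomorphism is `diag(-1, 1)`. -/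
theorem apply_basis_of_toMatrix {k V : Type*} [Field k] [AddCommGroup V] [Module k V]
    (b : Module.Basis (Fin 2) k V) (φ : Module.End k V)
    (h : LinearMap.toMatrix b b φ = !![-1, 0; 0, 1]) : φ (b 0) = -b 0 ∧ φ (b 1) = b 1 := by
  refine ⟨b.ext_elem fun l => ?_, b.ext_elem fun l => ?_⟩
  · have h' := congrFun (congrFun h l) 0
    rw [LinearMap.toMatrix_apply] at h'
    rw [map_neg, Finsupp.neg_apply, b.repr_self]
    refine h'.trans ?_
    fin_cases l <;> simp
  · have h' := congrFun (congrFun h l) 1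
    rw [LinearMap.toMatrix_apply] at h'
    rw [b.repr_self]
    refine h'.trans ?_
    fin_cases l <;> simp

section Frame

variable {N p : ℕ} [NeZero N] [Fact p.Prime] {M : TorsionModel N p} {S : Set ℕ}
  {hS : ∀ r, r.Prime → r ∣ N → r ∈ S}
  {O T L : Type} [CommRing O] [IsDomain O] [IsDiscreteValuationRing O]
  [IsAdicComplete (maximalIdeal O) O]
  [CommRing T] [IsLocalRing T] [Algebra O T] [CommRing L] [Algebra O L]
  {q : HeckeO N S O →ₐ[O] T}

/-- Split data on the lattice of a factor and an ordinary line of the representation, on whose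
quotient the decomposition group acts by the lower diagonal entry of the data. -/
structure OrdinaryFrame [IsLocalRing L] (F : Factor q L) (hp : (p : O) ∈ maximalIdeal O)
    (A : ValuationSubring Qbar) (ρ : GaloisRepAdic T) where
  /-- the split data -/
  P : SplitData L (facLattice M hS F) GQ
  rho_eq : ∀ (σ : GQ) (x : facLattice M hS F),
    ((P.rho σ x : facLattice M hS F) : Fin M.rk → O) = (M.repO hp σ).mulVec (x : Fin M.rk → O)
  s_mem : P.s ∈ A.inertiaSubgroupIn ℚ
  s_inv : ∀ z : Qbar, z ^ p = 1 → P.s z = z⁻¹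
  rootA_mem : P.rootA + 1 ∈ maximalIdeal L
  rootD_mem : P.rootD - 1 ∈ maximalIdeal L
  /-- two elements with invertible off-diagonal products -/
  g₀ : GQ
  /-- the second of the two elements -/
  h₀ : GQ
  offA_unit : IsUnit (P.offA g₀ h₀)
  offD_unit : IsUnit (P.offD h₀ g₀)
  lower : ∀ σ ∈ A.decompositionSubgroup ℚ, P.offD σ g₀ = 0
  entD_inertia : ∀ σ ∈ A.inertiaSubgroupIn ℚ, P.entD σ = 1
  /-- a basis whose first vector spans the ordinary line -/
  B : Module.Basis (Fin 2) T ρ.V
  stable : ∀ σ ∈ A.decompositionSubgroup ℚ, ∀ v ∈ T ∙ B 0, ρ.ρ σ v ∈ T ∙ B 0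
  unramified : ∀ σ ∈ A.inertiaSubgroupIn ℚ, ∀ v, ρ.ρ σ v - v ∈ T ∙ B 0
  quotient : ∀ σ ∈ A.decompositionSubgroup ℚ, ∀ v, ρ.ρ σ v - F.toT (P.entD σ) • v ∈ T ∙ B 0
  entD_mul : ∀ σ ∈ A.decompositionSubgroup ℚ, ∀ τ ∈ A.decompositionSubgroup ℚ,
    F.toT (P.entD (σ * τ)) = F.toT (P.entD σ) * F.toT (P.entD τ)

variable {dd : ℕ} (F : Factor q L) (Φ : ℕ → (Fin M.rk → O) →+ (Fin dd → JZero N))

/-- The level maps on the lattice of a factor. -/
def levelMap (n : ℕ) : facLattice M hS F →+ (Fin dd → JZero N) :=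
  (Φ n).comp (facLattice M hS F).subtype.toAddMonoidHom

omit [IsAdicComplete (maximalIdeal O) O] in
/-- A power of the maximal ideal of the factor is killed at each level. -/
theorem exists_pow_kill [CharZero O] [IsLocalRing L]
    [Module.Finite O L] (hkill : ∀ n x, p ^ n • Φ n x = 0) (n : ℕ) :
    ∃ k, ∀ r ∈ maximalIdeal L ^ k, ∀ v, levelMap (M := M) (hS := hS) F Φ n (r • v) = 0 := by
  obtain ⟨k, hk⟩ := exists_pow_le_span (L := L) (x := ((p ^ n : ℕ) : O))
    (Nat.cast_ne_zero.mpr (pow_ne_zero n (Fact.out : p.Prime).ne_zero))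
  refine ⟨k, fun r hr v => ?_⟩
  obtain ⟨l, rfl⟩ := Ideal.mem_span_singleton'.mp (hk hr)
  rw [map_natCast, mul_comm, ← smul_smul, Nat.cast_smul_eq_nsmul, map_nsmul]
  exact hkill n _

omit [Fact p.Prime] in
/-- The level maps separate the lattice. -/
theorem eq_zero_of_levelMap (hker : ∀ n x, Φ n x = 0 → ∀ i, x i ∈ maximalIdeal O ^ n)
    (x : facLattice M hS F) (hx : ∀ n, levelMap F Φ n x = 0) : x = 0 :=
  Subtype.ext (funext fun i => IsHausdorff.haus
    (IsAdicComplete.toIsHausdorff (I := maximalIdeal O) (M := O)) _ fun n => by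
      rw [SModEq.zero, smul_eq_mul, Ideal.mul_top]
      exact hker n _ (hx n) i)

omit [Fact p.Prime] [IsDiscreteValuationRing O] [IsAdicComplete (maximalIdeal O) O] in
/-- The factor acts faithfully on its lattice. -/
theorem eq_zero_of_smul_lattice [CharZero O] (r : L)
    (hr : r • (1 : Module.End L (facLattice M hS F)) = 0) : r = 0 :=
  actFac_injective M hS F (by
    rw [map_zero]
    exact LinearMap.ext fun x => LinearMap.congr_fun hr x)

omit [Fact p.Prime] [IsAdicComplete (maximalIdeal O) O] in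
include F in
/-- `p` lies in the maximal ideal of the factor. -/
theorem natCast_mem_factor [CharZero O] [IsLocalRing L] [IsNoetherianRing T]
    [IsAdicComplete (maximalIdeal T) T] [IsLocalHom (algebraMap O T)] [Module.Free O T]
    [Module.Finite O T]
    (hp : (p : O) ∈ maximalIdeal O) : (p : L) ∈ maximalIdeal L :=
  (mem_maximalIdeal _).mpr fun hu => (mem_maximalIdeal _).mp
    (natCast_mem_maximalIdeal (T := T) hp) (by simpa using hu.map F.toT)

variable [IsNoetherianRing T] [IsAdicComplete (maximalIdeal T) T] [IsLocalHom (algebraMap O T)]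
  [Module.Free O T] [Module.Finite O T]

/-- **The ordinary frame.** -/
theorem exists_ordinaryFrame [CharZero O]
    [IsLocalRing L] [IsAdicComplete (maximalIdeal L) L] [Module.Finite O L] [IsReduced L]
    (hloc : IsLocalHom F.toT) (hG : TorsionGalois N p) (hp2 : p ≠ 2)
    (hp : (p : O) ∈ maximalIdeal O) {A : ValuationSubring Qbar} (hA : A.LiesOverPrime p)
    (ρ : GaloisRepAdic T) (z : GQ → HeckeO N S O)
    (hz : ∀ g, actO M hS O (z g) = M.repO hp g + TorsionModel.cycO hp g • M.repO hp g⁻¹)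
    (htr : ∀ g, q (z g) = ρ.trace g)
    (hdet : ∀ g, LinearMap.det (ρ.ρ g) =
      TorsionModel.cycO (natCast_mem_maximalIdeal (T := T) hp) g)
    (habs : ρ.residual.IsAbsolutelyIrreducible)
    (hres : (GaloisRepAdic.ofResidualGaloisRep ρ.residual).IsOrdinaryAt p)
    {J : Type} [AddCommGroup J] [DistribMulAction GQ J] {f g : (Fin dd → JZero N) →+ J}
    (hf : ∀ (σ : GQ) x, f (σ • x) = σ • f x) (hg : ∀ (σ : GQ) x, g (σ • x) = σ • g x)
    (htor : HasToricPart A p f g) (hcon : HasConnectedPart A p J)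
    (hΦ : ∀ n (σ : GQ) x, σ • Φ n x = Φ n ((M.repO hp σ).mulVec x))
    (hker : ∀ n x, Φ n x = 0 → ∀ i, x i ∈ maximalIdeal O ^ n)
    (hkill : ∀ n x, p ^ n • Φ n x = 0) :
    Nonempty (OrdinaryFrame (M := M) (hS := hS) F hp A ρ) := by
  have hpT : (p : T) ∈ maximalIdeal T := natCast_mem_maximalIdeal hp
  obtain ⟨s, hsI, hsz, b, hMs, hMI, ⟨g₀, hg₀⟩, h₀, hh₀⟩ :=
    exists_residual_frame hpT ρ hp2 hA hdet hres habs
  let Mb : GQ → Matrix (Fin 2) (Fin 2) (ResidueField T) := fun σ =>
    LinearMap.toMatrix b b (ρ.residual.ρ σ)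
  have hMmul : ∀ σ τ, Mb (σ * τ) = Mb σ * Mb τ := fun σ τ => by
    show LinearMap.toMatrix b b _ = _
    rw [map_mul]
    exact LinearMap.toMatrix_mul b _ _
  let ψ : L →+* ResidueField T := (residue T).comp F.toT.toRingHom
  have hψ : ∀ x, x ∈ maximalIdeal L ↔ ψ x = 0 := fun x => by
    show _ ↔ residue T (F.toT x) = 0
    rw [residue_eq_zero_iff, mem_maximalIdeal, mem_maximalIdeal, mem_nonunits_iff, mem_nonunits_iff,
      not_iff_not]
    exact ⟨fun h => h.map F.toT, fun h => hloc.map_nonunit x h⟩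
  have hψu : ∀ x, ψ x ≠ 0 → IsUnit x := fun x h => by
    by_contra hu
    exact h ((hψ x).mp ((mem_maximalIdeal x).mpr hu))
  let chiL : GQ →* L :=
    ((algebraMap O L : O →* L)).comp (TorsionModel.cycO hp)
  let trL : GQ → L := fun σ => F.proj (z σ)
  have htrT : ∀ σ, F.toT (trL σ) = ρ.trace σ := fun σ => (F.toT_proj _).trans (htr σ)
  have hψtr : ∀ σ, ψ (trL σ) = (Mb σ).trace := fun σ => by
    show residue T (F.toT (trL σ)) = _
    rw [htrT]
    exact residue_trace ρ σ b
  have hchiT : ∀ σ, F.toT (chiL σ) = TorsionModel.cycO hpT σ := fun σ =>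
    (F.toT.commutes _).trans (map_cycO hp σ)
  obtain ⟨a, d, hsum, hprod, hu, ha, hd⟩ := exists_roots (L := L)
    (hψu 2 (by rw [map_ofNat]; exact two_ne_zero_residue hpT hp2))
    (t := trL s) (χ := chiL s)
    ((hψ _).mpr (by rw [hψtr]; show Matrix.trace (LinearMap.toMatrix b b _) = 0; rw [hMs]; simp))
    ((hψ _).mpr (by
      rw [map_add, map_one]
      show residue T (F.toT (chiL s)) + 1 = 0
      rw [hchiT, residue_cycO_inverting hpT hsz, neg_add_cancel]))
  let P : SplitData L (facLattice M hS F) GQ :=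
    { rho := facRho M hS F (M.repO hp) (repO_commute_actO M hG hS hp)
      tr := trL
      chi := chiL
      rel := facRho_rel M hS F (M.repO hp) _ (TorsionModel.cycO hp) z hz
      s := s
      rootA := a
      rootD := d
      sum_eq := hsum
      prod_eq := hprod
      unit_sub := hu }
  have hψa : ψ a = -1 := by
    have h := (hψ _).mp ha
    rw [map_add, map_one] at h
    exact eq_neg_of_add_eq_zero_left h
  have hψd : ψ d = 1 := by
    have h := (hψ _).mp hd
    rwa [map_sub, map_one, sub_eq_zero] at h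
  have hfr := map_off_frame P ψ Mb hMmul hMs hψa hψd hψtr
  have hoA : IsUnit (P.offA g₀ h₀) := hψu _ (by rw [(hfr _ _).1]; exact mul_ne_zero hg₀ hh₀)
  have hoD : IsUnit (P.offD h₀ g₀) := hψu _ (by rw [(hfr _ _).2]; exact mul_ne_zero hh₀ hg₀)
  obtain ⟨hC, hI1⟩ := core P (maximalIdeal L) (A := A) (p := p) hp2 (f := f) (g := g)
    hf hg htor hcon (levelMap F Φ) (fun n σ x => hΦ n σ _) (fun n x => hkill n _)
    (exists_pow_kill F Φ hkill) (eq_zero_of_levelMap F Φ hker) (eq_zero_of_smul_lattice F)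
    (natCast_mem_factor F hp) hsI hsz ha hd hoA hoD
    (fun σ hσ => (hψ _).mpr (by
      rw [(hfr _ _).2, show Mb σ 1 0 = 0 from (hMI σ hσ).1, zero_mul]))
    (fun σ hσ => (hψ _).mpr (by
      rw [map_sub, map_one, (map_entA_frame P ψ Mb hMmul hMs hψa hψd hψtr σ).2,
        show Mb σ 1 1 = 1 from (hMI σ hσ).2, sub_self]))
  -- the same data over `T`
  let φ : L →+* T := F.toT.toRingHom
  let PT := splitOfRep ρ s (φ a) (φ d)
    (by rw [← map_add, hsum]; exact htrT s)
    (by rw [← map_mul, hprod]; exact (hchiT s).trans (hdet s).symm)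
    (by rw [← map_sub]; exact hu.map φ)
  have hentA := map_entA (P := P) (P' := PT) φ rfl rfl rfl fun σ => (htrT σ).symm
  have hentD := map_entD (P := P) (P' := PT) φ rfl rfl rfl fun σ => (htrT σ).symm
  have hoffA : ∀ σ τ, φ (P.offA σ τ) = PT.offA σ τ := fun σ τ => by
    rw [SplitData.offA, SplitData.offA, map_sub, map_mul, hentA, hentA, hentA]
  have hoffD : ∀ σ τ, φ (P.offD σ τ) = PT.offD σ τ := fun σ τ => by
    rw [SplitData.offD, SplitData.offD, map_sub, map_mul, hentD, hentD, hentD]
  obtain ⟨B, hB0, hB1⟩ := ordinary_basis ρ PT rfl b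
    (apply_basis_of_toMatrix b _ hMs).1 (apply_basis_of_toMatrix b _ hMs).2
    hψa hψd
  have hlowT : ∀ σ ∈ A.decompositionSubgroup ℚ, ∀ v, PT.projD (ρ.ρ σ (PT.projA v)) = 0 :=
    fun σ hσ v => PT.lower_eq_zero (g₀ := g₀) (h₀ := h₀) (hoffA g₀ h₀ ▸ hoA.map φ)
      (hoffD h₀ g₀ ▸ hoD.map φ) (by rw [← hoffD, hC σ hσ, map_zero]) v
  have hline : ∀ v, PT.projD v = 0 → v ∈ T ∙ B 0 := fun v hv => by
    have e : v = PT.projA v + PT.projD v := (LinearMap.congr_fun PT.projA_add_projD v).symm
    rw [e, hv, add_zero, ← B.sum_repr v, Fin.sum_univ_two, map_add, map_smul, map_smul, hB0,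
      show PT.projA (B 1) = 0 by rw [← hB1]; exact LinearMap.congr_fun PT.projA_projD _,
      smul_zero, add_zero]
    exact Submodule.smul_mem _ _ (Submodule.mem_span_singleton_self _)
  have hB0D : PT.projD (B 0) = 0 := by
    rw [← hB0]
    exact LinearMap.congr_fun PT.projD_projA _
  have hρD : ∀ σ ∈ A.decompositionSubgroup ℚ, ∀ v,
      PT.projD (ρ.ρ σ v) = PT.entD σ • PT.projD v := fun σ hσ v => PT.projD_rho (hlowT σ hσ) v
  refine ⟨{ P := P, rho_eq := fun σ x => rfl, s_mem := hsI, s_inv := hsz, rootA_mem := ha,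
            rootD_mem := hd, g₀ := g₀, h₀ := h₀, offA_unit := hoA, offD_unit := hoD,
            lower := hC, entD_inertia := hI1, B := B,
            stable := fun σ hσ v hv => hline _ ?_, unramified := fun σ hσ v => hline _ ?_,
            quotient := fun σ hσ v => hline _ ?_, entD_mul := fun σ hσ τ hτ => ?_ }⟩
  · obtain ⟨c, rfl⟩ := Submodule.mem_span_singleton.mp hv
    rw [hρD σ hσ, map_smul, hB0D, smul_zero, smul_zero]
  · rw [map_sub, hρD σ (inertia_le_decomposition A hσ), ← hentD, hI1 σ hσ, map_one,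
      one_smul, sub_self]
  · rw [map_sub, map_smul, hρD σ hσ, ← hentD, sub_eq_zero]
    rfl
  · have h1 := hρD (σ * τ) (mul_mem hσ hτ) (B 1)
    rw [map_mul, Module.End.mul_apply, hρD σ hσ, hρD τ hτ, hB1, smul_smul, ← hentD, ← hentD,
      ← hentD] at h1
    have h2 := congrArg (fun x => B.repr x 1) h1
    simpa [φ] using h2.symm

end Frame

end Fermat.Agent.TwoComponent.Ordinary
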