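import Fermat.Agent.Flat.ModularTorsion
import Fermat.Agent.SquareLevel.Interface
import Fermat.Agent.TwoComponent.Ordinary.OfFlat
import Fermat.Agent.TwoComponent.Ordinary.Toric

/-!
# The two geometric inputs of ordinarity at `p`

The connected part at `p ∤ M` of `J₀(M)` and the toric part at `p` of `J₀(M p)` with its two
pushforwards.
-/

noncomputable section

open ModularCurve AlgebraicCurve

namespace Fermat.Agent.TwoComponent.Ordinary

local notation "Qbar" => AlgebraicClosure ℚ

/-- The connected part at `p ∤ M` of `J₀(M)`. -/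
theorem hasConnectedPart (M p : ℕ) [NeZero M] [Fact p.Prime] (hp2 : p ≠ 2) (hpM : ¬ p ∣ M)
    {A : ValuationSubring (AlgebraicClosure ℚ)} (hA : A.LiesOverPrime p) :
    HasConnectedPart A p (JZero M) := by
  have : NeZero p := ⟨(Fact.out : p.Prime).ne_zero⟩
  refine hasConnectedPart_of_models hp2 hA (fun n => Flat.Mdl.finite_torsionBy_pow (N := M) p n)
    fun n => ?_
  obtain ⟨H, iR, iH, hf, -, -, e, he, hσ⟩ :=
    Flat.Mdl.hasFlatModel_JZero_torsion (N := M) hpM n
  exact ⟨H, iR, iH, hf, e, he, fun σ f g h => congrArg Subtype.val (hσ σ f g h)⟩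

/-- The toric part at `p` of `J₀(M p)`, for the two pushforwards. -/
theorem hasToricPart (M p : ℕ) [NeZero M] [Fact p.Prime] (hpM : ¬ p ∣ M)
    {A : ValuationSubring (AlgebraicClosure ℚ)} (hA : A.LiesOverPrime p) :
    haveI : NeZero p := ⟨(Fact.out : p.Prime).ne_zero⟩
    HasToricPart A p (SquareLevel.pushAlpha M p) (SquareLevel.pushBeta M p) :=
  haveI : NeZero p := ⟨(Fact.out : p.Prime).ne_zero⟩
  hasToricPart_JZero M p hpM hA (Hecke.alphaIntegral Qbar M p) (Hecke.betaIntegral Qbar M p)
    (fun D => SquareLevel.pushAlpha_mk M p D) (fun D => SquareLevel.pushBeta_mk M p D)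

end Fermat.Agent.TwoComponent.Ordinary
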