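import Mathlib.RingTheory.Nilpotent.Basic
import Fermat.Agent.TwoComponent.Ordinary.Idem
import Fermat.Agent.TwoComponent.Ordinary.Split

/-!
# The ordinarity argument on the lattice

A lattice with a split trace relation, mapped to torsion points of which the two pushforwards have
a connected part and the kernel of both a toric part: the decomposition group kills the lower
off-diagonal entry and inertia the lower diagonal character.
-/

noncomputable section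

namespace Fermat.Agent.TwoComponent.Ordinary

local notation "Qbar" => AlgebraicClosure ℚ
local notation "GQ" => (AlgebraicClosure ℚ ≃ₐ[ℚ] AlgebraicClosure ℚ)

section

variable {R : Type*} [CommRing R] {V : Type*} [AddCommGroup V] [Module R V]

/-- The image of `Iⁱ V` under an endomorphism. -/
def lev (I : Ideal R) (E : Module.End R V) (i : ℕ) : AddSubgroup V :=
  ((I ^ i • (⊤ : Submodule R V)).map E).toAddSubgroup

theorem lev_le (I : Ideal R) (E : Module.End R V) (i : ℕ) : lev I E i ≤ lev I E 0 := by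
  intro x hx
  obtain ⟨w, -, rfl⟩ := Submodule.mem_map.mp hx
  exact Submodule.mem_map.mpr
      ⟨w, by rw [pow_zero, Ideal.one_eq_top, Submodule.top_smul]; trivial, rfl⟩

theorem mem_lev_zero (I : Ideal R) (E : Module.End R V) (w : V) : E w ∈ lev I E 0 :=
  Submodule.mem_map.mpr ⟨w, by rw [pow_zero, Ideal.one_eq_top, Submodule.top_smul]; trivial, rfl⟩

theorem map_mem_pow (I : Ideal R) (T : Module.End R V) (i : ℕ) {w : V}
    (hw : w ∈ I ^ i • (⊤ : Submodule R V)) : T w ∈ I ^ i • (⊤ : Submodule R V) :=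
  Submodule.smul_top_le_comap_smul_top (I ^ i) T hw

theorem smul_mem_pow_succ (I : Ideal R) {c : R} (hc : c ∈ I) (i : ℕ) {w : V}
    (hw : w ∈ I ^ i • (⊤ : Submodule R V)) : c • w ∈ I ^ (i + 1) • (⊤ : Submodule R V) := by
  rw [pow_succ', ← smul_eq_mul, Submodule.smul_assoc]
  exact Submodule.smul_mem_smul hc hw

end

variable {R : Type*} [CommRing R] {V : Type*} [AddCommGroup V] [Module R V]
  {M J : Type*} [AddCommGroup M] [DistribMulAction GQ M] [AddCommGroup J] [DistribMulAction GQ J]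
  {A : ValuationSubring Qbar} {p : ℕ} [Fact p.Prime]

/-- On inertia with odd exponents `s` still inverts the roots of unity. -/
theorem actsByOnRoots_pow {s : GQ} (hs : ∀ z : Qbar, z ^ p = 1 → s z = z⁻¹) {j : ℕ} (hj : Odd j) :
    ActsByOnRoots p (s ^ j) (p - 1) := by
  obtain ⟨i, rfl⟩ := hj
  have h : ∀ i : ℕ, ∀ z : Qbar, z ^ p = 1 → (s ^ (2 * i + 1)) z = z⁻¹ := by
    intro i
    induction i with
    | zero => intro z hz; simpa using hs z hz
    | succ i ih =>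
      intro z hz
      rw [show 2 * (i + 1) + 1 = 2 + (2 * i + 1) by omega, pow_add, AlgEquiv.mul_apply, ih z hz,
        sq, AlgEquiv.mul_apply, map_inv₀, hs z hz, inv_inv, hs z hz]
  intro z hz
  rw [h i z hz]
  refine inv_eq_of_mul_eq_one_right ?_
  rw [← pow_succ', Nat.sub_add_cancel (Fact.out : p.Prime).one_le, hz]

variable (P : SplitData R V GQ) (I : Ideal R) (Φ : V →+ M)

theorem map_sum_split (hΦ : ∀ (σ : GQ) x, σ • Φ x = Φ (P.rho σ x)) (σ : GQ) (x : V) :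
    σ • Φ x = Φ (P.projA (P.rho σ x)) + Φ (P.projD (P.rho σ x)) := by
  rw [hΦ, ← map_add]
  congr 1
  exact (LinearMap.congr_fun P.projA_add_projD (P.rho σ x)).symm

theorem projD_idem (x : V) : P.projD (P.projD x) = P.projD x := LinearMap.congr_fun P.projD_sq x

theorem projD_rho_sub (σ : GQ) (w : V) :
    P.projD (P.rho σ (P.projD w) - P.projD w) = P.projD ((P.entD σ - 1) • w) := by
  rw [map_sub, projD_idem]
  rw [show P.projD (P.rho σ (P.projD w)) = P.entD σ • P.projD w from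
    LinearMap.congr_fun (P.compressD σ) w, map_smul, sub_smul, one_smul]

theorem projA_rho_sub_mem (i : ℕ) (σ : GQ) {w : V} (hw : w ∈ I ^ i • (⊤ : Submodule R V)) :
    P.projA (P.rho σ (P.projD w) - P.projD w) ∈ lev I P.projA i :=
  Submodule.mem_map_of_mem (sub_mem (map_mem_pow I _ i (map_mem_pow I P.projD i hw))
    (map_mem_pow I P.projD i hw))

/-- An odd power of `s` close to the filtration inverts the first eigenspace. -/
theorem pow_smul_projA (hp2 : p ≠ 2) (hpI : (p : R) ∈ I) (ha : P.rootA + 1 ∈ I)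
    (hΦ : ∀ (σ : GQ) x, σ • Φ x = Φ (P.rho σ x)) {k : ℕ} (hk : ∀ r ∈ I ^ k, ∀ v, Φ (r • v) = 0)
    (w : V) : (P.s ^ p ^ k) • Φ (P.projA w) = -Φ (P.projA w) := by
  have hodd : Odd (p ^ k) := ((Fact.out : p.Prime).odd_of_ne_two hp2).pow
  rw [hΦ, show P.rho (P.s ^ p ^ k) (P.projA w) = P.rootA ^ p ^ k • P.projA w from
    LinearMap.congr_fun (P.rho_pow_projA _) w, ← add_eq_zero_iff_eq_neg, ← map_add]
  have h := pow_prime_pow_sub_mem hpI (x := P.rootA) (y := -1) (by rwa [sub_neg_eq_add]) k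
  rw [hodd.neg_one_pow, sub_neg_eq_add] at h
  rw [show P.rootA ^ p ^ k • P.projA w + P.projA w = (P.rootA ^ p ^ k + 1) • P.projA w by
    rw [add_smul, one_smul]]
  exact hk _ (Ideal.pow_le_pow_right k.le_succ h) _

omit [Fact p.Prime] in
/-- Such a power of `s` fixes the second eigenspace. -/
theorem pow_smul_projD (hpI : (p : R) ∈ I) (hd : P.rootD - 1 ∈ I)
    (hΦ : ∀ (σ : GQ) x, σ • Φ x = Φ (P.rho σ x)) {k : ℕ} (hk : ∀ r ∈ I ^ k, ∀ v, Φ (r • v) = 0)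
    (w : V) : (P.s ^ p ^ k) • Φ (P.projD w) = Φ (P.projD w) := by
  rw [hΦ, show P.rho (P.s ^ p ^ k) (P.projD w) = P.rootD ^ p ^ k • P.projD w from
    LinearMap.congr_fun (P.rho_pow_projD _) w, ← sub_eq_zero, ← map_sub]
  have h := pow_prime_pow_sub_mem hpI (x := P.rootD) (y := 1) hd k
  rw [one_pow] at h
  rw [show P.rootD ^ p ^ k • P.projD w - P.projD w = (P.rootD ^ p ^ k - 1) • P.projD w by
    rw [sub_smul, one_smul]]
  exact hk _ (Ideal.pow_le_pow_right k.le_succ h) _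

/-- The image of the filtration under an equivariant map to a module with connected part is split
by the decomposition group and inertia. -/
theorem connected_image (hp2 : p ≠ 2) (hcon : HasConnectedPart A p J) {φ : M →+ J}
    (hφ : ∀ (σ : GQ) x, φ (σ • x) = σ • φ x) {n k : ℕ} (hkill : ∀ x, p ^ n • Φ x = 0)
    (hk : ∀ r ∈ I ^ k, ∀ v, Φ (r • v) = 0) (hpI : (p : R) ∈ I) {s : GQ}
    (hsI' : s ∈ A.inertiaSubgroupIn ℚ) (hsa : ∀ x ∈ (lev I P.projA 0).map Φ, s • x = -x)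
    (hsd : ∀ x ∈ (lev I P.projD 0).map Φ, s • x = x)
    (hDa : ∀ σ : GQ, ∀ x ∈ (lev I P.projA 0).map Φ,
      σ • x ∈ (lev I P.projA 0).map Φ ⊔ (lev I P.projD 0).map Φ)
    (hId0 : ∀ σ ∈ A.inertiaSubgroupIn ℚ, ∀ x ∈ (lev I P.projD 0).map Φ,
      σ • x - x ∈ (lev I P.projA 0).map Φ ⊔ (lev I P.projD 0).map Φ)
    (hIa : ∀ i, ∀ σ ∈ A.inertiaSubgroupIn ℚ, ∀ x ∈ (lev I P.projA i).map Φ,
      σ • x ∈ (lev I P.projA i).map Φ ⊔ (lev I P.projD (i + 1)).map Φ)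
    (hId : ∀ i, ∀ σ ∈ A.inertiaSubgroupIn ℚ, ∀ x ∈ (lev I P.projD i).map Φ,
      σ • x - x ∈ (lev I P.projA i).map Φ ⊔ (lev I P.projD (i + 1)).map Φ) :
    (∀ σ ∈ A.decompositionSubgroup ℚ, ∀ u ∈ (lev I P.projA 0).map Φ,
      φ (σ • u) ∈ ((lev I P.projA 0).map Φ).map φ) ∧
      ∀ σ ∈ A.inertiaSubgroupIn ℚ, ∀ v ∈ (lev I P.projD 0).map Φ,
        φ (σ • v - v) ∈ ((lev I P.projA 0).map Φ).map φ := by
  have hsup : ∀ (Q Q' : AddSubgroup M) (x : M), x ∈ Q ⊔ Q' → φ x ∈ Q.map φ ⊔ Q'.map φ :=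
    fun Q Q' x hx => by rw [← AddSubgroup.map_sup]; exact ⟨x, hx, rfl⟩
  have hkill' : ∀ (E : Module.End R V) i, ∀ y ∈ ((lev I E i).map Φ).map φ, p ^ n • y = 0 := by
    rintro E i _ ⟨_, ⟨w, -, rfl⟩, rfl⟩
    rw [← map_nsmul, hkill, map_zero]
  obtain ⟨h1, h2⟩ := connected_split hp2 hcon hsI' (n := n) (k := k)
    (fun i => ((lev I P.projA i).map Φ).map φ) (fun i => ((lev I P.projD i).map Φ).map φ)
    (hkill' _ 0) (hkill' _ 0)
    (by
      rintro _ ⟨x, hx, rfl⟩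
      rw [← hφ, hsa x hx, map_neg])
    (by
      rintro _ ⟨x, hx, rfl⟩
      rw [← hφ, hsd x hx])
    (fun i => ⟨AddSubgroup.map_mono (AddSubgroup.map_mono (lev_le I _ i)),
      AddSubgroup.map_mono (AddSubgroup.map_mono (lev_le I _ i))⟩)
    (fun i hi => by
      rw [eq_bot_iff]
      rintro _ ⟨_, ⟨_, ⟨w, hw, rfl⟩, rfl⟩, rfl⟩
      suffices h : Φ (P.projD w) = 0 by rw [h, map_zero]; exact zero_mem _
      refine Submodule.smul_induction_on (p := fun w => Φ (P.projD w) = 0) hw ?_ ?_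
      · intro r hr v _
        rw [map_smul]
        exact hk r (Ideal.pow_le_pow_right hi hr) _
      · intro x y hx hy
        rw [map_add, map_add, hx, hy, add_zero])
    (by
      rintro σ _ _ ⟨x, hx, rfl⟩
      rw [← hφ]
      exact hsup _ _ _ (hDa σ x hx))
    (by
      rintro σ hσ _ ⟨x, hx, rfl⟩
      rw [← hφ, ← map_sub]
      exact hsup _ _ _ (hId0 σ hσ x hx))
    (by
      rintro i σ hσ _ ⟨x, hx, rfl⟩
      rw [← hφ]
      exact hsup _ _ _ (hIa i σ hσ x hx))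
    (by
      rintro i σ hσ _ ⟨x, hx, rfl⟩
      rw [← hφ, ← map_sub]
      exact hsup _ _ _ (hId i σ hσ x hx))
    (by
      rintro i _ ⟨_, ⟨_, ⟨w, hw, rfl⟩, rfl⟩, rfl⟩
      refine ⟨Φ (P.projD ((p : R) • w)),
        ⟨_, Submodule.mem_map_of_mem (smul_mem_pow_succ I hpI i hw), rfl⟩, ?_⟩
      rw [map_smul, Nat.cast_smul_eq_nsmul, map_nsmul, map_nsmul])
  exact ⟨fun σ hσ u hu => hφ σ u ▸ h1 σ hσ _ ⟨u, hu, rfl⟩,
    fun σ hσ v hv => by rw [map_sub, hφ]; exact h2 σ hσ _ ⟨v, hv, rfl⟩⟩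

/-- The core at one level: the images of the lower off-diagonal block on the decomposition group
and of the squared deviation of the lower diagonal entry on inertia vanish. -/
theorem core_level (hp2 : p ≠ 2) {f g : M →+ J}
    (hf : ∀ (σ : GQ) (x : M), f (σ • x) = σ • f x) (hg : ∀ (σ : GQ) (x : M), g (σ • x) = σ • g x)
    (htor : HasToricPart A p f g) (hcon : HasConnectedPart A p J)
    (hΦ : ∀ (σ : GQ) x, σ • Φ x = Φ (P.rho σ x)) {n k : ℕ} (hkill : ∀ x, p ^ n • Φ x = 0)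
    (hk : ∀ r ∈ I ^ k, ∀ v, Φ (r • v) = 0)
    (hpI : (p : R) ∈ I) (hsI : P.s ∈ A.inertiaSubgroupIn ℚ)
    (hsz : ∀ z : Qbar, z ^ p = 1 → P.s z = z⁻¹)
    (ha : P.rootA + 1 ∈ I) (hd : P.rootD - 1 ∈ I) {g₀ h₀ : GQ}
    (hA : IsUnit (P.offA g₀ h₀)) (hD : IsUnit (P.offD h₀ g₀))
    (hIC : ∀ σ ∈ A.inertiaSubgroupIn ℚ, P.offD σ g₀ ∈ I)
    (hID : ∀ σ ∈ A.inertiaSubgroupIn ℚ, P.entD σ - 1 ∈ I) :
    (∀ σ ∈ A.decompositionSubgroup ℚ, ∀ w, Φ (P.projD (P.rho σ (P.projA w))) = 0) ∧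
      ∀ σ ∈ A.inertiaSubgroupIn ℚ, ∀ w, Φ (((P.entD σ - 1) * (P.entD σ - 1)) • P.projD w) = 0 := by
  have hodd : Odd (p ^ k) := ((Fact.out : p.Prime).odd_of_ne_two hp2).pow
  set s := P.s ^ p ^ k
  have hsI' : s ∈ A.inertiaSubgroupIn ℚ := pow_mem hsI _
  have hroot := actsByOnRoots_pow hsz hodd
  have hsa : ∀ x ∈ (lev I P.projA 0).map Φ, s • x = -x := by
    rintro _ ⟨_, ⟨w, -, rfl⟩, rfl⟩
    exact pow_smul_projA P I Φ hp2 hpI ha hΦ hk w
  have hsd : ∀ x ∈ (lev I P.projD 0).map Φ, s • x = x := by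
    rintro _ ⟨_, ⟨w, -, rfl⟩, rfl⟩
    exact pow_smul_projD P I Φ hpI hd hΦ hk w
  have hlow : ∀ σ ∈ A.inertiaSubgroupIn ℚ, ∀ i, ∀ w ∈ I ^ i • (⊤ : Submodule R V),
      P.projD (P.rho σ (P.projA w)) ∈ lev I P.projD (i + 1) := by
    intro σ hσ i w hw
    rw [show P.projD (P.rho σ (P.projA w)) =
        (↑hD.unit⁻¹ * P.offD σ g₀) • P.projD (P.rho h₀ (P.projA w)) from
      LinearMap.congr_fun (P.lower_eq hA hD σ) w, ← map_smul]
    exact Submodule.mem_map_of_mem (smul_mem_pow_succ I (Ideal.mul_mem_left _ _ (hIC σ hσ)) i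
      (map_mem_pow I _ i (map_mem_pow I P.projA i hw)))
  have hId : ∀ i, ∀ σ ∈ A.inertiaSubgroupIn ℚ, ∀ x ∈ (lev I P.projD i).map Φ,
      σ • x - x ∈ (lev I P.projA i).map Φ ⊔ (lev I P.projD (i + 1)).map Φ := by
    rintro i σ hσ _ ⟨_, ⟨w, hw, rfl⟩, rfl⟩
    rw [hΦ, ← map_sub]
    rw [show P.rho σ (P.projD w) - P.projD w = P.projA (P.rho σ (P.projD w) - P.projD w) +
      P.projD (P.rho σ (P.projD w) - P.projD w) from
      (LinearMap.congr_fun P.projA_add_projD _).symm, map_add]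
    refine AddSubgroup.add_mem_sup ⟨_, projA_rho_sub_mem P I i σ hw, rfl⟩ ⟨_, ?_, rfl⟩
    rw [projD_rho_sub]
    exact Submodule.mem_map_of_mem (smul_mem_pow_succ I (hID σ hσ) i hw)
  have hId0 : ∀ σ ∈ A.inertiaSubgroupIn ℚ, ∀ x ∈ (lev I P.projD 0).map Φ,
      σ • x - x ∈ (lev I P.projA 0).map Φ ⊔ (lev I P.projD 0).map Φ := fun σ hσ x hx =>
    sup_le_sup le_rfl (AddSubgroup.map_mono (lev_le I _ _)) (hId 0 σ hσ x hx)
  have hDa : ∀ σ : GQ, ∀ x ∈ (lev I P.projA 0).map Φ,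
      σ • x ∈ (lev I P.projA 0).map Φ ⊔ (lev I P.projD 0).map Φ := by
    rintro σ _ ⟨_, ⟨w, -, rfl⟩, rfl⟩
    rw [map_sum_split P Φ hΦ]
    exact AddSubgroup.add_mem_sup ⟨_, mem_lev_zero I _ _, rfl⟩ ⟨_, mem_lev_zero I _ _, rfl⟩
  have hIa : ∀ i, ∀ σ ∈ A.inertiaSubgroupIn ℚ, ∀ x ∈ (lev I P.projA i).map Φ,
      σ • x ∈ (lev I P.projA i).map Φ ⊔ (lev I P.projD (i + 1)).map Φ := by
    rintro i σ hσ _ ⟨_, ⟨w, hw, rfl⟩, rfl⟩
    rw [map_sum_split P Φ hΦ]
    exact AddSubgroup.add_mem_sup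
      ⟨_, Submodule.mem_map_of_mem (map_mem_pow I _ i (map_mem_pow I P.projA i hw)), rfl⟩
      ⟨_, hlow σ hσ i w hw, rfl⟩
  -- the two pushforwards
  have himg := fun (φ : M →+ J) (hφ : ∀ (σ : GQ) x, φ (σ • x) = σ • φ x) =>
    connected_image P I Φ hp2 hcon hφ hkill hk hpI hsI' hsa hsd hDa hId0 hIa hId
  have hkill0 : ∀ (E : Module.End R V), ∀ y ∈ (lev I E 0).map Φ, p ^ n • y = 0 := by
    rintro E _ ⟨w, -, rfl⟩
    exact hkill _
  obtain ⟨t1, t2⟩ := toric_split hp2 htor hf hg hsI' hroot ((lev I P.projA 0).map Φ)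
    ((lev I P.projD 0).map Φ) (hkill0 _) (hkill0 _) hsa hsd (fun σ _ => hDa σ) hId0
    (himg f hf).1 (himg g hg).1 (himg f hf).2 (himg g hg).2
  have hzero : ∀ x, x ∈ (lev I P.projA 0).map Φ → x ∈ (lev I P.projD 0).map Φ → x = 0 :=
    fun x h1 h2 => eq_zero_of_two_nsmul hp2 (hkill0 _ x h1) (by
      rw [two_nsmul, ← eq_neg_iff_add_eq_zero, ← hsa x h1, hsd x h2])
  have part1 : ∀ σ ∈ A.decompositionSubgroup ℚ, ∀ w, Φ (P.projD (P.rho σ (P.projA w))) = 0 := by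
    intro σ hσ w
    refine hzero _ ?_ ⟨_, mem_lev_zero I _ _, rfl⟩
    have h := t1 σ hσ _ ⟨_, mem_lev_zero I P.projA w, rfl⟩
    rw [map_sum_split P Φ hΦ] at h
    exact (AddSubgroup.add_mem_cancel_left ((lev I P.projA 0).map Φ)
      ⟨_, mem_lev_zero I P.projA _, rfl⟩).mp h
  refine ⟨part1, fun σ hσ w => ?_⟩
  refine hzero _ ?_ ⟨((P.entD σ - 1) * (P.entD σ - 1)) • P.projD w,
    (map_smul P.projD _ w) ▸ mem_lev_zero I _ _, rfl⟩
  have h := t2 σ hσ σ hσ _ ⟨_, mem_lev_zero I P.projD w, rfl⟩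
  simp only [hΦ, ← map_sub] at h
  set u := P.rho σ (P.projD w) - P.projD w
  rw [show P.rho σ u - u = P.projA (P.rho σ u - u) + P.projD (P.rho σ u - u) from
    (LinearMap.congr_fun P.projA_add_projD _).symm, map_add] at h
  have h2 := (AddSubgroup.add_mem_cancel_left ((lev I P.projA 0).map Φ)
      ⟨_, mem_lev_zero I P.projA _, rfl⟩).mp h
  rw [show P.projD (P.rho σ u - u) = P.projD (P.rho σ (P.projA u)) +
      P.projD (P.rho σ (P.projD u) - P.projD u) by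
    rw [← map_add, ← sub_eq_zero, ← map_sub]
    have e : u = P.projA u + P.projD u := (LinearMap.congr_fun P.projA_add_projD u).symm
    have e2 : P.rho σ u - u - (P.rho σ (P.projA u) + (P.rho σ (P.projD u) - P.projD u)) =
        -P.projA u := by
      conv_lhs => arg 1; rw [e]
      rw [map_add]
      abel
    rw [e2, map_neg, show P.projD (P.projA u) = 0 from LinearMap.congr_fun P.projD_projA u,
      neg_zero],
    map_add, part1 σ (inertia_le_decomposition A hσ) u, zero_add, projD_rho_sub, map_smul,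
    show P.projD u = (P.entD σ - 1) • P.projD w by rw [projD_rho_sub, map_smul], smul_smul] at h2
  exact h2

/-- **The core**: the lower off-diagonal entry vanishes on the decomposition group and the lower
diagonal entry is `1` on inertia. -/
theorem core [IsReduced R] (hp2 : p ≠ 2) {f g : M →+ J}
    (hf : ∀ (σ : GQ) (x : M), f (σ • x) = σ • f x) (hg : ∀ (σ : GQ) (x : M), g (σ • x) = σ • g x)
    (htor : HasToricPart A p f g) (hcon : HasConnectedPart A p J)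
    (Ψ : ℕ → V →+ M) (hΨ : ∀ n (σ : GQ) x, σ • Ψ n x = Ψ n (P.rho σ x))
    (hkill : ∀ n x, p ^ n • Ψ n x = 0) (hk : ∀ n, ∃ k, ∀ r ∈ I ^ k, ∀ v, Ψ n (r • v) = 0)
    (hsep : ∀ x, (∀ n, Ψ n x = 0) → x = 0)
    (hfaith : ∀ r : R, r • (1 : Module.End R V) = 0 → r = 0)
    (hpI : (p : R) ∈ I) (hsI : P.s ∈ A.inertiaSubgroupIn ℚ)
    (hsz : ∀ z : Qbar, z ^ p = 1 → P.s z = z⁻¹)
    (ha : P.rootA + 1 ∈ I) (hd : P.rootD - 1 ∈ I) {g₀ h₀ : GQ}
    (hA : IsUnit (P.offA g₀ h₀)) (hD : IsUnit (P.offD h₀ g₀))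
    (hIC : ∀ σ ∈ A.inertiaSubgroupIn ℚ, P.offD σ g₀ ∈ I)
    (hID : ∀ σ ∈ A.inertiaSubgroupIn ℚ, P.entD σ - 1 ∈ I) :
    (∀ σ ∈ A.decompositionSubgroup ℚ, P.offD σ g₀ = 0) ∧
      ∀ σ ∈ A.inertiaSubgroupIn ℚ, P.entD σ = 1 := by
  have key := fun n => core_level P I (Ψ n) hp2 hf hg htor hcon (hΨ n) (hkill n) (hk n).choose_spec
    hpI hsI hsz ha hd hA hD hIC hID
  constructor
  · intro σ hσ
    refine P.eq_zero_of_smul_projD hfaith hA (LinearMap.ext fun w => ?_)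
    have h1 : P.projD (P.rho σ (P.projA (P.rho g₀ (P.projD w)))) = 0 :=
      hsep _ fun n => (key n).1 σ hσ _
    refine Eq.trans ?_ h1
    exact (LinearMap.congr_fun (P.midD σ g₀) w).symm
  · intro σ hσ
    have h : (P.entD σ - 1) * (P.entD σ - 1) = 0 :=
      P.eq_zero_of_smul_projD hfaith hA (LinearMap.ext fun w =>
        hsep _ fun n => (key n).2 σ hσ w)
    exact sub_eq_zero.mp (IsReduced.eq_zero _ ⟨2, by rw [sq, h]⟩)

end Fermat.Agent.TwoComponent.Ordinary
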