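import Fermat.Agent.TwoComponent.Ordinary.Frame
import Fermat.Agent.TwoComponent.Ordinary.Points

/-!
# Ordinarity at a prime exactly dividing the level

From the connected and toric parts of the torsion of `J₀(M p)`, a representation attached to a
Hecke character whose residual representation is ordinary at `p` is ordinary at `p`.
-/

noncomputable section

open ModularCurve IsLocalRing
open scoped TensorProduct

namespace Fermat.Agent.TwoComponent.Ordinary

open Fermat.Agent.Attach

local notation "Qbar" => AlgebraicClosure ℚ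
local notation "GQ" => (AlgebraicClosure ℚ ≃ₐ[ℚ] AlgebraicClosure ℚ)

/-- **Ordinarity** from the two geometric properties, for any Hecke character with values in `T`. -/
theorem isOrdinaryAt_of_hom {N M₀ : ℕ} [NeZero N] {p : ℕ} [Fact p.Prime]
    {S : Finset ℕ} {O : Type} [CommRing O] [IsDomain O] [IsDiscreteValuationRing O]
    [IsAdicComplete (maximalIdeal O) O] [CharZero O] [Finite (ResidueField O)]
    {T : Type} [CommRing T] [IsLocalRing T] [IsNoetherianRing T]
    [IsAdicComplete (maximalIdeal T) T] [Algebra O T] [IsLocalHom (algebraMap O T)]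
    [Module.Finite O T] [Module.Free O T]
    (hp2 : p ≠ 2) (hpO : (p : O) ∈ maximalIdeal O) (hpS : p ∈ S)
    (hS : ∀ r, r.Prime → r ∣ N → r ∈ (↑S : Set ℕ)) (I : JacobianInputs N p)
    (f g : JZero N →+ JZero M₀) (hf : ∀ (σ : GQ) x, f (σ • x) = σ • f x)
    (hg : ∀ (σ : GQ) x, g (σ • x) = σ • g x)
    (hcon : ∀ A : ValuationSubring Qbar, A.LiesOverPrime p → HasConnectedPart A p (JZero M₀))
    (htor : ∀ A : ValuationSubring Qbar, A.LiesOverPrime p → HasToricPart A p f g)
    (π : CuspForm.heckeAlgebra N 2 (↑S : Set ℕ) →+* T)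
    (hgen : Algebra.adjoin O (Set.range π) = ⊤) (ρ : GaloisRepAdic T)
    (hfrob : ∀ (ℓ : ℕ) (hℓ : ℓ.Prime) (hℓN : ¬ ℓ ∣ N) (hℓS : ℓ ∉ (↑S : Set ℕ)),
      ∀ A : ValuationSubring Qbar, A.LiesOverPrime ℓ → ∀ σ : GQ, A.IsFrobeniusAt σ ℓ →
        LinearMap.charpoly (ρ.ρ σ) =
          Polynomial.X ^ 2 - Polynomial.C (π (CuspForm.heckeAlgebra.T hℓ hℓN hℓS)) * Polynomial.X +
              Polynomial.C ((ℓ : T)))
    (habs : ρ.residual.IsAbsolutelyIrreducible)
    (hres : (GaloisRepAdic.ofResidualGaloisRep ρ.residual).IsOrdinaryAt p) :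
    ρ.IsOrdinaryAt p := by
  intro A hA
  have hpT : (p : T) ∈ maximalIdeal T := natCast_mem_maximalIdeal hpO
  let M := I.model
  choose z hz htr hdet using exists_trace M (T := T) hpO I.galois hpS hS π ρ hfrob
  have hdetρ : ∀ σ, LinearMap.det (ρ.ρ σ) = TorsionModel.cycO hpT σ := fun σ => by
    rw [← det_repMat, hdet, map_cycO]
  let q := piExt O π
  have hq : Function.Surjective q := by
    have h : (⊤ : Subalgebra O T) ≤ q.range := by
      rw [← hgen]
      refine Algebra.adjoin_le ?_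
      rintro _ ⟨t, rfl⟩
      exact ⟨1 ⊗ₜ t, (piExt_tmul π 1 t).trans (by rw [map_one, one_mul])⟩
    exact fun x => h Algebra.mem_top
  have := module_finite_hecke M hS
  obtain ⟨L, _, _, _, F, hLc, hLfin, hloc⟩ := exists_factor q hq
  have := isReduced_heckeO M hS O
  have := F.isReduced (q := q)
  obtain ⟨dd, Φ, hΦg, hΦker, hΦkill⟩ := exists_level_maps hpO M
  obtain ⟨R⟩ := exists_ordinaryFrame (M := M) (hS := hS) F Φ hloc I.galois hp2 hpO hA ρ z hz htr
    hdetρ habs hres (f := f.compLeft (Fin dd)) (g := g.compLeft (Fin dd))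
    (fun σ x => funext fun i => by simp [hf]) (fun σ x => funext fun i => by simp [hg])
    ((htor A hA).pi _) ((hcon A hA).pi _) hΦg hΦker hΦkill
  exact ⟨_, ⟨R.B, rfl⟩, R.stable, R.unramified⟩

/-- **Ordinarity** from the two geometric properties, for a Hecke–Galois datum lifting a residual
character. -/
theorem isOrdinaryAt_of_parts {N M₀ : ℕ} [NeZero N] {p : ℕ} [Fact p.Prime]
    {S : Finset ℕ} {O : Type} [CommRing O] [IsDomain O] [IsDiscreteValuationRing O]
    [IsAdicComplete (maximalIdeal O) O] [CharZero O] [Finite (ResidueField O)]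
    {θ : CuspForm.heckeAlgebra N 2 (↑S : Set ℕ) →+* ResidueField O}
    {T : Type} [CommRing T] [IsLocalRing T] [IsNoetherianRing T]
    [IsAdicComplete (maximalIdeal T) T] [Algebra O T] [IsLocalHom (algebraMap O T)]
    [Module.Finite O T] [Module.Free O T]
    (hp2 : p ≠ 2) (hpO : (p : O) ∈ maximalIdeal O) (hpS : p ∈ S)
    (hS : ∀ r, r.Prime → r ∣ N → r ∈ (↑S : Set ℕ)) (I : JacobianInputs N p)
    (f g : JZero N →+ JZero M₀) (hf : ∀ (σ : GQ) x, f (σ • x) = σ • f x)
    (hg : ∀ (σ : GQ) x, g (σ • x) = σ • g x)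
    (hcon : ∀ A : ValuationSubring Qbar, A.LiesOverPrime p → HasConnectedPart A p (JZero M₀))
    (htor : ∀ A : ValuationSubring Qbar, A.LiesOverPrime p → HasToricPart A p f g)
    (H : CuspForm.HeckeGaloisRepDatum N (↑S : Set ℕ) O θ T)
    (hres : (GaloisRepAdic.ofResidualGaloisRep H.ρ.residual).IsOrdinaryAt p) :
    H.ρ.IsOrdinaryAt p :=
  isOrdinaryAt_of_hom hp2 hpO hpS hS I f g hf hg hcon htor H.π H.adjoin_range_π H.ρ H.charpoly_frob
    H.residual_absIrr hres

end Fermat.Agent.TwoComponent.Ordinary
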